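import Mathlib

/-!
# RECIP: abstract (group-theoretic) vocabulary

For an additive commutative group `U` with an endomorphism `s` (in the applications an
automorphism of prime order `p`):

* `dlt s = s - 1`,
* `nrm p s = 1 + s + ... + s ^ (p - 1)`.

These two operators are used to state the Herbrand quotient and the abstract Hasse norm theorem.
-/

set_option autoImplicit false

namespace Fermat.Agent.CFT.Recip

variable {U : Type*} [AddCommGroup U]

/-- The operator `s - 1`. -/
def dlt (s : U →+ U) : U →+ U := s - AddMonoidHom.id U

/-- The norm operator `1 + s + ... + s ^ (p - 1)`. -/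
def nrm (p : ℕ) (s : U →+ U) : U →+ U :=
  AddMonoidHom.mk' (fun x => ∑ i ∈ Finset.range p, (s^[i]) x) (by
    intro x y
    simp [Finset.sum_add_distrib, iterate_map_add])

@[simp] theorem dlt_apply (s : U →+ U) (x : U) : dlt s x = s x - x := rfl

@[simp] theorem nrm_apply (p : ℕ) (s : U →+ U) (x : U) :
    nrm p s x = ∑ i ∈ Finset.range p, (s^[i]) x := rfl

end Fermat.Agent.CFT.Recip
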