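import Mathlib

/-!
# RECIP: shared definitions

Reciprocity for an everywhere-unramified cyclic extension `L/K` of prime degree `p` of number
fields (project CFT, block RECIP).  This file only fixes the vocabulary used by all RECIP files.

* `ord v x`: the additive valuation of `x : K` at the prime `v` of `𝓞 K` (it is `0` at `x = 0`).
* `UnramifiedEverywhere K L`: all inertia groups of `L/K` at nonzero primes are trivial.
* `SplitsCompletely ℓ L`: the rational prime `ℓ` is unramified in `L` with residue degree one
  at every prime of `L` above it.
* `FixesPrime g P`: the automorphism `g` stabilises the prime `P`.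
-/

set_option autoImplicit false

open NumberField IsDedekindDomain

open scoped nonZeroDivisors Pointwise

namespace Fermat.Agent.CFT.Recip

/-- The additive valuation of `x : K` at the prime `v` of `𝓞 K`: the exponent of `v` in the
factorisation of the fractional ideal `(x)` (and `0` for `x = 0`). -/
noncomputable def ord {K : Type*} [Field K] [NumberField K] (v : HeightOneSpectrum (𝓞 K))
    (x : K) : ℤ :=
  FractionalIdeal.count K v (FractionalIdeal.spanSingleton (𝓞 K)⁰ x)

/-- `L/K` is unramified at every nonzero prime: all inertia groups are trivial. -/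
def UnramifiedEverywhere (K L : Type*) [Field K] [Field L] [NumberField L] [Algebra K L] : Prop :=
  ∀ P : Ideal (𝓞 L), P.IsPrime → P ≠ ⊥ → P.inertia (L ≃ₐ[K] L) = ⊥

/-- The rational prime `ℓ` splits completely in the number field `L`: every prime of `𝓞 L`
containing `ℓ` has absolute norm `ℓ` and does not contain `ℓ` to the second order. -/
def SplitsCompletely (ℓ : ℕ) (L : Type*) [Field L] [NumberField L] : Prop :=
  ∀ P : Ideal (𝓞 L), P.IsPrime → (ℓ : 𝓞 L) ∈ P → Ideal.absNorm P = ℓ ∧ (ℓ : 𝓞 L) ∉ P ^ 2

/-- The automorphism `g` of `L/K` stabilises the prime `P` of `𝓞 L`. -/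
def FixesPrime {K L : Type*} [Field K] [Field L] [NumberField L] [Algebra K L]
    (g : L ≃ₐ[K] L) (P : HeightOneSpectrum (𝓞 L)) : Prop :=
  g • P.asIdeal = P.asIdeal

end Fermat.Agent.CFT.Recip
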