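import Mathlib
import Fermat.Agent.Lib.Frob.Wiring
import Fermat.Agent.CFT.Recip.Defs

/-!
# RECIP (A): choice of the auxiliary prime `ℓ`

`L / ℚ` a finite Galois extension containing a primitive `p`-th root of unity `ζ`, `q` a rational
prime which is unramified at one prime of `L`.  Then (Frobenius density theorem, existence form,
applied to the Galois closure `M = L(q^{1/p})` and an element of `Gal(M/L)` moving `q^{1/p}`)
there are primes `ℓ` outside any given finite set such that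

* `ℓ` splits completely in `L` (`SplitsCompletely ℓ L`),
* `ℓ ≡ 1 mod p`,
* `q` is not a `p`-th power modulo `ℓ`.

Main statement: `exists_aux_prime`.  `aux_dvd_orderOf_of_not_pow` turns the last property into
`p ∣ orderOf q` in `(ZMod ℓ)`.
-/

set_option autoImplicit false

open NumberField Polynomial

open scoped Pointwise

namespace Fermat.Agent.CFT.Recip

/-- A finite field in which `ℓ = 0` (`ℓ` prime) and every element satisfies `a ^ ℓ = a` has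
exactly `ℓ` elements. -/
theorem aux_card_eq_of_pow_eq {k : Type*} [Field k] [Finite k] {ℓ : ℕ} (hℓ : ℓ.Prime)
    (hℓ0 : (ℓ : k) = 0) (h : ∀ a : k, a ^ ℓ = a) : Nat.card k = ℓ := by
  classical
  have := Fintype.ofFinite k
  have hle : Nat.card k ≤ ℓ := by
    have hne : (Polynomial.X ^ ℓ - Polynomial.X : Polynomial k) ≠ 0 :=
      FiniteField.X_pow_card_sub_X_ne_zero k hℓ.one_lt
    have hdeg : (Polynomial.X ^ ℓ - Polynomial.X : Polynomial k).natDegree = ℓ :=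
      FiniteField.X_pow_card_sub_X_natDegree_eq k hℓ.one_lt
    have := Polynomial.card_le_degree_of_subset_roots
      (p := (Polynomial.X ^ ℓ - Polynomial.X : Polynomial k)) (Z := Finset.univ) (by
        intro a _
        rw [Polynomial.mem_roots hne]
        simp [h a])
    rw [hdeg] at this
    rw [Nat.card_eq_fintype_card]
    simpa using this
  have hdvd : ℓ ∣ Nat.card k := by
    have : Fact ℓ.Prime := ⟨hℓ⟩
    have h1 : addOrderOf (1 : k) = ℓ :=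
      addOrderOf_eq_prime (by rw [nsmul_eq_mul, mul_one]; exact hℓ0) one_ne_zero
    rw [← h1]
    exact addOrderOf_dvd_natCard (1 : k)
  exact le_antisymm hle (Nat.le_of_dvd Nat.card_pos hdvd)

/-- If all elements of a commutative ring satisfy `x ^ ℓ - x ∈ P` for a prime ideal `P ∋ ℓ` with
finite quotient, then the quotient has `ℓ` elements. -/
theorem aux_card_quotient_eq {R : Type*} [CommRing R] (P : Ideal R) [P.IsMaximal]
    [Finite (R ⧸ P)] {ℓ : ℕ} (hℓ : ℓ.Prime) (hℓP : (ℓ : R) ∈ P) (h : ∀ x : R, x ^ ℓ - x ∈ P) :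
    Nat.card (R ⧸ P) = ℓ := by
  let _ := Ideal.Quotient.field P
  refine aux_card_eq_of_pow_eq hℓ ?_ ?_
  · rw [← map_natCast (Ideal.Quotient.mk P), Ideal.Quotient.eq_zero_iff_mem]
    exact hℓP
  · intro a
    obtain ⟨x, rfl⟩ := Ideal.Quotient.mk_surjective a
    rw [← map_pow, ← sub_eq_zero, ← map_sub, Ideal.Quotient.eq_zero_iff_mem]
    exact h x

/-- Distinct powers of a primitive `p`-th root of unity stay distinct modulo a prime ideal
not containing `p`. -/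
theorem aux_pow_modEq_of_sub_mem {R : Type*} [CommRing R] [IsDomain R] {p : ℕ} (hp : p.Prime)
    {μ : R} (hμ : IsPrimitiveRoot μ p) (P : Ideal R) [P.IsPrime] (hpP : (p : R) ∉ P)
    {i j : ℕ} (h : μ ^ i - μ ^ j ∈ P) : i ≡ j [MOD p] := by
  wlog hij : i ≤ j generalizing i j
  · exact (this (by rw [← neg_sub]; exact neg_mem h) (le_of_not_ge hij)).symm
  obtain ⟨d, rfl⟩ := Nat.exists_eq_add_of_le hij
  have hfac : μ ^ i - μ ^ (i + d) = μ ^ i * (1 - μ ^ d) := by ring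
  rw [hfac] at h
  have hμi : μ ^ i ∉ P := by
    intro hmem
    have h1 : (μ ^ i) ^ p ∈ P := Ideal.pow_mem_of_mem P hmem p hp.pos
    rw [← pow_mul, mul_comm, pow_mul, hμ.pow_eq_one, one_pow] at h1
    exact (Ideal.IsPrime.ne_top ‹P.IsPrime›) ((Ideal.eq_top_iff_one P).mpr h1)
  have h1 : 1 - μ ^ d ∈ P := (Ideal.IsPrime.mem_or_mem ‹P.IsPrime› h).resolve_left hμi
  -- reduce `d` mod `p`
  have hd : μ ^ d = μ ^ (d % p) := by
    conv_lhs => rw [← Nat.div_add_mod d p, pow_add, pow_mul, hμ.pow_eq_one, one_pow, one_mul]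
  rw [hd] at h1
  have hdp : d % p = 0 := by
    by_contra hne
    obtain ⟨n, hn⟩ : ∃ n, p = n + 1 := ⟨p - 1, by have := hp.pos; omega⟩
    have hμ' : IsPrimitiveRoot μ (n + 1) := hn ▸ hμ
    have hprod := hμ'.prod_one_sub_pow_eq_order
    have hlt : d % p < p := Nat.mod_lt _ hp.pos
    obtain ⟨k, hk⟩ : ∃ k, d % p = k + 1 := ⟨d % p - 1, by omega⟩
    have hkn : k ∈ Finset.range n := Finset.mem_range.mpr (by omega)
    have hdvd : (1 - μ ^ (k + 1)) ∣ ∏ k ∈ Finset.range n, (1 - μ ^ (k + 1)) :=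
      Finset.dvd_prod_of_mem _ hkn
    rw [hprod] at hdvd
    apply hpP
    have : (p : R) = (n : R) + 1 := by rw [hn]; push_cast; ring
    rw [this]
    rw [hk] at h1
    exact Ideal.mem_of_dvd P hdvd h1
  -- conclude
  unfold Nat.ModEq
  rw [Nat.add_mod, hdp, add_zero, Nat.mod_mod]

/-- A prime with trivial inertia group is unramified: `ℓ ∉ 𝔏 ^ 2`. -/
theorem aux_notMem_sq_of_inertia (M : Type) [Field M] [NumberField M] [IsGalois ℚ M] {ℓ : ℕ}
    (hℓ : ℓ.Prime) (𝔏 : Ideal (𝓞 M)) [𝔏.IsPrime] (hℓ𝔏 : (ℓ : 𝓞 M) ∈ 𝔏)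
    (hI : 𝔏.inertia Gal(M/ℚ) = ⊥) : (ℓ : 𝓞 M) ∉ 𝔏 ^ 2 := by
  have h1 : 𝔏.under ℤ = Ideal.span {(ℓ : ℤ)} := by
    have hmax : (Ideal.span {(ℓ : ℤ)}).IsMaximal :=
      PrincipalIdealRing.isMaximal_of_irreducible (Nat.prime_iff_prime_int.mp hℓ).irreducible
    refine (hmax.eq_of_le (Ideal.IsPrime.ne_top inferInstance) ?_).symm
    rw [Ideal.span_singleton_le_iff_mem]
    show algebraMap ℤ (𝓞 M) (ℓ : ℤ) ∈ 𝔏
    simpa using hℓ𝔏
  have hp0 : 𝔏.under ℤ ≠ ⊥ := by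
    rw [h1, Ne, Ideal.span_singleton_eq_bot]
    exact_mod_cast hℓ.ne_zero
  have hcard : Nat.card (𝔏.inertia Gal(M/ℚ)) = 1 := by
    rw [hI]
    simp
  have he : 𝔏.ramificationIdx ℤ = 1 := by
    rw [← Ideal.ramificationIdxIn_eq_ramificationIdx (𝔏.under ℤ) 𝔏 Gal(M/ℚ),
      ← Ideal.card_inertia_eq_ramificationIdxIn (G := Gal(M/ℚ)) (𝔏.under ℤ) 𝔏, hcard]
  have he' : (𝔏.under ℤ).ramificationIdx' 𝔏 = 1 := by
    rw [Ideal.ramificationIdx'_eq_ramificationIdx _ _ hp0, he]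
  intro hmem
  have hle : Ideal.map (algebraMap ℤ (𝓞 M)) (𝔏.under ℤ) ≤ 𝔏 ^ 2 := by
    rw [h1, Ideal.map_span, Set.image_singleton, Ideal.span_singleton_le_iff_mem]
    simpa using hmem
  unfold Ideal.ramificationIdx' at he'
  by_cases hb : BddAbove {n | Ideal.map (algebraMap ℤ (𝓞 M)) (𝔏.under ℤ) ≤ 𝔏 ^ n}
  · have h2 : 2 ≤ sSup {n | Ideal.map (algebraMap ℤ (𝓞 M)) (𝔏.under ℤ) ≤ 𝔏 ^ n} :=
      le_csSup hb hle
    omega
  · rw [Nat.sSup_of_not_bddAbove hb] at he'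
    omega

/-- The rational prime below a prime of a ring of integers. -/
theorem aux_under_int (L : Type*) [Field L] {ℓ : ℕ} (hℓ : ℓ.Prime) (P : Ideal (𝓞 L))
    [P.IsPrime] (hP : (ℓ : 𝓞 L) ∈ P) : P.under ℤ = Ideal.span {(ℓ : ℤ)} := by
  have hmax : (Ideal.span {(ℓ : ℤ)}).IsMaximal :=
    PrincipalIdealRing.isMaximal_of_irreducible (Nat.prime_iff_prime_int.mp hℓ).irreducible
  refine (hmax.eq_of_le (Ideal.IsPrime.ne_top inferInstance) ?_).symm
  rw [Ideal.span_singleton_le_iff_mem]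
  show algebraMap ℤ (𝓞 L) (ℓ : ℤ) ∈ P
  simpa using hP

/-- Two distinct rational primes cannot both lie in a proper ideal. -/
theorem aux_prime_notMem {R : Type*} [CommRing R] (P : Ideal R) (hP : P ≠ ⊤) {ℓ r : ℕ}
    (hℓ : ℓ.Prime) (hr : r.Prime) (hne : ℓ ≠ r) (hℓP : (ℓ : R) ∈ P) : (r : R) ∉ P := by
  intro hrP
  have hcop : IsCoprime (ℓ : ℤ) (r : ℤ) :=
    Nat.isCoprime_iff_coprime.mpr ((Nat.coprime_primes hℓ hr).mpr hne)
  obtain ⟨a, b, hab⟩ := hcop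
  apply hP
  rw [Ideal.eq_top_iff_one]
  have h1 : ((a : R) * (ℓ : R) + (b : R) * (r : R)) = 1 := by
    have := congrArg (Int.cast : ℤ → R) hab
    push_cast at this
    exact this
  rw [← h1]
  exact P.add_mem (P.mul_mem_left _ hℓP) (P.mul_mem_left _ hrP)

/-- Congruent natural numbers have difference in any ideal containing the modulus. -/
theorem aux_sub_mem_of_modEq {R : Type*} [CommRing R] (P : Ideal R) {ℓ a b : ℕ}
    (hℓP : (ℓ : R) ∈ P) (h : a ≡ b [MOD ℓ]) : (a : R) - (b : R) ∈ P := by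
  obtain ⟨c, hc⟩ := (Nat.modEq_iff_dvd.mp h)
  have h1 : (b : R) - (a : R) = (ℓ : R) * (c : R) := by
    have := congrArg (Int.cast : ℤ → R) hc
    push_cast at this
    exact this
  rw [← neg_sub, h1]
  exact neg_mem (P.mul_mem_right _ hℓP)

/-- **Choice of the auxiliary prime, core.**  `M / ℚ` Galois containing `L`, `θ ∈ M` with
`θ ^ p = q`, and `g ∈ Gal(M/ℚ)` fixing `L` pointwise and moving `θ`.  Then the Frobenius density
theorem produces a prime `ℓ` which splits completely in `L` and modulo which `q` is not a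
`p`-th power. -/
theorem exists_aux_prime_core {p : ℕ} [Fact p.Prime] (hF : Lib.Frob.PrimeArithFrobGenerates)
    (L : Type) [Field L] [NumberField L] [IsGalois ℚ L]
    (M : Type) [Field M] [NumberField M] [IsGalois ℚ M] [Algebra L M]
    (ζ : L) (hζ : IsPrimitiveRoot ζ p) (q : ℕ) (hq : q.Prime)
    (θ : M) (hθ : θ ^ p = (q : M)) (g : Gal(M/ℚ))
    (hgL : ∀ y : L, g (algebraMap L M y) = algebraMap L M y) (hgθ : g θ ≠ θ)
    (S : Set ℕ) (hS : S.Finite) :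
    ∃ ℓ : ℕ, ℓ.Prime ∧ ℓ ∉ S ∧ ℓ ≠ p ∧ ℓ ≠ q ∧ SplitsCompletely ℓ L ∧
      (∀ x : ZMod ℓ, x ^ p ≠ (q : ZMod ℓ)) ∧ ℓ % p = 1 := by
  have hp : p.Prime := Fact.out
  have : NeZero p := ⟨hp.ne_zero⟩
  obtain ⟨ℓ, 𝔏, τ, hℓ, hℓS, h𝔏, hℓ𝔏, hI, hτ, hgen⟩ :=
    hF M g (S ∪ {p, q}) (hS.union (by simp))
  have hℓS' : ℓ ∉ S := fun h ↦ hℓS (Or.inl h)
  have hℓp : ℓ ≠ p := fun h ↦ hℓS (Or.inr (by simp [h]))
  have hℓq : ℓ ≠ q := fun h ↦ hℓS (Or.inr (by simp [h]))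
  have h𝔏top : 𝔏 ≠ ⊤ := h𝔏.ne_top
  have hp𝔏 : (p : 𝓞 M) ∉ 𝔏 := aux_prime_notMem 𝔏 h𝔏top hℓ hp hℓp hℓ𝔏
  have hq𝔏 : (q : 𝓞 M) ∉ 𝔏 := aux_prime_notMem 𝔏 h𝔏top hℓ hq hℓq hℓ𝔏
  -- `τ` fixes `L` pointwise and moves `θ`
  have hτL : ∀ y : L, τ (algebraMap L M y) = algebraMap L M y := by
    let H : Subgroup Gal(M/ℚ) :=
      { carrier := {σ | ∀ y : L, σ (algebraMap L M y) = algebraMap L M y}
        mul_mem' := fun {a b} ha hb y ↦ by rw [AlgEquiv.mul_apply, hb y, ha y]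
        one_mem' := fun y ↦ rfl
        inv_mem' := fun {a} ha y ↦ by
          show a.symm _ = _
          rw [AlgEquiv.symm_apply_eq, ha y] }
    have hle : Subgroup.zpowers g ≤ H := Subgroup.zpowers_le.mpr hgL
    have hmem : τ ∈ H := hle (hgen ▸ Subgroup.mem_zpowers τ)
    exact hmem
  have hτθ : τ θ ≠ θ := by
    intro h
    let H : Subgroup Gal(M/ℚ) :=
      { carrier := {σ | σ θ = θ}
        mul_mem' := fun {a b} ha hb ↦ by
          show (a * b) θ = θ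
          rw [AlgEquiv.mul_apply, hb, ha]
        one_mem' := rfl
        inv_mem' := fun {a} ha ↦ by
          show a.symm θ = θ
          rw [AlgEquiv.symm_apply_eq]
          exact ha.symm }
    have hle : Subgroup.zpowers τ ≤ H := Subgroup.zpowers_le.mpr h
    have hmem : g ∈ H := hle (hgen.symm ▸ Subgroup.mem_zpowers g)
    exact hgθ hmem
  -- the Frobenius congruence
  have hcard : Nat.card (ℤ ⧸ 𝔏.under ℤ) = ℓ := Lib.Frob.natCard_quotient_under_eq M hℓ 𝔏 hℓ𝔏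
  have frob : ∀ x : 𝓞 M, (MulSemiringAction.toAlgHom ℤ (𝓞 M) τ) x - x ^ ℓ ∈ 𝔏 := by
    intro x
    have := hτ x
    rwa [hcard] at this
  have hfixL : ∀ y : 𝓞 L, (MulSemiringAction.toAlgHom ℤ (𝓞 M) τ) (algebraMap (𝓞 L) (𝓞 M) y)
      = algebraMap (𝓞 L) (𝓞 M) y := fun y ↦ RingOfIntegers.ext (hτL y)
  -- the primitive root in `𝓞 M`
  set ζM : 𝓞 M := algebraMap (𝓞 L) (𝓞 M) hζ.toInteger with hζMdef
  have hζM : IsPrimitiveRoot ζM p :=
    hζ.toInteger_isPrimitiveRoot.map_of_injective (FaithfulSMul.algebraMap_injective _ _)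
  -- `ℓ ≡ 1 mod p`
  have hℓ1 : 1 ≡ ℓ [MOD p] := by
    have h1 := frob ζM
    rw [hζMdef, hfixL, ← hζMdef] at h1
    nth_rewrite 1 [← pow_one ζM] at h1
    exact aux_pow_modEq_of_sub_mem hp hζM 𝔏 hp𝔏 h1
  have hℓmod : ℓ % p = 1 := by
    have := hℓ1.symm
    unfold Nat.ModEq at this
    rw [this, Nat.mod_eq_of_lt hp.one_lt]
  refine ⟨ℓ, hℓ, hℓS', hℓp, hℓq, ?_, ?_, hℓmod⟩
  · -- `ℓ` splits completely in `L`
    set P₀ : Ideal (𝓞 L) := 𝔏.under (𝓞 L) with hP₀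
    have hP₀prime : P₀.IsPrime := Ideal.comap_isPrime _ 𝔏
    have hℓP₀ : (ℓ : 𝓞 L) ∈ P₀ := by
      rw [hP₀, Ideal.under_def, Ideal.mem_comap, map_natCast]
      exact hℓ𝔏
    have good₀ : ∀ x : 𝓞 L, x ^ ℓ - x ∈ P₀ := by
      intro x
      have h1 := frob (algebraMap (𝓞 L) (𝓞 M) x)
      rw [hfixL, ← map_pow, ← map_sub] at h1
      rw [hP₀, Ideal.under_def, Ideal.mem_comap, ← neg_sub, map_neg]
      exact neg_mem h1
    have sq₀ : (ℓ : 𝓞 L) ∉ P₀ ^ 2 := by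
      intro hmem
      apply aux_notMem_sq_of_inertia M hℓ 𝔏 hℓ𝔏 hI
      have h1 : algebraMap (𝓞 L) (𝓞 M) (ℓ : 𝓞 L) ∈ (P₀ ^ 2).map (algebraMap (𝓞 L) (𝓞 M)) :=
        Ideal.mem_map_of_mem _ hmem
      rw [Ideal.map_pow, map_natCast] at h1
      exact Ideal.pow_right_mono Ideal.map_comap_le 2 h1
    intro P hP hℓP
    have hu₀ : P₀.under ℤ = Ideal.span {(ℓ : ℤ)} := aux_under_int L hℓ P₀ hℓP₀
    have hu : P.under ℤ = Ideal.span {(ℓ : ℤ)} := aux_under_int L hℓ P hℓP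
    have : P₀.LiesOver (Ideal.span {(ℓ : ℤ)}) := ⟨hu₀.symm⟩
    have : P.LiesOver (Ideal.span {(ℓ : ℤ)}) := ⟨hu.symm⟩
    obtain ⟨h, rfl⟩ := Ideal.exists_smul_eq_of_isGaloisGroup (Ideal.span {(ℓ : ℤ)}) P₀ P Gal(L/ℚ)
    have hne : h • P₀ ≠ ⊥ := by
      intro hbot
      rw [hbot, Ideal.mem_bot] at hℓP
      exact hℓ.ne_zero (by exact_mod_cast hℓP)
    have good : ∀ x : 𝓞 L, x ^ ℓ - x ∈ h • P₀ := by
      intro x
      rw [Ideal.mem_pointwise_smul_iff_inv_smul_mem, smul_sub, smul_pow']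
      exact good₀ _
    have sq : (ℓ : 𝓞 L) ∉ (h • P₀) ^ 2 := by
      rw [← smul_pow', Ideal.mem_pointwise_smul_iff_inv_smul_mem]
      have : h⁻¹ • (ℓ : 𝓞 L) = (ℓ : 𝓞 L) :=
        map_natCast (MulSemiringAction.toRingHom Gal(L/ℚ) (𝓞 L) h⁻¹) ℓ
      rw [this]
      exact sq₀
    refine ⟨?_, sq⟩
    have hmax : (h • P₀).IsMaximal := Ring.DimensionLEOne.maximalOfPrime hne hP
    have hfin : Finite (𝓞 L ⧸ h • P₀) := Ideal.finiteQuotientOfFreeOfNeBot _ hne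
    rw [Ideal.absNorm_apply, Submodule.cardQuot_apply]
    exact aux_card_quotient_eq (h • P₀) hℓ hℓP good
  · -- `q` is not a `p`-th power modulo `ℓ`
    intro x hx
    have : NeZero ℓ := ⟨hℓ.ne_zero⟩
    have : Fact ℓ.Prime := ⟨hℓ⟩
    set n : ℕ := x.val with hn
    have hxn : ((n : ℕ) : ZMod ℓ) = x := ZMod.natCast_zmod_val x
    -- `n ^ p ≡ q mod ℓ`
    have hnq : n ^ p ≡ q [MOD ℓ] := by
      rw [← ZMod.natCast_eq_natCast_iff]
      push_cast
      rw [hxn, hx]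
    have hnn : n ^ ℓ ≡ n [MOD ℓ] := by
      rw [← ZMod.natCast_eq_natCast_iff]
      push_cast
      exact ZMod.pow_card _
    have h1 : (n : 𝓞 M) ^ p - (q : 𝓞 M) ∈ 𝔏 := by
      have := aux_sub_mem_of_modEq 𝔏 hℓ𝔏 hnq
      push_cast at this
      exact this
    have h2 : (n : 𝓞 M) ^ ℓ - (n : 𝓞 M) ∈ 𝔏 := by
      have := aux_sub_mem_of_modEq 𝔏 hℓ𝔏 hnn
      push_cast at this
      exact this
    -- the integer `θ'`
    have hθint : IsIntegral ℤ θ := by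
      refine IsIntegral.of_pow hp.pos ?_
      rw [hθ]
      exact isIntegral_natCast q
    set θ' : 𝓞 M := ⟨θ, hθint⟩ with hθ'def
    have hθ' : θ' ^ p = (q : 𝓞 M) := by
      apply RingOfIntegers.ext
      push_cast
      exact hθ
    have hθ'𝔏 : θ' ∉ 𝔏 := by
      intro hmem
      apply hq𝔏
      rw [← hθ']
      exact Ideal.pow_mem_of_mem 𝔏 hmem p hp.pos
    have hroot𝔏 : ∀ μ : 𝓞 M, μ ^ p = 1 → μ ∉ 𝔏 := by
      intro μ hμ hmem
      have h3 : μ ^ p ∈ 𝔏 := Ideal.pow_mem_of_mem 𝔏 hmem p hp.pos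
      rw [hμ] at h3
      exact h𝔏top ((Ideal.eq_top_iff_one 𝔏).mpr h3)
    -- a root of unity `μ` with `n ≡ μ θ'`
    rw [← hθ', hζM.pow_sub_pow_eq_prod_sub_mul _ _ hp.pos, Ideal.IsPrime.prod_mem_iff] at h1
    obtain ⟨μ, hμmem, hμ⟩ := h1
    rw [Polynomial.mem_nthRootsFinset hp.pos] at hμmem
    -- `(μ θ') ^ ℓ ≡ μ θ'`
    have h3 : (μ * θ') ^ ℓ - (n : 𝓞 M) ^ ℓ ∈ 𝔏 := by
      have hdvd := sub_dvd_pow_sub_pow (μ * θ') (n : 𝓞 M) ℓ
      refine Ideal.mem_of_dvd 𝔏 hdvd ?_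
      rw [← neg_sub]
      exact neg_mem hμ
    have h4 : (μ * θ') ^ ℓ - μ * θ' ∈ 𝔏 := by
      have e : (μ * θ') ^ ℓ - μ * θ' = ((μ * θ') ^ ℓ - (n : 𝓞 M) ^ ℓ) +
          ((n : 𝓞 M) ^ ℓ - (n : 𝓞 M)) + ((n : 𝓞 M) - μ * θ') := by ring
      rw [e]
      exact 𝔏.add_mem (𝔏.add_mem h3 h2) hμ
    have hμℓ : μ ^ ℓ = μ := by
      obtain ⟨k, hk⟩ : ∃ k, ℓ = 1 + p * k := ⟨ℓ / p, by
        have := Nat.div_add_mod ℓ p
        rw [hℓmod] at this
        omega⟩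
      rw [hk, pow_add, pow_one, pow_mul, hμmem, one_pow, mul_one]
    have h5 : θ' ^ ℓ - θ' ∈ 𝔏 := by
      have e : (μ * θ') ^ ℓ - μ * θ' = μ * (θ' ^ ℓ - θ') := by
        rw [mul_pow, hμℓ]
        ring
      rw [e] at h4
      exact (Ideal.IsPrime.mem_or_mem h𝔏 h4).resolve_left (hroot𝔏 μ hμmem)
    -- `τ θ' ≡ θ'`
    set T : 𝓞 M := (MulSemiringAction.toAlgHom ℤ (𝓞 M) τ) θ' with hT
    have h6 : T - θ' ∈ 𝔏 := by
      have e : T - θ' = (T - θ' ^ ℓ) + (θ' ^ ℓ - θ') := by ring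
      rw [e]
      exact 𝔏.add_mem (frob θ') h5
    -- `τ θ' = ν θ'` with `ν ≠ 1`
    have hTp : T ^ p - θ' ^ p = 0 := by
      rw [hT, ← map_pow, hθ', map_natCast, sub_self]
    rw [hζM.pow_sub_pow_eq_prod_sub_mul _ _ hp.pos, Finset.prod_eq_zero_iff] at hTp
    obtain ⟨ν, hνmem, hν⟩ := hTp
    rw [Polynomial.mem_nthRootsFinset hp.pos] at hνmem
    have hTν : T = ν * θ' := sub_eq_zero.mp hν
    have hν1 : ν ≠ 1 := by
      intro h1
      rw [h1, one_mul] at hTν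
      apply hτθ
      have := congrArg (fun y : 𝓞 M ↦ (y : M)) hTν
      exact this
    have h7 : (ν - 1) * θ' ∈ 𝔏 := by
      have e : (ν - 1) * θ' = T - θ' := by rw [hTν]; ring
      rw [e]
      exact h6
    have h8 : ν - 1 ∈ 𝔏 := (Ideal.IsPrime.mem_or_mem h𝔏 h7).resolve_right hθ'𝔏
    obtain ⟨j, hj, hjν⟩ := hζM.eq_pow_of_pow_eq_one hνmem
    have h9 : ζM ^ j - ζM ^ 0 ∈ 𝔏 := by
      rw [hjν, pow_zero]
      exact h8
    have h10 := aux_pow_modEq_of_sub_mem hp hζM 𝔏 hp𝔏 h9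
    have hj0 : j = 0 := by
      unfold Nat.ModEq at h10
      rw [Nat.mod_eq_of_lt hj, Nat.zero_mod] at h10
      exact h10
    apply hν1
    rw [← hjν, hj0, pow_zero]

/-- A finite normal extension is the splitting field of a nonzero polynomial. -/
theorem aux_exists_ne_zero_isSplittingField (F K : Type*) [Field F] [Field K] [Algebra F K]
    [Normal F K] [FiniteDimensional F K] : ∃ f : F[X], f ≠ 0 ∧ IsSplittingField F K f := by
  obtain ⟨f, hf⟩ := Normal.exists_isSplittingField F K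
  by_cases h0 : f = 0
  · subst h0
    refine ⟨X, X_ne_zero, ⟨?_, ?_⟩⟩
    · rw [Polynomial.map_X]
      exact Splits.X
    · have h1 := hf.adjoin_rootSet
      rw [Polynomial.rootSet_zero, Algebra.adjoin_empty] at h1
      rw [eq_top_iff, ← h1]
      exact bot_le
  · exact ⟨f, h0, hf⟩

/-- **Choice of the auxiliary prime**, for a given splitting field `M` of `X ^ p - q` over `L`. -/
theorem exists_aux_prime_of_isSplittingField {p : ℕ} [Fact p.Prime]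
    (hF : Lib.Frob.PrimeArithFrobGenerates)
    (L : Type) [Field L] [NumberField L] [IsGalois ℚ L] (ζ : L) (hζ : IsPrimitiveRoot ζ p)
    (q : ℕ) (hq : q.Prime)
    (M : Type) [Field M] [Algebra L M]
    [IsSplittingField L M (Polynomial.map (algebraMap ℚ L) (X ^ p - C (q : ℚ)))]
    (hqL : ∃ Q : Ideal (𝓞 L), Q.IsPrime ∧ (q : 𝓞 L) ∈ Q ∧ (q : 𝓞 L) ∉ Q ^ 2)
    (S : Set ℕ) (hS : S.Finite) :
    ∃ ℓ : ℕ, ℓ.Prime ∧ ℓ ∉ S ∧ ℓ ≠ p ∧ ℓ ≠ q ∧ SplitsCompletely ℓ L ∧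
      (∀ x : ZMod ℓ, x ^ p ≠ (q : ZMod ℓ)) ∧ ℓ % p = 1 := by
  have hp : p.Prime := Fact.out
  set g₀ : ℚ[X] := X ^ p - C (q : ℚ) with hg₀
  have hg₀ne : g₀ ≠ 0 := X_pow_sub_C_ne_zero hp.pos _
  have : CharZero M := charZero_of_injective_algebraMap (algebraMap L M).injective
  have : FiniteDimensional L M :=
    IsSplittingField.finiteDimensional M (Polynomial.map (algebraMap ℚ L) g₀)
  have : FiniteDimensional ℚ M := FiniteDimensional.trans ℚ L M
  have : NumberField M := ⟨⟩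
  obtain ⟨f₀, hf₀ne, hf₀⟩ := aux_exists_ne_zero_isSplittingField ℚ L
  have : IsSplittingField ℚ M (f₀ * g₀) :=
    IsSplittingField.mul (F := ℚ) (K := L) M f₀ g₀ hf₀ne hg₀ne
  have : Normal ℚ M := Normal.of_isSplittingField (f₀ * g₀)
  have : IsGalois ℚ M := ⟨⟩
  have : Normal L M := Normal.of_isSplittingField (Polynomial.map (algebraMap ℚ L) g₀)
  have : IsGalois L M := ⟨⟩
  -- a root `θ`
  have hsplit : (Polynomial.map (algebraMap L M) (Polynomial.map (algebraMap ℚ L) g₀)).Splits :=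
    IsSplittingField.splits M (Polynomial.map (algebraMap ℚ L) g₀)
  have hdeg : (Polynomial.map (algebraMap L M) (Polynomial.map (algebraMap ℚ L) g₀)).degree
      ≠ 0 := by
    rw [Polynomial.degree_map, Polynomial.degree_map, hg₀, degree_X_pow_sub_C hp.pos]
    exact_mod_cast hp.ne_zero
  obtain ⟨θ, hθ0⟩ := hsplit.exists_eval_eq_zero hdeg
  have hθ : θ ^ p = (q : M) := by
    rw [hg₀] at hθ0
    simp only [Polynomial.map_sub, Polynomial.map_pow, Polynomial.map_X, map_natCast,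
      Polynomial.map_natCast, eval_sub, eval_pow, eval_X, eval_natCast] at hθ0
    exact sub_eq_zero.mp hθ0
  -- `θ ∉ L`
  have hθL : θ ∉ Set.range (algebraMap L M) := by
    rintro ⟨y, rfl⟩
    have hy : y ^ p = (q : L) := by
      apply (algebraMap L M).injective
      rw [map_pow, hθ, map_natCast]
    have hyint : IsIntegral ℤ y := by
      refine IsIntegral.of_pow hp.pos ?_
      rw [hy]
      exact isIntegral_natCast q
    set y' : 𝓞 L := ⟨y, hyint⟩ with hy'def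
    have hy' : y' ^ p = (q : 𝓞 L) := by
      apply RingOfIntegers.ext
      push_cast
      exact hy
    obtain ⟨Q, hQ, hqQ, hqQ2⟩ := hqL
    apply hqQ2
    have h1 : y' ∈ Q := by
      apply hQ.mem_of_pow_mem p
      rw [hy']
      exact hqQ
    rw [← hy']
    exact Ideal.pow_le_pow_right hp.two_le (Ideal.pow_mem_pow h1 p)
  rw [IsGalois.mem_range_algebraMap_iff_fixed] at hθL
  push Not at hθL
  obtain ⟨σ, hσ⟩ := hθL
  exact exists_aux_prime_core hF L M ζ hζ q hq θ hθ (σ.restrictScalars ℚ)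
    (fun y ↦ σ.commutes y) hσ S hS

/-- **RECIP (A): choice of the auxiliary prime `ℓ`.**  `L / ℚ` Galois containing a primitive
`p`-th root of unity, `q` a prime which is unramified at one prime of `L`.  Then there are
primes `ℓ` outside any given finite set which split completely in `L`, are `≡ 1 mod p`, and
modulo which `q` is not a `p`-th power. -/
theorem exists_aux_prime {p : ℕ} [Fact p.Prime] (hF : Lib.Frob.PrimeArithFrobGenerates)
    (L : Type) [Field L] [NumberField L] [IsGalois ℚ L] (ζ : L) (hζ : IsPrimitiveRoot ζ p)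
    (q : ℕ) (hq : q.Prime)
    (hqL : ∃ Q : Ideal (𝓞 L), Q.IsPrime ∧ (q : 𝓞 L) ∈ Q ∧ (q : 𝓞 L) ∉ Q ^ 2)
    (S : Set ℕ) (hS : S.Finite) :
    ∃ ℓ : ℕ, ℓ.Prime ∧ ℓ ∉ S ∧ ℓ ≠ p ∧ ℓ ≠ q ∧ SplitsCompletely ℓ L ∧
      (∀ x : ZMod ℓ, x ^ p ≠ (q : ZMod ℓ)) ∧ ℓ % p = 1 :=
  exists_aux_prime_of_isSplittingField hF L ζ hζ q hq
    (Polynomial.map (algebraMap ℚ L) (X ^ p - C (q : ℚ))).SplittingField hqL S hS

/-- If `a` is not a `p`-th power in a monoid, then `p` divides the order of `a`. -/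
theorem aux_dvd_orderOf_of_not_pow {G : Type*} [Monoid G] {p : ℕ} (hp : p.Prime) (a : G)
    (h : ∀ x : G, x ^ p ≠ a) : p ∣ orderOf a := by
  by_contra hndvd
  set m := orderOf a with hm
  have hm0 : m ≠ 0 := fun h0 ↦ hndvd (h0 ▸ dvd_zero p)
  have hm1 : m ≠ 1 := by
    intro h1
    have ha : a = 1 := orderOf_eq_one_iff.mp (hm ▸ h1)
    exact h 1 (by rw [one_pow, ha])
  have hcop : Nat.Coprime p m := (Nat.Prime.coprime_iff_not_dvd hp).mpr hndvd
  obtain ⟨b, -, hb⟩ := Nat.exists_mul_mod_eq_one_of_coprime hcop (by omega)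
  apply h (a ^ b)
  rw [← pow_mul, mul_comm b p, ← Nat.mod_add_div (p * b) m, hb, pow_add, pow_one, pow_mul,
    hm, pow_orderOf_eq_one, one_pow, mul_one]

end Fermat.Agent.CFT.Recip
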