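import Mathlib
import Fermat.Agent.Lib.Frob.Wiring
import Fermat.Agent.CFT.Recip.Defs
import Fermat.Agent.CFT.Core.Frob

/-!
# RECIP: choice of the auxiliary prime `ℓ`

`L` a number field, Galois over `ℚ`, containing a primitive `p`-th root of unity; `q` a rational
prime which is not a `p`-th power in `L`.  Then (Frobenius density theorem, existence form) there
is a prime `ℓ` outside any given finite set which splits completely in `L` and such that `q` is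
not a `p`-th power modulo `ℓ` (`exists_splitsCompletely_not_pow_of`, stated relative to the
number-field form `Lib.Frob.PrimeArithFrobGenerates` of the Frobenius density theorem, which is
proved in `Lib/Frob/GeneratesWiring.lean`).  `exists_splitsCompletely_not_pow_of_notMem_sq` is the
same with the hypothesis on `q` replaced by "`q` is unramified at some prime of `L`".
-/

set_option autoImplicit false

open NumberField Polynomial

open scoped Pointwise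

namespace Fermat.Agent.CFT.Recip

/-- The Kummer extension `M = L(q^{1/p})`, Galois over `ℚ`, with a nontrivial automorphism over
`L`. -/
theorem exists_kummer_field {p : ℕ} [Fact p.Prime] (L : Type) [Field L] [NumberField L]
    [IsGalois ℚ L] (q : ℕ) (hqL : ¬ ∃ x : L, x ^ p = (q : L)) :
    ∃ (M : Type) (_ : Field M) (_ : NumberField M) (_ : IsGalois ℚ M) (ι : L →+* M) (α : M)
      (g₀ : Gal(M/ℚ)), α ^ p = (q : M) ∧ (∀ x : L, g₀ (ι x) = ι x) ∧ g₀ α ≠ α := by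
  classical
  have hp : p.Prime := Fact.out
  let Ω := AlgebraicClosure L
  let f : L →ₐ[ℚ] Ω := IsScalarTower.toAlgHom ℚ L Ω
  let E : IntermediateField ℚ Ω := f.fieldRange
  let P : ℚ[X] := X ^ p - C (q : ℚ)
  have hP0 : P ≠ 0 := X_pow_sub_C_ne_zero hp.pos _
  let E' : IntermediateField ℚ Ω := IntermediateField.adjoin ℚ (P.rootSet Ω)
  have hsplit : (P.map (algebraMap ℚ Ω)).Splits := IsAlgClosed.splits _
  have hE' : Normal ℚ E' :=
    Normal.of_isSplittingField (hFEp := IntermediateField.adjoin_rootSet_isSplittingField hsplit)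
  have hE : Normal ℚ E := by
    have e : L ≃ₐ[ℚ] E := AlgEquiv.ofInjectiveField f
    exact Normal.of_algEquiv e
  have hEfin : FiniteDimensional ℚ E := by
    have e : L ≃ₐ[ℚ] E := AlgEquiv.ofInjectiveField f
    exact e.toLinearEquiv.finiteDimensional
  have hE'fin : FiniteDimensional ℚ E' := by
    exact @IsSplittingField.finiteDimensional ℚ E' _ _ _ P
      (IntermediateField.adjoin_rootSet_isSplittingField hsplit)
  let M : IntermediateField ℚ Ω := E ⊔ E'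
  have hMnorm : Normal ℚ M := @IntermediateField.normal_sup ℚ Ω _ _ _ E E' hE hE'
  have hMfin : FiniteDimensional ℚ M :=
    @IntermediateField.finiteDimensional_sup ℚ Ω _ _ _ E E' hEfin hE'fin
  have hMnf : NumberField M := ⟨⟩
  have hMgal : IsGalois ℚ M := ⟨⟩
  -- the embedding of `L`
  have hfM : ∀ x : L, f x ∈ M := fun x =>
    (le_sup_left : E ≤ M) ⟨x, rfl⟩
  let ι : L →+* M := (f : L →+* Ω).codRestrict M.toSubfield hfM
  -- a root of `X ^ p - q`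
  obtain ⟨α₀, hα₀⟩ : ∃ a : Ω, a ^ p = (q : Ω) := IsAlgClosed.exists_pow_nat_eq _ hp.pos
  have hα₀root : α₀ ∈ P.rootSet Ω := by
    rw [mem_rootSet]
    refine ⟨hP0, ?_⟩
    simp [P, hα₀]
  have hα₀M : α₀ ∈ M := (le_sup_right : E' ≤ M) (IntermediateField.subset_adjoin ℚ _ hα₀root)
  let α : M := ⟨α₀, hα₀M⟩
  have hα : α ^ p = (q : M) := by
    apply Subtype.ext
    simp [α, hα₀]
  -- `α` is not in the image of `L`
  let E_M : IntermediateField ℚ M := (ι.toRatAlgHom).fieldRange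
  have hαE : α ∉ E_M := by
    rintro ⟨x, hx⟩
    apply hqL
    refine ⟨x, ?_⟩
    have h1 : ι (x ^ p) = ι (q : L) := by
      rw [map_pow, map_natCast]
      have : ι x = α := hx
      rw [this, hα]
    exact ι.injective h1
  have hfix : IntermediateField.fixedField (E_M.fixingSubgroup) = E_M :=
    IsGalois.fixedField_fixingSubgroup E_M
  have : ∃ g ∈ E_M.fixingSubgroup, g α ≠ α := by
    by_contra hcon
    push Not at hcon
    apply hαE
    rw [← hfix, IntermediateField.mem_fixedField_iff]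
    exact hcon
  obtain ⟨g₀, hg₀, hg₀α⟩ := this
  refine ⟨M, inferInstance, hMnf, hMgal, ι, α, g₀, hα, fun x => ?_, hg₀α⟩
  rw [IntermediateField.mem_fixingSubgroup_iff] at hg₀
  exact hg₀ (ι x) ⟨x, rfl⟩

/-- A prime of `𝓞 M` over `ℓ` with trivial inertia group does not contain `ℓ` to the second
power. -/
theorem natCast_notMem_sq_of_inertia_eq_bot {M : Type} [Field M] [NumberField M] [IsGalois ℚ M]
    {ℓ : ℕ} (hℓ : ℓ.Prime) (𝔏 : Ideal (𝓞 M)) [𝔏.IsPrime] (hℓ𝔏 : (ℓ : 𝓞 M) ∈ 𝔏)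
    (h : 𝔏.inertia Gal(M/ℚ) = ⊥) : (ℓ : 𝓞 M) ∉ 𝔏 ^ 2 := by
  have hmax : (Ideal.span {(ℓ : ℤ)}).IsMaximal :=
    PrincipalIdealRing.isMaximal_of_irreducible (Nat.prime_iff_prime_int.mp hℓ).irreducible
  have hne : (Ideal.span {(ℓ : ℤ)}) ≠ ⊥ := by
    rw [Ne, Ideal.span_singleton_eq_bot]
    exact_mod_cast hℓ.ne_zero
  have hunder : 𝔏.under ℤ = Ideal.span {(ℓ : ℤ)} := by
    refine (hmax.eq_of_le (Ideal.IsPrime.ne_top inferInstance) ?_).symm
    rw [Ideal.span_singleton_le_iff_mem]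
    show algebraMap ℤ (𝓞 M) (ℓ : ℤ) ∈ 𝔏
    simpa using hℓ𝔏
  have hlo : 𝔏.LiesOver (Ideal.span {(ℓ : ℤ)}) := ⟨hunder.symm⟩
  have h1 : Nat.card (𝔏.inertia Gal(M/ℚ)) = 1 := by
    rw [h]; exact Subgroup.card_bot
  rw [Ideal.card_inertia_eq_ramificationIdxIn (Ideal.span {(ℓ : ℤ)}) 𝔏,
    Ideal.ramificationIdxIn_eq_ramificationIdx (Ideal.span {(ℓ : ℤ)}) 𝔏 Gal(M/ℚ)] at h1
  rw [← Ideal.ramificationIdx'_eq_ramificationIdx (Ideal.span {(ℓ : ℤ)}) 𝔏 hne] at h1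
  intro hmem
  have hle : (Ideal.span {(ℓ : ℤ)}).map (algebraMap ℤ (𝓞 M)) ≤ 𝔏 := by
    rw [Ideal.map_span, Ideal.span_le]
    rintro _ ⟨x, hx, rfl⟩
    rw [Set.mem_singleton_iff] at hx
    subst hx
    simpa using hℓ𝔏
  have hle2 : (Ideal.span {(ℓ : ℤ)}).map (algebraMap ℤ (𝓞 M)) ≤ 𝔏 ^ 2 := by
    rw [Ideal.map_span, Ideal.span_le]
    rintro _ ⟨x, hx, rfl⟩
    rw [Set.mem_singleton_iff] at hx
    subst hx
    simpa using hmem
  exact (Ideal.ramificationIdx'_ne_one_iff hle).mpr hle2 h1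

theorem absNorm_galois_smul {L : Type} [Field L] [NumberField L] (g : Gal(L/ℚ))
    (P : Ideal (𝓞 L)) : Ideal.absNorm (g • P) = Ideal.absNorm P := by
  rw [Ideal.absNorm_apply, Ideal.absNorm_apply, Submodule.cardQuot_apply, Submodule.cardQuot_apply]
  refine (Nat.card_congr (Ideal.quotientEquiv P (g • P)
    (MulSemiringAction.toRingEquiv Gal(L/ℚ) (𝓞 L) g) ?_).toEquiv).symm
  rw [Ideal.pointwise_smul_def]
  rfl

theorem natCast_mem_galois_smul_sq_iff {L : Type} [Field L] [NumberField L] (g : Gal(L/ℚ))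
    (P : Ideal (𝓞 L)) (n : ℕ) : (n : 𝓞 L) ∈ (g • P) ^ 2 ↔ (n : 𝓞 L) ∈ P ^ 2 := by
  have h1 : (g • P) ^ 2 = g • (P ^ 2) := by
    rw [Ideal.pointwise_smul_def, Ideal.pointwise_smul_def, Ideal.map_pow]
  rw [h1, Ideal.mem_pointwise_smul_iff_inv_smul_mem]
  have h2 : g⁻¹ • (n : 𝓞 L) = (n : 𝓞 L) := by
    exact map_natCast (MulSemiringAction.toRingHom Gal(L/ℚ) (𝓞 L) g⁻¹) n
  rw [h2]

/-- If one prime of `L` over `ℓ` has degree one and is unramified, then `ℓ` splits completely. -/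
theorem splitsCompletely_of_prime {L : Type} [Field L] [NumberField L] [IsGalois ℚ L]
    {ℓ : ℕ} (hℓ : ℓ.Prime) (P₀ : Ideal (𝓞 L)) [P₀.IsPrime] (hℓP₀ : (ℓ : 𝓞 L) ∈ P₀)
    (hN : Ideal.absNorm P₀ = ℓ) (hsq : (ℓ : 𝓞 L) ∉ P₀ ^ 2) : SplitsCompletely ℓ L := by
  intro P hP hℓP
  have hmax : (Ideal.span {(ℓ : ℤ)}).IsMaximal :=
    PrincipalIdealRing.isMaximal_of_irreducible (Nat.prime_iff_prime_int.mp hℓ).irreducible
  have hunder : ∀ Q : Ideal (𝓞 L), Q.IsPrime → (ℓ : 𝓞 L) ∈ Q →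
      Q.LiesOver (Ideal.span {(ℓ : ℤ)}) := by
    intro Q hQ hℓQ
    refine ⟨?_⟩
    refine (hmax.eq_of_le (Ideal.IsPrime.ne_top inferInstance) ?_)
    rw [Ideal.span_singleton_le_iff_mem]
    show algebraMap ℤ (𝓞 L) (ℓ : ℤ) ∈ Q
    simpa using hℓQ
  have h1 := hunder P₀ inferInstance hℓP₀
  have h2 := hunder P hP hℓP
  obtain ⟨σ, rfl⟩ := Ideal.exists_smul_eq_of_isGaloisGroup (Ideal.span {(ℓ : ℤ)}) P₀ P Gal(L/ℚ)
  refine ⟨?_, ?_⟩
  · rw [absNorm_galois_smul, hN]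
  · rw [natCast_mem_galois_smul_sq_iff]
    exact hsq

/-- If the arithmetic Frobenius `τ` at `𝔏 ∋ ℓ` fixes the image of `L` in `M`, then the prime of
`L` below `𝔏` has absolute norm `ℓ`. -/
theorem absNorm_comap_of_arithFrob_fix {L M : Type} [Field L] [NumberField L] [Field M]
    [NumberField M] [IsGalois ℚ M] (ι : L →+* M) {ℓ : ℕ} (hℓ : ℓ.Prime) (𝔏 : Ideal (𝓞 M))
    [𝔏.IsPrime] (hℓ𝔏 : (ℓ : 𝓞 M) ∈ 𝔏) (τ : Gal(M/ℚ)) (hτ : IsArithFrobAt ℤ τ 𝔏)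
    (hfix : ∀ x : L, τ (ι x) = ι x) :
    Ideal.absNorm (𝔏.comap (RingOfIntegers.mapRingHom ι)) = ℓ := by
  set 𝔮 := 𝔏.comap (RingOfIntegers.mapRingHom ι) with h𝔮
  have hcard : Nat.card (ℤ ⧸ 𝔏.under ℤ) = ℓ :=
    Fermat.Agent.Lib.Frob.natCard_quotient_under_eq M hℓ 𝔏 hℓ𝔏
  have key : ∀ x : 𝓞 L, x ^ ℓ - x ∈ 𝔮 := by
    intro x
    have h1 := hτ (RingOfIntegers.mapRingHom ι x)
    rw [hcard] at h1
    have h2 : (MulSemiringAction.toAlgHom ℤ (𝓞 M) τ) (RingOfIntegers.mapRingHom ι x) =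
        RingOfIntegers.mapRingHom ι x := by
      apply RingOfIntegers.ext
      exact hfix x
    rw [h2, ← map_pow, ← map_sub] at h1
    rw [h𝔮, Ideal.mem_comap, ← neg_sub, map_neg]
    exact neg_mem h1
  have hℓ𝔮 : (ℓ : 𝓞 L) ∈ 𝔮 := by
    rw [h𝔮, Ideal.mem_comap, map_natCast]
    exact hℓ𝔏
  have h𝔮prime : 𝔮.IsPrime := Ideal.comap_isPrime _ 𝔏
  have h𝔮ne : 𝔮 ≠ ⊥ := by
    intro h
    rw [h, Ideal.mem_bot] at hℓ𝔮
    exact hℓ.ne_zero (by exact_mod_cast hℓ𝔮)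
  have h𝔮max : 𝔮.IsMaximal := Ring.DimensionLEOne.maximalOfPrime h𝔮ne h𝔮prime
  let _ := Ideal.Quotient.field 𝔮
  have hfin : Finite (𝓞 L ⧸ 𝔮) := Ideal.finiteQuotientOfFreeOfNeBot _ h𝔮ne
  rw [Ideal.absNorm_apply, Submodule.cardQuot_apply]
  refine Fermat.Agent.CFT.Core.frob_card_eq_of_pow_eq hℓ ?_ ?_
  · rw [← map_natCast (Ideal.Quotient.mk 𝔮), Ideal.Quotient.eq_zero_iff_mem]
    exact hℓ𝔮
  · intro a
    obtain ⟨x, rfl⟩ := Ideal.Quotient.mk_surjective a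
    rw [← map_pow, ← sub_eq_zero, ← map_sub, Ideal.Quotient.eq_zero_iff_mem]
    exact key x

/-- If the arithmetic Frobenius `τ` at `𝔏 ∋ ℓ` fixes a primitive `p`-th root of unity but moves a
`p`-th root `α` of the prime `q` (`ℓ ≠ p, q`), then `q` is not a `p`-th power modulo `ℓ`. -/
theorem not_pow_zmod_of_arithFrob {M : Type} [Field M] [NumberField M] [IsGalois ℚ M]
    {p : ℕ} [Fact p.Prime] {ℓ q : ℕ} (hℓ : ℓ.Prime) (hℓp : ℓ ≠ p) (hq : q.Prime) (hℓq : ℓ ≠ q)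
    (𝔏 : Ideal (𝓞 M)) [𝔏.IsPrime] (hℓ𝔏 : (ℓ : 𝓞 M) ∈ 𝔏) (τ : Gal(M/ℚ))
    (hτ : IsArithFrobAt ℤ τ 𝔏) (ζ α : M) (hζ : IsPrimitiveRoot ζ p) (hτζ : τ ζ = ζ)
    (hα : α ^ p = (q : M)) (hτα : τ α ≠ α) :
    ¬ ∃ x : ZMod ℓ, x ^ p = (q : ZMod ℓ) := by
  classical
  have hp : p.Prime := Fact.out
  have : NeZero p := ⟨hp.ne_zero⟩
  have : Fact ℓ.Prime := ⟨hℓ⟩
  have : NeZero ℓ := ⟨hℓ.ne_zero⟩
  have hcard : Nat.card (ℤ ⧸ 𝔏.under ℤ) = ℓ :=
    Fermat.Agent.Lib.Frob.natCard_quotient_under_eq M hℓ 𝔏 hℓ𝔏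
  -- integral versions
  set ζ' : 𝓞 M := hζ.toInteger with hζ'def
  have hζ' : IsPrimitiveRoot ζ' p := hζ.toInteger_isPrimitiveRoot
  have hαint : IsIntegral ℤ α := by
    refine IsIntegral.of_pow hp.pos ?_
    rw [hα]
    exact isIntegral_algebraMap (R := ℤ) (A := M) (x := (q : ℤ)) |> fun h => by simpa using h
  set α' : 𝓞 M := ⟨α, hαint⟩ with hα'def
  have hα' : α' ^ p = (q : 𝓞 M) := by
    apply RingOfIntegers.ext
    show α ^ p = (((q : ℕ) : 𝓞 M) : M)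
    rw [hα]
    simp
  set T := MulSemiringAction.toAlgHom ℤ (𝓞 M) τ with hT
  have hTζ : T ζ' = ζ' := by
    apply RingOfIntegers.ext
    exact hτζ
  have hTα : T α' ≠ α' := by
    intro h
    apply hτα
    have := congrArg (fun y : 𝓞 M => (y : M)) h
    exact this
  -- elements of `ℓ ℤ` lie in `𝔏`
  have hdvd_mem : ∀ m : ℤ, (ℓ : ℤ) ∣ m → (m : 𝓞 M) ∈ 𝔏 := by
    rintro m ⟨c, rfl⟩
    push_cast
    exact 𝔏.mul_mem_right _ hℓ𝔏
  -- other primes are not in `𝔏`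
  have hcop : ∀ r : ℕ, r.Prime → ℓ ≠ r → (r : 𝓞 M) ∉ 𝔏 := by
    intro r hr hne hmem
    have hc : Nat.Coprime ℓ r := (Nat.coprime_primes hℓ hr).mpr hne
    obtain ⟨u, v, huv⟩ := Nat.Coprime.isCoprime hc
    have h1 : (1 : 𝓞 M) ∈ 𝔏 := by
      have h2 : ((u * ℓ + v * r : ℤ) : 𝓞 M) ∈ 𝔏 := by
        push_cast
        exact 𝔏.add_mem (𝔏.mul_mem_left _ hℓ𝔏) (𝔏.mul_mem_left _ hmem)
      rw [huv] at h2
      simpa using h2
    exact (Ideal.IsPrime.ne_top inferInstance) ((Ideal.eq_top_iff_one _).mpr h1)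
  rintro ⟨x, hx⟩
  set n : ℕ := x.val with hn
  have hxn : (n : ZMod ℓ) = x := by
    rw [hn]; simp
  -- `n ^ p - q ∈ 𝔏`
  have h1 : ((n : 𝓞 M) ^ p - α' ^ p) ∈ 𝔏 := by
    have : (ℓ : ℤ) ∣ (n : ℤ) ^ p - q := by
      rw [← ZMod.intCast_zmod_eq_zero_iff_dvd]
      push_cast
      rw [hxn, hx, sub_self]
    have h2 := hdvd_mem _ this
    rw [hα']
    push_cast at h2
    exact h2
  -- Fermat's little theorem
  have h2 : ((n : 𝓞 M) ^ ℓ - n) ∈ 𝔏 := by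
    have : (ℓ : ℤ) ∣ (n : ℤ) ^ ℓ - n := by
      rw [← ZMod.intCast_zmod_eq_zero_iff_dvd]
      push_cast
      rw [hxn, ZMod.pow_card, sub_self]
    have h2 := hdvd_mem _ this
    push_cast at h2
    exact h2
  rw [hζ'.pow_sub_pow_eq_prod_sub_mul _ _ hp.pos, Ideal.IsPrime.prod_mem_iff] at h1
  obtain ⟨μ, hμ, hμmem⟩ := h1
  have hμp : μ ^ p = 1 := (Polynomial.mem_nthRootsFinset hp.pos 1).1 hμ
  obtain ⟨i, -, rfl⟩ := hζ'.eq_pow_of_pow_eq_one hμp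
  set b : 𝓞 M := ζ' ^ i * α' with hb
  have hbp : b ^ p = (q : 𝓞 M) := by
    rw [hb, mul_pow, hμp, one_mul, hα']
  have hTb : T b = ζ' ^ i * T α' := by
    rw [hb, map_mul, map_pow, hTζ]
  have hμ0 : ζ' ^ i ≠ 0 := by
    intro h0
    rw [h0, zero_pow hp.ne_zero] at hμp
    exact zero_ne_one hμp
  have hTb_ne : T b ≠ b := by
    rw [hTb, hb]
    intro h
    exact hTα (mul_left_cancel₀ hμ0 h)
  have hTbp : (T b) ^ p = b ^ p := by
    rw [← map_pow, hbp, map_natCast]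
  -- `T b - b ∈ 𝔏`
  have h3 : T b - b ∈ 𝔏 := by
    have h4 := hτ b
    rw [hcard] at h4
    have h5 : b ^ ℓ - (n : 𝓞 M) ^ ℓ ∈ 𝔏 := by
      obtain ⟨c, hc⟩ := sub_dvd_pow_sub_pow b (n : 𝓞 M) ℓ
      rw [hc]
      have : b - (n : 𝓞 M) ∈ 𝔏 := by
        rw [← neg_sub]; exact neg_mem hμmem
      exact 𝔏.mul_mem_right _ this
    have h6 : T b - b = (T b - b ^ ℓ) + (b ^ ℓ - (n : 𝓞 M) ^ ℓ) + ((n : 𝓞 M) ^ ℓ - n)
        + ((n : 𝓞 M) - b) := by ring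
    rw [h6]
    exact 𝔏.add_mem (𝔏.add_mem (𝔏.add_mem h4 h5) h2) hμmem
  -- the geometric sum vanishes
  have hsum : (∑ j ∈ Finset.range p, (T b) ^ j * b ^ (p - 1 - j)) = 0 := by
    have h7 := geom_sum₂_mul (T b) b p
    rw [hTbp, sub_self] at h7
    rcases mul_eq_zero.mp h7 with h8 | h8
    · exact h8
    · exact absurd (sub_eq_zero.mp h8) hTb_ne
  have h8 : (p : 𝓞 M) * b ^ (p - 1) ∈ 𝔏 := by
    rw [← Ideal.Quotient.eq_zero_iff_mem]
    have h9 : Ideal.Quotient.mk 𝔏 (T b) = Ideal.Quotient.mk 𝔏 b := Ideal.Quotient.eq.mpr h3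
    have h10 := congrArg (Ideal.Quotient.mk 𝔏) hsum
    rw [map_sum, map_zero] at h10
    rw [← h10, map_mul, map_natCast, map_pow]
    have h11 : ∀ j ∈ Finset.range p, Ideal.Quotient.mk 𝔏 ((T b) ^ j * b ^ (p - 1 - j)) =
        (Ideal.Quotient.mk 𝔏 b) ^ (p - 1) := by
      intro j hj
      rw [Finset.mem_range] at hj
      rw [map_mul, map_pow, map_pow, h9, ← pow_add]
      congr 1
      omega
    rw [Finset.sum_congr rfl h11, Finset.sum_const, Finset.card_range, nsmul_eq_mul]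
  rcases Ideal.IsPrime.mem_or_mem inferInstance h8 with h9 | h9
  · exact hcop p hp hℓp h9
  · have h10 : b ∈ 𝔏 := Ideal.IsPrime.mem_of_pow_mem inferInstance _ h9
    have h11 : b ^ p ∈ 𝔏 := Ideal.pow_mem_of_mem 𝔏 h10 p hp.pos
    rw [hbp] at h11
    exact hcop q hq hℓq h11

/-- **Choice of the auxiliary prime.**  `L/ℚ` a finite Galois extension containing a primitive
`p`-th root of unity, `q` a prime which is not a `p`-th power in `L`.  Outside any finite set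
there is a prime `ℓ` which splits completely in `L` and modulo which `q` is not a `p`-th power
(consequence of the Frobenius density theorem, existence form). -/
theorem exists_splitsCompletely_not_pow_of
    (hF : Fermat.Agent.Lib.Frob.PrimeArithFrobGenerates) {p : ℕ} [Fact p.Prime]
    (L : Type) [Field L] [NumberField L] [IsGalois ℚ L] (ζ : L) (hζ : IsPrimitiveRoot ζ p)
    (q : ℕ) (hq : q.Prime) (hqL : ¬ ∃ x : L, x ^ p = (q : L)) (S : Set ℕ) (hS : S.Finite) :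
    ∃ ℓ : ℕ, ℓ.Prime ∧ ℓ ∉ S ∧ SplitsCompletely ℓ L ∧
      ¬ ∃ x : ZMod ℓ, x ^ p = (q : ZMod ℓ) := by
  obtain ⟨M, _, _, _, ι, α, g₀, hα, hg₀ι, hg₀α⟩ := exists_kummer_field (p := p) L q hqL
  obtain ⟨ℓ, 𝔏, τ, hℓ, hℓS, h𝔏, hℓ𝔏, hin, hτ, hgen⟩ :=
    hF M g₀ (S ∪ {p, q}) (hS.union (by simp))
  have hℓS' : ℓ ∉ S := fun h => hℓS (Or.inl h)
  have hℓp : ℓ ≠ p := fun h => hℓS (Or.inr (by simp [h]))
  have hℓq : ℓ ≠ q := fun h => hℓS (Or.inr (by simp [h]))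
  have hτmem : τ ∈ Subgroup.zpowers g₀ := by
    rw [← hgen]; exact Subgroup.mem_zpowers τ
  have hg₀mem : g₀ ∈ Subgroup.zpowers τ := by
    rw [hgen]; exact Subgroup.mem_zpowers g₀
  have hfixpow : ∀ (g h : Gal(M/ℚ)) (y : M), g y = y → h ∈ Subgroup.zpowers g → h y = y := by
    intro g h y hgy hh
    have h1 : g ∈ MulAction.stabilizer Gal(M/ℚ) y := by
      rw [MulAction.mem_stabilizer_iff]; exact hgy
    have h2 := (Subgroup.zpowers_le.mpr h1) hh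
    rw [MulAction.mem_stabilizer_iff] at h2
    exact h2
  have hτι : ∀ x : L, τ (ι x) = ι x := fun x => hfixpow g₀ τ (ι x) (hg₀ι x) hτmem
  have hτα : τ α ≠ α := fun h => hg₀α (hfixpow τ g₀ α h hg₀mem)
  refine ⟨ℓ, hℓ, hℓS', ?_, ?_⟩
  · refine splitsCompletely_of_prime hℓ (𝔏.comap (RingOfIntegers.mapRingHom ι)) ?_ ?_ ?_
    · rw [Ideal.mem_comap, map_natCast]
      exact hℓ𝔏
    · exact absNorm_comap_of_arithFrob_fix ι hℓ 𝔏 hℓ𝔏 τ hτ hτι
    · intro hmem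
      apply natCast_notMem_sq_of_inertia_eq_bot hℓ 𝔏 hℓ𝔏 hin
      have h1 := Ideal.mem_map_of_mem (RingOfIntegers.mapRingHom ι) hmem
      rw [Ideal.map_pow, map_natCast] at h1
      exact Ideal.pow_right_mono Ideal.map_comap_le 2 h1
  · exact not_pow_zmod_of_arithFrob hℓ hℓp hq hℓq 𝔏 hℓ𝔏 τ hτ (ι ζ) α
      (hζ.map_of_injective ι.injective) (hτι ζ) hα hτα

/-- A rational prime `q` which is unramified at some prime of `L` is not a `p`-th power in `L`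
(`p ≥ 2`). -/
theorem not_exists_pow_eq_natCast_of_notMem_sq {L : Type} [Field L] [NumberField L] {p : ℕ}
    (hp : 2 ≤ p) (q : ℕ) (𝔔 : Ideal (𝓞 L)) [𝔔.IsPrime] (hq𝔔 : (q : 𝓞 L) ∈ 𝔔)
    (hsq : (q : 𝓞 L) ∉ 𝔔 ^ 2) : ¬ ∃ x : L, x ^ p = (q : L) := by
  rintro ⟨x, hx⟩
  have hxint : IsIntegral ℤ x := by
    refine IsIntegral.of_pow (by omega : 0 < p) ?_
    rw [hx]
    exact isIntegral_algebraMap (R := ℤ) (A := L) (x := (q : ℤ)) |> fun h => by simpa using h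
  set x' : 𝓞 L := ⟨x, hxint⟩ with hx'def
  have hx' : x' ^ p = (q : 𝓞 L) := by
    apply RingOfIntegers.ext
    show x ^ p = (((q : ℕ) : 𝓞 L) : L)
    rw [hx]
    simp
  have h1 : x' ∈ 𝔔 := by
    apply Ideal.IsPrime.mem_of_pow_mem inferInstance p
    rw [hx']
    exact hq𝔔
  apply hsq
  rw [← hx']
  exact Ideal.pow_le_pow_right hp (Ideal.pow_mem_pow h1 p)

/-- **Choice of the auxiliary prime**, with the hypothesis on `q` in the form "`q` is unramified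
at some prime of `L`". -/
theorem exists_splitsCompletely_not_pow_of_notMem_sq
    (hF : Fermat.Agent.Lib.Frob.PrimeArithFrobGenerates) {p : ℕ} [Fact p.Prime]
    (L : Type) [Field L] [NumberField L] [IsGalois ℚ L] (ζ : L) (hζ : IsPrimitiveRoot ζ p)
    (q : ℕ) (hq : q.Prime) (𝔔 : Ideal (𝓞 L)) [𝔔.IsPrime] (hq𝔔 : (q : 𝓞 L) ∈ 𝔔)
    (hsq : (q : 𝓞 L) ∉ 𝔔 ^ 2) (S : Set ℕ) (hS : S.Finite) :
    ∃ ℓ : ℕ, ℓ.Prime ∧ ℓ ∉ S ∧ SplitsCompletely ℓ L ∧
      ¬ ∃ x : ZMod ℓ, x ^ p = (q : ZMod ℓ) :=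
  exists_splitsCompletely_not_pow_of hF L ζ hζ q hq
    (not_exists_pow_eq_natCast_of_notMem_sq (Fact.out : p.Prime).two_le q 𝔔 hq𝔔 hsq) S hS

end Fermat.Agent.CFT.Recip
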