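import Mathlib

/-!
# Irreducibility of the `ℓ`-th cyclotomic polynomial over a number field unramified at `ℓ`

If a prime `𝔩` of `𝓞 L` contains the rational prime `ℓ` but `ℓ ∉ 𝔩 ^ 2`, then `Φ_ℓ(X + 1)` is
Eisenstein at `𝔩`, hence `Φ_ℓ` is irreducible over `L`.
-/

set_option autoImplicit false

open NumberField Polynomial

namespace Fermat.Agent.CFT.Recip

/-- Irreducibility is invariant under the shift `X ↦ X + 1`. -/
theorem irreducible_of_comp_X_add_one {R : Type*} [CommRing R] {f : R[X]}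
    (h : Irreducible (f.comp (X + 1))) : Irreducible f := by
  have e : f.comp (X + 1) = algEquivAevalXAddC (1 : R) f := by
    rw [algEquivAevalXAddC_apply, map_one]
    rfl
  rw [e] at h
  exact (MulEquiv.irreducible_iff (algEquivAevalXAddC (1 : R)).toMulEquiv).mp h

/-- (S3-IRR) Eisenstein's criterion at a prime `𝔩 ∋ ℓ` with `ℓ ∉ 𝔩 ^ 2`: the `ℓ`-th cyclotomic
polynomial is irreducible over `L`. -/
theorem irreducible_cyclotomic_of_splits {ℓ : ℕ} [Fact ℓ.Prime] {L : Type*} [Field L]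
    [NumberField L] (𝔩 : Ideal (𝓞 L)) [𝔩.IsPrime] (hℓ𝔩 : (ℓ : 𝓞 L) ∈ 𝔩)
    (hsq : (ℓ : 𝓞 L) ∉ 𝔩 ^ 2) : Irreducible (cyclotomic ℓ L) := by
  have hℓ : ℓ.Prime := Fact.out
  set g : ℤ[X] := (cyclotomic ℓ ℤ).comp (X + 1) with hg
  have hgE : g.IsEisensteinAt (Submodule.span ℤ {(ℓ : ℤ)}) :=
    cyclotomic_comp_X_add_one_isEisensteinAt ℓ
  have hgmonic : g.Monic := by
    rw [hg, show (X + 1 : ℤ[X]) = X + C 1 by simp]
    refine (cyclotomic.monic ℓ ℤ).comp (monic_X_add_C 1) fun h => ?_
    rw [natDegree_X_add_C] at h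
    exact zero_ne_one h.symm
  set f : (𝓞 L)[X] := g.map (algebraMap ℤ (𝓞 L)) with hf
  have hfmonic : f.Monic := hgmonic.map _
  have hfdeg : f.natDegree = g.natDegree := hgmonic.natDegree_map _
  have hgdeg : g.natDegree = ℓ - 1 := by
    rw [hg, natDegree_comp, show (X + 1 : ℤ[X]) = X + C 1 by simp, natDegree_X_add_C, mul_one,
      natDegree_cyclotomic, Nat.totient_prime hℓ]
  have hfE : f.IsEisensteinAt 𝔩 := by
    refine Monic.isEisensteinAt_of_mem_of_notMem hfmonic (Ideal.IsPrime.ne_top inferInstance)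
      (fun {n} hn => ?_) ?_
    · rw [hfdeg] at hn
      have h1 := hgE.mem hn
      rw [Ideal.submodule_span_eq, Ideal.mem_span_singleton] at h1
      obtain ⟨c, hc⟩ := h1
      rw [hf, coeff_map, hc, map_mul]
      refine Ideal.mul_mem_right _ _ ?_
      simpa using hℓ𝔩
    · have h0 : g.coeff 0 = ℓ := by
        rw [hg, coeff_zero_eq_eval_zero, eval_comp, eval_add, eval_X, eval_one, zero_add,
          eval_one_cyclotomic_prime]
      rw [hf, coeff_map, h0]
      simpa using hsq
  have hfirr : Irreducible f :=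
    hfE.irreducible inferInstance hfmonic.isPrimitive (by rw [hfdeg, hgdeg]; have := hℓ.two_le; omega)
  have hfL : Irreducible (f.map (algebraMap (𝓞 L) L)) :=
    (hfmonic.irreducible_iff_irreducible_map_fraction_map (K := L)).mp hfirr
  have e : f.map (algebraMap (𝓞 L) L) = (cyclotomic ℓ L).comp (X + 1) := by
    rw [hf, map_map, hg, map_comp, map_cyclotomic]
    simp
  rw [e] at hfL
  exact irreducible_of_comp_X_add_one hfL

end Fermat.Agent.CFT.Recip
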