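import Mathlib
import Fermat.Agent.CFT.Recip.CycloIrred

/-!
# The cyclotomic step, local part

`L` a number field, `ℓ ≠ 2` a prime, `Ω = L(ζ_ℓ)`, `𝔩` a prime of `𝓞 L` of norm `ℓ` with
`ℓ ∈ 𝔩 \ 𝔩 ^ 2`.  Then for every `w ∈ Ωˣ` the norm `N_{Ω/L}(w)` is, up to a power of `ℓ`, a
quotient of two elements of `𝓞 L` congruent to `1` modulo `𝔩` (`norm_cyclo_local`).
-/

set_option autoImplicit false
set_option linter.unusedSectionVars false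
set_option linter.unusedSimpArgs false

open NumberField Polynomial

namespace Fermat.Agent.CFT.Recip

section Core

variable {ℓ : ℕ} [Fact ℓ.Prime] {L Ω : Type*} [Field L] [NumberField L] [Field Ω]
  [NumberField Ω] [Algebra L Ω] [IsCyclotomicExtension {ℓ} L Ω]

/-- The norm of an element of the base ring. -/
theorem cn_norm_algebraMap (hirr : Irreducible (cyclotomic ℓ L)) (x : 𝓞 L) :
    RingOfIntegers.norm L (algebraMap (𝓞 L) (𝓞 Ω) x) = x ^ (ℓ - 1) := by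
  rw [RingOfIntegers.norm_algebraMap, IsCyclotomicExtension.finrank Ω hirr,
    Nat.totient_prime Fact.out]

/-- The norm of `ζ - 1` is `ℓ`. -/
theorem cn_norm_zeta_sub_one (hℓ2 : ℓ ≠ 2) (hirr : Irreducible (cyclotomic ℓ L)) {ζ : 𝓞 Ω}
    (hζ : IsPrimitiveRoot ζ ℓ) : RingOfIntegers.norm L (ζ - 1) = (ℓ : 𝓞 L) := by
  have hζ' : IsPrimitiveRoot (ζ : Ω) ℓ := hζ.map_of_injective RingOfIntegers.coe_injective
  have h := hζ'.sub_one_norm_isPrimePow (Fact.out : ℓ.Prime).isPrimePow hirr hℓ2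
  rw [(Fact.out : ℓ.Prime).minFac_eq] at h
  apply RingOfIntegers.coe_injective
  show Algebra.norm L ((ζ - 1 : 𝓞 Ω) : Ω) = ((ℓ : 𝓞 L) : L)
  rw [show ((ζ - 1 : 𝓞 Ω) : Ω) = (ζ : Ω) - 1 from by simp, h]
  simp

/-- The norm as a product over the Galois group, inside `𝓞 Ω`. -/
theorem cn_algebraMap_norm_eq_prod [FiniteDimensional L Ω] [IsGalois L Ω] (β : 𝓞 Ω) :
    algebraMap (𝓞 L) (𝓞 Ω) (RingOfIntegers.norm L β) = ∏ σ : Gal(Ω/L), σ • β := by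
  apply RingOfIntegers.coe_injective
  show algebraMap L Ω (Algebra.norm L (β : Ω)) = ((∏ σ : Gal(Ω/L), σ • β : 𝓞 Ω) : Ω)
  rw [Algebra.norm_eq_prod_automorphisms]
  exact (map_prod (algebraMap (𝓞 Ω) Ω) (fun σ : Gal(Ω/L) => σ • β) Finset.univ).symm

/-- Galois conjugates of `g(ζ)` are congruent to `g(1)` modulo `ζ - 1`. -/
theorem cn_mk_smul_aeval {ζ : 𝓞 Ω} (hζ : IsPrimitiveRoot ζ ℓ) (σ : Gal(Ω/L)) (g : (𝓞 L)[X]) :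
    Ideal.Quotient.mk (Ideal.span {ζ - 1}) (σ • aeval ζ g) =
      Ideal.Quotient.mk (Ideal.span {ζ - 1}) (algebraMap (𝓞 L) (𝓞 Ω) (g.eval 1)) := by
  set π := Ideal.Quotient.mk (Ideal.span {ζ - 1}) with hπ
  let φ : 𝓞 Ω →+* 𝓞 Ω ⧸ Ideal.span {ζ - 1} :=
    π.comp (MulSemiringAction.toRingHom Gal(Ω/L) (𝓞 Ω) σ)
  have h1 : π (σ • aeval ζ g) = φ (aeval ζ g) := rfl
  have hfix : φ.comp (algebraMap (𝓞 L) (𝓞 Ω)) = π.comp (algebraMap (𝓞 L) (𝓞 Ω)) := by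
    ext x
    show π (σ • algebraMap (𝓞 L) (𝓞 Ω) x) = π (algebraMap (𝓞 L) (𝓞 Ω) x)
    congr 1
    apply RingOfIntegers.coe_injective
    show σ (algebraMap L Ω (x : L)) = algebraMap L Ω (x : L)
    exact σ.commutes _
  have hζ1 : φ ζ = 1 := by
    show π (σ • ζ) = 1
    have hpow : (σ • ζ) ^ ℓ = 1 := by
      rw [← smul_pow', hζ.pow_eq_one, smul_one]
    obtain ⟨j, -, hj⟩ := hζ.eq_pow_of_pow_eq_one hpow
    rw [← hj, map_pow]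
    have : π ζ = 1 := by
      rw [← sub_eq_zero, ← map_one π, ← map_sub, hπ, Ideal.Quotient.eq_zero_iff_mem]
      exact Ideal.mem_span_singleton_self _
    rw [this, one_pow]
  rw [h1, aeval_def, hom_eval₂, hfix, hζ1, eval₂_at_one]
  rfl

/-- An element of `𝓞 L` divisible by `ζ - 1` in `𝓞 Ω` lies in every prime over `ℓ`. -/
theorem cn_mem_of_algebraMap_mem_span (hℓ2 : ℓ ≠ 2) (hirr : Irreducible (cyclotomic ℓ L))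
    {ζ : 𝓞 Ω} (hζ : IsPrimitiveRoot ζ ℓ) (𝔩 : Ideal (𝓞 L)) [𝔩.IsPrime] (hℓ𝔩 : (ℓ : 𝓞 L) ∈ 𝔩)
    (D : 𝓞 L) (hD : algebraMap (𝓞 L) (𝓞 Ω) D ∈ Ideal.span {ζ - 1}) : D ∈ 𝔩 := by
  obtain ⟨b, hb⟩ := Ideal.mem_span_singleton'.mp hD
  have h1 := congrArg (RingOfIntegers.norm L) hb
  rw [map_mul, cn_norm_zeta_sub_one hℓ2 hirr hζ, cn_norm_algebraMap hirr] at h1
  have h2 : D ^ (ℓ - 1) ∈ 𝔩 := by
    rw [← h1]
    exact Ideal.mul_mem_left _ _ hℓ𝔩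
  exact Ideal.IsPrime.mem_of_pow_mem inferInstance _ h2

/-- The norm congruence: `N(g(ζ)) ≡ g(1)^(ℓ-1)` modulo `𝔩`. -/
theorem cn_norm_aeval_sub_mem (hℓ2 : ℓ ≠ 2) (hirr : Irreducible (cyclotomic ℓ L))
    {ζ : 𝓞 Ω} (hζ : IsPrimitiveRoot ζ ℓ) (𝔩 : Ideal (𝓞 L)) [𝔩.IsPrime] (hℓ𝔩 : (ℓ : 𝓞 L) ∈ 𝔩)
    (g : (𝓞 L)[X]) : RingOfIntegers.norm L (aeval ζ g) - g.eval 1 ^ (ℓ - 1) ∈ 𝔩 := by
  have : FiniteDimensional L Ω := IsCyclotomicExtension.finiteDimensional {ℓ} L Ω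
  have : IsGalois L Ω := IsCyclotomicExtension.isGalois {ℓ} L Ω
  apply cn_mem_of_algebraMap_mem_span hℓ2 hirr hζ 𝔩 hℓ𝔩
  rw [← Ideal.Quotient.eq_zero_iff_mem, map_sub, map_sub, cn_algebraMap_norm_eq_prod, map_prod,
    Finset.prod_congr rfl (fun σ _ => cn_mk_smul_aeval hζ σ g), Finset.prod_const,
    Finset.card_univ, ← Nat.card_eq_fintype_card, IsGalois.card_aut_eq_finrank,
    IsCyclotomicExtension.finrank Ω hirr, Nat.totient_prime Fact.out, map_pow, map_pow, sub_self]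

/-- Fermat's little theorem in the residue field of a prime of norm `ℓ`. -/
theorem cn_pow_sub_one_mem (𝔩 : Ideal (𝓞 L)) [𝔩.IsPrime] (hN : Ideal.absNorm 𝔩 = ℓ)
    {x : 𝓞 L} (hx : x ∉ 𝔩) : x ^ (ℓ - 1) - 1 ∈ 𝔩 := by
  have h0 : 𝔩 ≠ ⊥ := by
    rintro rfl
    rw [Ideal.absNorm_bot] at hN
    exact (Fact.out : ℓ.Prime).ne_zero hN.symm
  have hmax : 𝔩.IsMaximal := Ring.DimensionLEOne.maximalOfPrime h0 inferInstance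
  let : Field (𝓞 L ⧸ 𝔩) := Ideal.Quotient.field 𝔩
  have hfin : Finite (𝓞 L ⧸ 𝔩) := Ideal.finiteQuotientOfFreeOfNeBot 𝔩 h0
  let : Fintype (𝓞 L ⧸ 𝔩) := Fintype.ofFinite _
  have hcard : Fintype.card (𝓞 L ⧸ 𝔩) = ℓ := by
    rw [← Nat.card_eq_fintype_card, ← hN]
    rfl
  have hx0 : Ideal.Quotient.mk 𝔩 x ≠ 0 := by
    rwa [Ne, Ideal.Quotient.eq_zero_iff_mem]
  have h1 := FiniteField.pow_card_sub_one_eq_one (Ideal.Quotient.mk 𝔩 x) hx0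
  rw [hcard] at h1
  rw [← Ideal.Quotient.eq_zero_iff_mem, map_sub, map_pow, h1, map_one, sub_self]

/-- Since `ℓ ∉ 𝔩 ^ 2`, there is `s ∉ 𝔩` with `s • 𝔩 ⊆ (ℓ)`. -/
theorem cn_exists_mul_eq (𝔩 : Ideal (𝓞 L)) [𝔩.IsPrime] (hℓ𝔩 : (ℓ : 𝓞 L) ∈ 𝔩)
    (hsq : (ℓ : 𝓞 L) ∉ 𝔩 ^ 2) : ∃ s : 𝓞 L, s ∉ 𝔩 ∧ ∀ c ∈ 𝔩, ∃ t : 𝓞 L, s * c = ℓ * t := by
  have hle : Ideal.span {(ℓ : 𝓞 L)} ≤ 𝔩 := (Ideal.span_singleton_le_iff_mem _).mpr hℓ𝔩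
  obtain ⟨J, hJ⟩ := Ideal.dvd_iff_le.mpr hle
  have hJ' : ¬ J ≤ 𝔩 := by
    intro h
    apply hsq
    have h1 : Ideal.span {(ℓ : 𝓞 L)} ≤ 𝔩 ^ 2 := by
      rw [hJ, pow_two]
      exact Ideal.mul_mono_right h
    exact h1 (Ideal.mem_span_singleton_self _)
  obtain ⟨s, hsJ, hs⟩ := Set.not_subset.mp hJ'
  refine ⟨s, hs, fun c hc => ?_⟩
  have h2 : s * c ∈ Ideal.span {(ℓ : 𝓞 L)} := by
    have h3 : c * s ∈ 𝔩 * J := Ideal.mul_mem_mul hc hsJ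
    rw [hJ, mul_comm s c]
    exact h3
  obtain ⟨t, ht⟩ := Ideal.mem_span_singleton'.mp h2
  exact ⟨t, by rw [← ht, mul_comm]⟩

/-- Peeling off one factor `ζ - 1`. -/
theorem cn_peel {ζ : 𝓞 Ω} (hζ : IsPrimitiveRoot ζ ℓ) (𝔩 : Ideal (𝓞 L)) [𝔩.IsPrime]
    (hℓ𝔩 : (ℓ : 𝓞 L) ∈ 𝔩) (hsq : (ℓ : 𝓞 L) ∉ 𝔩 ^ 2) (g : (𝓞 L)[X]) (hg : g.eval 1 ∈ 𝔩) :
    ∃ (s : 𝓞 L) (g₂ : (𝓞 L)[X]), s ∉ 𝔩 ∧
      algebraMap (𝓞 L) (𝓞 Ω) s * aeval ζ g = (ζ - 1) * aeval ζ g₂ := by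
  obtain ⟨s, hs, hsc⟩ := cn_exists_mul_eq 𝔩 hℓ𝔩 hsq
  obtain ⟨t, ht⟩ := hsc _ hg
  obtain ⟨h, hh⟩ : X - C 1 ∣ g - C (g.eval 1) := X_sub_C_dvd_sub_C_eval
  obtain ⟨Q, hQ⟩ : X - C 1 ∣ cyclotomic ℓ (𝓞 L) - C ((cyclotomic ℓ (𝓞 L)).eval 1) :=
    X_sub_C_dvd_sub_C_eval
  rw [eval_one_cyclotomic_prime] at hQ
  have hcyc : aeval ζ (cyclotomic ℓ (𝓞 L)) = 0 := by
    rw [aeval_def, eval₂_eq_eval_map, map_cyclotomic]
    exact hζ.isRoot_cyclotomic (Fact.out : ℓ.Prime).pos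
  have e1 := congrArg (aeval ζ) hQ
  simp only [map_sub, map_mul, aeval_X, aeval_C, map_one, hcyc, zero_sub, map_natCast] at e1
  have e2 := congrArg (aeval ζ) hh
  simp only [map_sub, map_mul, aeval_X, aeval_C, map_one] at e2
  have e3 := congrArg (algebraMap (𝓞 L) (𝓞 Ω)) ht
  simp only [map_mul, map_natCast] at e3
  refine ⟨s, C s * h - C t * Q, hs, ?_⟩
  simp only [map_sub, map_mul, aeval_C]
  have e4 : aeval ζ g = algebraMap (𝓞 L) (𝓞 Ω) (g.eval 1) + (ζ - 1) * aeval ζ h := by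
    rw [← e2]; ring
  rw [e4, mul_add, e3]
  have e5 : (ℓ : 𝓞 Ω) = -((ζ - 1) * aeval ζ Q) := by rw [← e1]; ring
  rw [e5]
  ring

/-- If `g(1) ∉ 𝔩` then `N(g(ζ)) ≡ 1` modulo `𝔩`. -/
theorem cn_norm_aeval_sub_one_mem (hℓ2 : ℓ ≠ 2) (hirr : Irreducible (cyclotomic ℓ L))
    {ζ : 𝓞 Ω} (hζ : IsPrimitiveRoot ζ ℓ) (𝔩 : Ideal (𝓞 L)) [𝔩.IsPrime] (hℓ𝔩 : (ℓ : 𝓞 L) ∈ 𝔩)
    (hN : Ideal.absNorm 𝔩 = ℓ) (g : (𝓞 L)[X]) (hg1 : g.eval 1 ∉ 𝔩) :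
    RingOfIntegers.norm L (aeval ζ g) - 1 ∈ 𝔩 := by
  have hcong := cn_norm_aeval_sub_mem hℓ2 hirr hζ 𝔩 hℓ𝔩 g
  have h1 := cn_pow_sub_one_mem 𝔩 hN hg1
  have h2 := 𝔩.add_mem hcong h1
  have e : RingOfIntegers.norm L (aeval ζ g) - 1 =
      RingOfIntegers.norm L (aeval ζ g) - g.eval 1 ^ (ℓ - 1) + (g.eval 1 ^ (ℓ - 1) - 1) := by ring
  rw [e]
  exact h2

/-- The main induction: `N(g(ζ)) = ℓ ^ k * u / v` with `u ≡ v ≡ 1` modulo `𝔩`. -/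
theorem cn_main (hℓ2 : ℓ ≠ 2) (hirr : Irreducible (cyclotomic ℓ L))
    {ζ : 𝓞 Ω} (hζ : IsPrimitiveRoot ζ ℓ) (𝔩 : Ideal (𝓞 L)) [𝔩.IsPrime] (hℓ𝔩 : (ℓ : 𝓞 L) ∈ 𝔩)
    (hsq : (ℓ : 𝓞 L) ∉ 𝔩 ^ 2) (hN : Ideal.absNorm 𝔩 = ℓ) :
    ∀ (m : ℕ) (g : (𝓞 L)[X]), RingOfIntegers.norm L (aeval ζ g) ∉ 𝔩 ^ (m + 1) →
      ∃ (k : ℕ) (u v : 𝓞 L), u - 1 ∈ 𝔩 ∧ v - 1 ∈ 𝔩 ∧
        v * RingOfIntegers.norm L (aeval ζ g) = (ℓ : 𝓞 L) ^ k * u := by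
  have h0 : 𝔩 ≠ ⊥ := by
    rintro rfl
    rw [Ideal.absNorm_bot] at hN
    exact (Fact.out : ℓ.Prime).ne_zero hN.symm
  have hmax : 𝔩.IsMaximal := Ring.DimensionLEOne.maximalOfPrime h0 inferInstance
  have hℓ1 : ℓ - 1 ≠ 0 := by
    have := (Fact.out : ℓ.Prime).two_le
    omega
  have hunit : ∀ g : (𝓞 L)[X], g.eval 1 ∉ 𝔩 →
      ∃ (k : ℕ) (u v : 𝓞 L), u - 1 ∈ 𝔩 ∧ v - 1 ∈ 𝔩 ∧
        v * RingOfIntegers.norm L (aeval ζ g) = (ℓ : 𝓞 L) ^ k * u := by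
    intro g hg1
    exact ⟨0, RingOfIntegers.norm L (aeval ζ g), 1,
      cn_norm_aeval_sub_one_mem hℓ2 hirr hζ 𝔩 hℓ𝔩 hN g hg1, by simp, by simp⟩
  intro m
  induction m with
  | zero =>
    intro g hg
    rw [zero_add, pow_one] at hg
    apply hunit
    intro h
    apply hg
    have hcong := cn_norm_aeval_sub_mem hℓ2 hirr hζ 𝔩 hℓ𝔩 g
    have h1 : g.eval 1 ^ (ℓ - 1) ∈ 𝔩 := Ideal.pow_mem_of_mem _ h _ (Nat.pos_of_ne_zero hℓ1)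
    have h2 := 𝔩.add_mem hcong h1
    simpa using h2
  | succ m ih =>
    intro g hg
    by_cases hg1 : g.eval 1 ∈ 𝔩
    · obtain ⟨s, g₂, hs, hsg⟩ := cn_peel hζ 𝔩 hℓ𝔩 hsq g hg1
      have hN2 := congrArg (RingOfIntegers.norm L) hsg
      rw [map_mul, map_mul, cn_norm_algebraMap hirr, cn_norm_zeta_sub_one hℓ2 hirr hζ] at hN2
      have hg2 : RingOfIntegers.norm L (aeval ζ g₂) ∉ 𝔩 ^ (m + 1) := by
        intro h
        have h1 : (ℓ : 𝓞 L) * RingOfIntegers.norm L (aeval ζ g₂) ∈ 𝔩 ^ (m + 1 + 1) := by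
          rw [pow_succ' 𝔩 (m + 1)]
          exact Ideal.mul_mem_mul hℓ𝔩 h
        rw [← hN2] at h1
        rcases Ideal.IsMaximal.mul_mem_pow 𝔩 h1 with h2 | h2
        · exact hs (Ideal.IsPrime.mem_of_pow_mem inferInstance _ h2)
        · exact hg h2
      obtain ⟨k, u, v, hu, hv, huv⟩ := ih g₂ hg2
      refine ⟨k + 1, u, v * s ^ (ℓ - 1), hu, ?_, ?_⟩
      · have h1 := cn_pow_sub_one_mem 𝔩 hN hs
        have e : v * s ^ (ℓ - 1) - 1 = (v - 1) * s ^ (ℓ - 1) + (s ^ (ℓ - 1) - 1) := by ring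
        rw [e]
        exact 𝔩.add_mem (Ideal.mul_mem_right _ _ hv) h1
      · rw [mul_assoc, hN2, ← mul_assoc, mul_comm v, mul_assoc, huv]
        ring
    · exact hunit g hg1

/-- Every element of `Ω = L(ζ)` is `g(ζ) / c` with `g ∈ 𝓞 L[X]`, `c ∈ 𝓞 L`. -/
theorem cn_exists_aeval {ζ : 𝓞 Ω} (hζ : IsPrimitiveRoot ζ ℓ) (w : Ω) :
    ∃ (c : 𝓞 L) (g : (𝓞 L)[X]), c ≠ 0 ∧
      algebraMap L Ω (c : L) * w = ((aeval ζ g : 𝓞 Ω) : Ω) := by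
  have : NeZero ℓ := ⟨(Fact.out : ℓ.Prime).ne_zero⟩
  have hζ' : IsPrimitiveRoot (ζ : Ω) ℓ := hζ.map_of_injective RingOfIntegers.coe_injective
  have htop := IsCyclotomicExtension.adjoin_primitive_root_eq_top (A := L) hζ'
  have hw : w ∈ Algebra.adjoin L {(ζ : Ω)} := by
    rw [htop]
    trivial
  rw [Algebra.adjoin_singleton_eq_range_aeval] at hw
  obtain ⟨G, rfl⟩ := hw
  obtain ⟨b, hbM, hb⟩ := IsLocalization.integerNormalization_spec (nonZeroDivisors (𝓞 L)) G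
  refine ⟨b, IsLocalization.integerNormalization (nonZeroDivisors (𝓞 L)) G,
    nonZeroDivisors.ne_zero hbM, ?_⟩
  have e1 : ((aeval ζ (IsLocalization.integerNormalization (nonZeroDivisors (𝓞 L)) G) : 𝓞 Ω) : Ω)
      = aeval (ζ : Ω) ((IsLocalization.integerNormalization (nonZeroDivisors (𝓞 L)) G).map
          (algebraMap (𝓞 L) L)) := by
    rw [aeval_map_algebraMap]
    exact (aeval_algebraMap_apply Ω ζ _).symm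
  have e2 : (IsLocalization.integerNormalization (nonZeroDivisors (𝓞 L)) G).map
      (algebraMap (𝓞 L) L) = C (algebraMap (𝓞 L) L b) * G := by
    rw [hb]
    ext i
    rw [coeff_smul, coeff_C_mul, Algebra.smul_def]
  rw [e1, e2, map_mul, aeval_C]
  rfl

end Core

section Main

/-- (S3-LOC) The local norm congruence for `Ω = L(ζ_ℓ)` at a prime `𝔩` of `L` of norm `ℓ`
unramified over `ℓ`. -/
theorem norm_cyclo_local {ℓ : ℕ} [Fact ℓ.Prime] (hℓ2 : ℓ ≠ 2) {L Ω : Type*} [Field L]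
    [NumberField L] [Field Ω] [Algebra L Ω] [IsCyclotomicExtension {ℓ} L Ω]
    (𝔩 : Ideal (𝓞 L)) [𝔩.IsPrime] (hℓ𝔩 : (ℓ : 𝓞 L) ∈ 𝔩) (hsq : (ℓ : 𝓞 L) ∉ 𝔩 ^ 2)
    (hN : Ideal.absNorm 𝔩 = ℓ) (w : Ω) (hw : w ≠ 0) :
    ∃ (j k : ℕ) (u v : 𝓞 L), u - 1 ∈ 𝔩 ∧ v - 1 ∈ 𝔩 ∧
      (ℓ : L) ^ j * (v : L) * Algebra.norm L w = (ℓ : L) ^ k * (u : L) := by
  have : NumberField Ω := IsCyclotomicExtension.numberField {ℓ} L Ω
  have : FiniteDimensional L Ω := IsCyclotomicExtension.finiteDimensional {ℓ} L Ω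
  have hirr := irreducible_cyclotomic_of_splits 𝔩 hℓ𝔩 hsq
  have : NeZero ℓ := ⟨(Fact.out : ℓ.Prime).ne_zero⟩
  let ζ : 𝓞 Ω := (IsCyclotomicExtension.zeta_spec ℓ L Ω).toInteger
  have hζ : IsPrimitiveRoot ζ ℓ :=
    (IsCyclotomicExtension.zeta_spec ℓ L Ω).toInteger_isPrimitiveRoot
  obtain ⟨c, g, hc, hcg⟩ := cn_exists_aeval (L := L) hζ w
  have hcL : ((c ^ (ℓ - 1) : 𝓞 L) : L) ≠ 0 := by
    rw [Ne, RingOfIntegers.coe_eq_zero_iff]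
    exact pow_ne_zero _ hc
  -- norms
  have hnorm : ((c ^ (ℓ - 1) : 𝓞 L) : L) * Algebra.norm L w =
      ((RingOfIntegers.norm L (aeval ζ g) : 𝓞 L) : L) := by
    have h1 := congrArg (Algebra.norm L) hcg
    rw [map_mul, Algebra.norm_algebraMap, IsCyclotomicExtension.finrank Ω hirr,
      Nat.totient_prime Fact.out] at h1
    rw [RingOfIntegers.coe_norm, ← h1]
    push_cast
    rfl
  have hw0 : Algebra.norm L w ≠ 0 := Algebra.norm_ne_zero_iff.mpr hw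
  have hg0 : RingOfIntegers.norm L (aeval ζ g) ≠ 0 := by
    intro h
    rw [h] at hnorm
    simp only [map_zero] at hnorm
    exact mul_ne_zero hcL hw0 hnorm
  have hkrull : ∀ x : 𝓞 L, x ≠ 0 → ∃ m : ℕ, x ∉ 𝔩 ^ (m + 1) := by
    intro x hx
    by_contra h
    push Not at h
    apply hx
    have h1 : x ∈ ⨅ i : ℕ, 𝔩 ^ i := by
      rw [Ideal.mem_iInf]
      intro i
      cases i with
      | zero => simp
      | succ i => exact h i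
    rw [Ideal.iInf_pow_eq_bot_of_isDomain 𝔩 (Ideal.IsPrime.ne_top inferInstance)] at h1
    exact h1
  obtain ⟨m, hm⟩ := hkrull _ hg0
  obtain ⟨m', hm'⟩ := hkrull _ (pow_ne_zero (ℓ - 1) hc)
  obtain ⟨k1, u1, v1, hu1, hv1, h1⟩ := cn_main hℓ2 hirr hζ 𝔩 hℓ𝔩 hsq hN m g hm
  have hCc : RingOfIntegers.norm L (aeval ζ (C c)) = c ^ (ℓ - 1) := by
    rw [aeval_C, cn_norm_algebraMap hirr]
  obtain ⟨k2, u2, v2, hu2, hv2, h2⟩ := cn_main hℓ2 hirr hζ 𝔩 hℓ𝔩 hsq hN m' (C c)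
    (by rw [hCc]; exact hm')
  rw [hCc] at h2
  have hmul : ∀ a b : 𝓞 L, a - 1 ∈ 𝔩 → b - 1 ∈ 𝔩 → a * b - 1 ∈ 𝔩 := by
    intro a b ha hb
    have e : a * b - 1 = (a - 1) * b + (b - 1) := by ring
    rw [e]
    exact 𝔩.add_mem (Ideal.mul_mem_right _ _ ha) hb
  refine ⟨k2, k1, u1 * v2, v1 * u2, hmul _ _ hu1 hv2, hmul _ _ hv1 hu2, ?_⟩
  have h1' := congrArg (algebraMap (𝓞 L) L) h1
  have h2' := congrArg (algebraMap (𝓞 L) L) h2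
  simp only [map_mul, map_pow, map_natCast] at h1' h2'
  apply mul_left_cancel₀ hcL
  have e3 : ((c ^ (ℓ - 1) : 𝓞 L) : L) = (algebraMap (𝓞 L) L c) ^ (ℓ - 1) := by
    simp
  rw [e3] at hnorm ⊢
  simp only [map_mul]
  calc (algebraMap (𝓞 L) L c) ^ (ℓ - 1) * ((ℓ : L) ^ k2 * (algebraMap (𝓞 L) L v1 *
        algebraMap (𝓞 L) L u2) * Algebra.norm L w)
      = ((ℓ : L) ^ k2 * algebraMap (𝓞 L) L u2) * (algebraMap (𝓞 L) L v1 *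
          ((algebraMap (𝓞 L) L c) ^ (ℓ - 1) * Algebra.norm L w)) := by ring
    _ = (algebraMap (𝓞 L) L v2 * (algebraMap (𝓞 L) L c) ^ (ℓ - 1)) *
          ((ℓ : L) ^ k1 * algebraMap (𝓞 L) L u1) := by rw [hnorm, h1', h2']
    _ = _ := by ring

end Main

end Fermat.Agent.CFT.Recip
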