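import Mathlib

/-!
# RECIP: the crossing field `Ω = L(ζ_ℓ)` (definitions)

`K ⊆ L ⊆ Ω`, `L/K` cyclic of prime degree `p`, `Ω = L(ζ)` with `ζ` a primitive `ℓ`-th root of
unity.  `CrossData K L Ω p ℓ` packages the Galois-theoretic structure of `Ω/K` used in the
proof of the reciprocity statement:

* `σ` : the lift of a generator of `Gal(L/K)` that fixes `ζ` (order `p`),
* `τ` : a generator of `Gal(Ω/L)` (order `ℓ - 1`), acting on `ζ` by `ζ ↦ ζ ^ g`,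
* `σ` and `τ` commute and generate `Gal(Ω/K)`.
-/

set_option autoImplicit false

namespace Fermat.Agent.CFT.Recip

/-- Galois-theoretic structure of `Ω = L(ζ_ℓ)` over `K`. -/
structure CrossData (K L Ω : Type*) [Field K] [Field L] [Field Ω] [Algebra K L] [Algebra L Ω]
    [Algebra K Ω] [IsScalarTower K L Ω] (p ℓ : ℕ) where
  /-- a primitive `ℓ`-th root of unity -/
  ζ : Ω
  hζ : IsPrimitiveRoot ζ ℓ
  /-- the lift of a generator of `Gal(L/K)` fixing `ζ` -/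
  σ : Ω ≃ₐ[K] Ω
  /-- a generator of `Gal(Ω/L)` -/
  τ : Ω ≃ₐ[K] Ω
  /-- `τ ζ = ζ ^ g` -/
  g : ℕ
  comm : σ * τ = τ * σ
  σ_ζ : σ ζ = ζ
  τ_L : ∀ x : L, τ (algebraMap L Ω x) = algebraMap L Ω x
  τ_ζ : τ ζ = ζ ^ g
  σ_order : orderOf σ = p
  τ_order : orderOf τ = ℓ - 1
  /-- `g` is a primitive root modulo `ℓ` -/
  g_order : orderOf (g : ZMod ℓ) = ℓ - 1
  gen : ∀ h : Ω ≃ₐ[K] Ω, ∃ i k : ℕ, h = σ ^ i * τ ^ k
  σ_L : ∀ i : ℕ, (∀ x : L, (σ ^ i) (algebraMap L Ω x) = algebraMap L Ω x) → p ∣ i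
  fix_L : ∀ h : Ω ≃ₐ[K] Ω, (∀ x : L, h (algebraMap L Ω x) = algebraMap L Ω x) → ∃ k : ℕ, h = τ ^ k

end Fermat.Agent.CFT.Recip
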