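import Mathlib

/-!
# Transgression: the combinatorial core

Abstract form of step (S2) of the reciprocity route: two commuting endomorphisms `σ`, `τ` of a
field `Ω` (elements of a monoid `G` acting on `Ω`), nonzero `z w : Ω` with
`τ z * w = σ w * z`, and a "valuation" `v : Ω → ℤ` (additive on nonzero elements) invariant
under `σ ^ d * τ ^ e`.  If `γ = ∏_{j<p} σ^j z` and
`a = ∏_{l<n} τ^l w` are fixed by `σ` and `τ`, then `p * n ∣ n * d * v γ + p * e * v a`.
-/

namespace Fermat.Agent.CFT.Recip

open Finset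

/-- The purely additive core: a discrete "closed 1-form" `(f, h)` on `ℕ × ℕ` with periods
`vγ` under `(p, 0)`, `va` under `(0, n)` and invariant under the translation `(d, e)`. -/
theorem transgression_core (p n d e : ℕ) (f h : ℕ → ℕ → ℤ) (vγ va : ℤ)
    (hfh : ∀ i k, f i (k + 1) - f i k = h (i + 1) k - h i k)
    (hγ : ∀ i k, ∑ j ∈ range p, f (i + j) k = vγ)
    (ha : ∀ i k, ∑ l ∈ range n, h i (k + l) = va)
    (hf : ∀ i k, f (i + d) (k + e) = f i k)
    (hh : ∀ i k, h (i + d) (k + e) = h i k) :
    ((p : ℤ) * n) ∣ n * d * vγ + p * e * va := by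
  -- the potential
  set Ψ : ℕ → ℕ → ℤ := fun i k => ∑ j ∈ range i, f j 0 + ∑ l ∈ range k, h i l with hΨ
  have h1 : ∀ i k, Ψ i (k + 1) = Ψ i k + h i k := by
    intro i k
    simp only [hΨ, sum_range_succ]
    ring
  have h2 : ∀ k i, Ψ (i + 1) k = Ψ i k + f i k := by
    intro k
    induction k with
    | zero =>
      intro i
      simp [hΨ, sum_range_succ]
    | succ k ih =>
      intro i
      rw [h1, h1, ih i]
      have := hfh i k
      linarith
  -- periods
  have h3 : ∀ m i k, Ψ (i + m) k = Ψ i k + ∑ j ∈ range m, f (i + j) k := by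
    intro m
    induction m with
    | zero => intro i k; simp
    | succ m ih =>
      intro i k
      rw [← add_assoc, h2, ih, sum_range_succ]
      ring
  have h4 : ∀ m i k, Ψ i (k + m) = Ψ i k + ∑ l ∈ range m, h i (k + l) := by
    intro m
    induction m with
    | zero => intro i k; simp
    | succ m ih =>
      intro i k
      rw [← add_assoc, h1, ih, sum_range_succ]
      ring
  have h5 : ∀ i k, Ψ (i + p) k = Ψ i k + vγ := fun i k => by rw [h3, hγ]
  have h6 : ∀ i k, Ψ i (k + n) = Ψ i k + va := fun i k => by rw [h4, ha]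
  have h7 : ∀ m i k, Ψ (i + m * p) k = Ψ i k + m * vγ := by
    intro m
    induction m with
    | zero => intro i k; simp
    | succ m ih =>
      intro i k
      have : i + (m + 1) * p = (i + m * p) + p := by ring
      rw [this, h5, ih]
      push_cast
      ring
  have h8 : ∀ m i k, Ψ i (k + m * n) = Ψ i k + m * va := by
    intro m
    induction m with
    | zero => intro i k; simp
    | succ m ih =>
      intro i k
      have : k + (m + 1) * n = (k + m * n) + n := by ring
      rw [this, h6, ih]
      push_cast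
      ring
  -- the jump under `(d, e)` is constant
  set c : ℕ → ℕ → ℤ := fun i k => Ψ (i + d) (k + e) - Ψ i k with hc
  have c1 : ∀ i k, c (i + 1) k = c i k := by
    intro i k
    simp only [hc]
    have e1 : i + 1 + d = (i + d) + 1 := by ring
    rw [e1, h2, h2, hf]
    ring
  have c2 : ∀ i k, c i (k + 1) = c i k := by
    intro i k
    simp only [hc]
    have e1 : k + 1 + e = (k + e) + 1 := by ring
    rw [e1, h1, h1, hh]
    ring
  have c3 : ∀ i k, c i k = c 0 0 := by
    intro i k
    have a1 : ∀ i, c i k = c 0 k := by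
      intro i
      induction i with
      | zero => rfl
      | succ i ih => rw [c1, ih]
    have a2 : ∀ k, c 0 k = c 0 0 := by
      intro k
      induction k with
      | zero => rfl
      | succ k ih => rw [c2, ih]
    rw [a1, a2]
  have h9 : ∀ m : ℕ, Ψ (m * d) (m * e) = Ψ 0 0 + m * c 0 0 := by
    intro m
    induction m with
    | zero => simp
    | succ m ih =>
      have e1 : (m + 1) * d = m * d + d := by ring
      have e2 : (m + 1) * e = m * e + e := by ring
      have := c3 (m * d) (m * e)
      simp only [hc] at this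
      rw [e1, e2]
      push_cast
      simp only [hc]
      linarith
  have key1 := h9 (p * n)
  have key2 : Ψ (p * n * d) (p * n * e) = Ψ 0 0 + (n * d : ℕ) * vγ + (p * e : ℕ) * va := by
    have e1 : p * n * d = 0 + (n * d) * p := by ring
    have e2 : p * n * e = 0 + (p * e) * n := by ring
    rw [e1, e2, h7, h8]
    ring
  refine ⟨c 0 0, ?_⟩
  rw [key2] at key1
  push_cast at key1
  linarith

/-- A function `v` which is additive on nonzero elements turns finite products of nonzero
elements into sums. -/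
theorem val_prod_eq_sum {Ω : Type*} [Field Ω] (v : Ω → ℤ)
    (hv : ∀ x y : Ω, x ≠ 0 → y ≠ 0 → v (x * y) = v x + v y) {ι : Type*} (s : Finset ι)
    (x : ι → Ω) (hx : ∀ i ∈ s, x i ≠ 0) : v (∏ i ∈ s, x i) = ∑ i ∈ s, v (x i) := by
  classical
  induction s using Finset.induction_on with
  | empty =>
    have := hv 1 1 one_ne_zero one_ne_zero
    simp only [mul_one] at this
    simp only [prod_empty, sum_empty]
    linarith
  | insert i s hi ih =>
    rw [prod_insert hi, sum_insert hi, hv _ _ (hx i (mem_insert_self i s))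
      (prod_ne_zero_iff.mpr fun j hj => hx j (mem_insert_of_mem hj)),
      ih fun j hj => hx j (mem_insert_of_mem hj)]

/-- **Abstract transgression** (step (S2) of the reciprocity route).  `σ`, `τ` commuting
elements of a monoid `G` acting on a field `Ω` by ring endomorphisms, `z w : Ω` nonzero with
`τ z * w = σ w * z`, `γ = ∏_{j<p} σ^j z` and `a = ∏_{l<n} τ^l w` both fixed by `σ` and `τ`,
and `v : Ω → ℤ` additive on nonzero elements and invariant under `σ ^ d * τ ^ e`.  Then
`p * n ∣ n * d * v γ + p * e * v a`. -/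
theorem transgression {Ω : Type*} [Field Ω] {G : Type*} [Monoid G] [MulSemiringAction G Ω]
    (σ τ : G) (hcomm : Commute σ τ) (v : Ω → ℤ)
    (hv : ∀ x y : Ω, x ≠ 0 → y ≠ 0 → v (x * y) = v x + v y)
    (p n d e : ℕ) (z w γ a : Ω) (hz : z ≠ 0) (hw : w ≠ 0)
    (hγ : ∏ j ∈ range p, (σ ^ j) • z = γ) (ha : ∏ l ∈ range n, (τ ^ l) • w = a)
    (hσγ : σ • γ = γ) (hτγ : τ • γ = γ) (hσa : σ • a = a) (hτa : τ • a = a)
    (hzw : τ • z * w = σ • w * z)
    (hstab : ∀ x : Ω, x ≠ 0 → v ((σ ^ d * τ ^ e) • x) = v x) :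
    ((p : ℤ) * n) ∣ n * d * v γ + p * e * v a := by
  have hne : ∀ (g : G) (x : Ω), x ≠ 0 → g • x ≠ 0 := by
    intro g x hx h0
    apply hx
    have := (MulSemiringAction.toRingHom G Ω g).injective
    exact this (by simpa using h0)
  have hcpow : ∀ i k : ℕ, Commute (σ ^ i) (τ ^ k) := fun i k => hcomm.pow_pow i k
  have hσpow : ∀ (i : ℕ), (σ ^ i) • γ = γ := by
    intro i
    induction i with
    | zero => simp
    | succ i ih => rw [pow_succ, mul_smul, hσγ, ih]
  have hτpow : ∀ (k : ℕ), (τ ^ k) • γ = γ := by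
    intro k
    induction k with
    | zero => simp
    | succ k ih => rw [pow_succ, mul_smul, hτγ, ih]
  have hσpowa : ∀ (i : ℕ), (σ ^ i) • a = a := by
    intro i
    induction i with
    | zero => simp
    | succ i ih => rw [pow_succ, mul_smul, hσa, ih]
  have hτpowa : ∀ (k : ℕ), (τ ^ k) • a = a := by
    intro k
    induction k with
    | zero => simp
    | succ k ih => rw [pow_succ, mul_smul, hτa, ih]
  set f : ℕ → ℕ → ℤ := fun i k => v ((σ ^ i * τ ^ k) • z) with hf
  set h : ℕ → ℕ → ℤ := fun i k => v ((σ ^ i * τ ^ k) • w) with hh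
  refine transgression_core p n d e f h _ _ ?_ ?_ ?_ ?_ ?_
  · -- closedness
    intro i k
    have e1 : (σ ^ i * τ ^ k) • (τ • z * w) = (σ ^ i * τ ^ k) • (σ • w * z) := by rw [hzw]
    rw [smul_mul', smul_mul'] at e1
    have e2 := congrArg v e1
    rw [hv _ _ (hne _ _ (hne _ _ hz)) (hne _ _ hw),
      hv _ _ (hne _ _ (hne _ _ hw)) (hne _ _ hz)] at e2
    have e3 : (σ ^ i * τ ^ k) • τ • z = (σ ^ i * τ ^ (k + 1)) • z := by
      rw [← mul_smul, mul_assoc, ← pow_succ]
    have e4 : (σ ^ i * τ ^ k) • σ • w = (σ ^ (i + 1) * τ ^ k) • w := by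
      rw [← mul_smul, mul_assoc, ← (hcomm.pow_right k).eq, ← mul_assoc, ← pow_succ]
    rw [e3, e4] at e2
    simp only [hf, hh]
    linarith
  · intro i k
    simp only [hf]
    have e1 : ∏ j ∈ range p, (σ ^ (i + j) * τ ^ k) • z = (σ ^ i * τ ^ k) • γ := by
      rw [← hγ, Finset.smul_prod']
      refine prod_congr rfl fun j _ => ?_
      rw [← mul_smul, pow_add, mul_assoc, mul_assoc, (hcpow j k).eq]
    rw [mul_smul, hτpow, hσpow] at e1
    rw [← e1, val_prod_eq_sum v hv _ _ fun j _ => hne _ _ hz]
  · intro i k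
    simp only [hh]
    have e1 : ∏ l ∈ range n, (σ ^ i * τ ^ (k + l)) • w = (σ ^ i * τ ^ k) • a := by
      rw [← ha, Finset.smul_prod']
      refine prod_congr rfl fun l _ => ?_
      rw [← mul_smul, pow_add, mul_assoc]
    rw [mul_smul, hτpowa, hσpowa] at e1
    rw [← e1, val_prod_eq_sum v hv _ _ fun j _ => hne _ _ hw]
  · intro i k
    simp only [hf]
    have e1 : (σ ^ (i + d) * τ ^ (k + e)) • z = (σ ^ d * τ ^ e) • ((σ ^ i * τ ^ k) • z) := by
      rw [← mul_smul, add_comm i d, add_comm k e, pow_add, pow_add]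
      congr 1
      rw [mul_assoc, mul_assoc]
      congr 1
      rw [← mul_assoc, ← mul_assoc, (hcpow i e).eq]
    rw [e1, hstab _ (hne _ _ hz)]
  · intro i k
    simp only [hh]
    have e1 : (σ ^ (i + d) * τ ^ (k + e)) • w = (σ ^ d * τ ^ e) • ((σ ^ i * τ ^ k) • w) := by
      rw [← mul_smul, add_comm i d, add_comm k e, pow_add, pow_add]
      congr 1
      rw [mul_assoc, mul_assoc]
      congr 1
      rw [← mul_assoc, ← mul_assoc, (hcpow i e).eq]
    rw [e1, hstab _ (hne _ _ hw)]

end Fermat.Agent.CFT.Recip
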