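import Mathlib
import Fermat.Agent.CFT.Recip.TransCore

/-!
# RECIP (S2): transgression for number fields

Layer 2 of step (S2) of the reciprocity route (report #952): the abstract field-level statement
`Fermat.Agent.CFT.Recip.transgression` (TransCore.lean) is instantiated with the additive
valuation `ordAt 𝔓` at a prime `𝔓` of a Dedekind domain.

## Main definitions and results

* `ordAt v x : ℤ` — the additive `v`-adic valuation of `x : F` (`F` the fraction field of a
  Dedekind domain `R`, `v : HeightOneSpectrum R`), with junk value `0` at `x = 0`.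
* `ordAt_mul`, `ordAt_one`, `ordAt_prod`, `ordAt_pow`, `ordAt_inv`, `ordAt_div`: additivity on
  nonzero elements.
* `natCast_le_ordAt_algebraMap_iff`: for `r ≠ 0` in `R`, `n ≤ ordAt v r ↔ r ∈ v ^ n`.
* `ordAt_ringEquiv`: `ordAt v` is invariant under a ring automorphism stabilising `v`.
* `ordAt_smul_of_smul_eq`: for a group `G` acting on a number field `Ω` and `g • 𝔓 = 𝔓`,
  `ordAt 𝔓 (g • x) = ordAt 𝔓 x`.
* `ordAt_algebraMap_of_liesOver`: `ordAt 𝔓 (algebraMap K Ω y) = e(𝔓|𝔯) * ordAt 𝔯 y`.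
* `transgression_ordAt`: the transgression divisibility for `ordAt 𝔓`.
* `transgression_ordAt_base`: the same, expressed with `ordAt 𝔯` for the prime `𝔯` below `𝔓`
  when `𝔓` is unramified over `𝔯`.
-/

set_option autoImplicit false

namespace Fermat.Agent.CFT.Recip

open IsDedekindDomain WithZero Finset

section Dedekind

variable {R : Type*} [CommRing R] [IsDedekindDomain R] {F : Type*} [Field F] [Algebra R F]
  [IsFractionRing R F]

/-- The additive `v`-adic valuation (order) of an element of the fraction field; junk value `0`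
at `0`. -/
noncomputable def ordAt (v : HeightOneSpectrum R) (x : F) : ℤ := -log (v.valuation F x)

theorem ordAt_def (v : HeightOneSpectrum R) (x : F) : ordAt v x = -log (v.valuation F x) := rfl

theorem valuation_eq_exp_neg_ordAt (v : HeightOneSpectrum R) {x : F} (hx : x ≠ 0) :
    v.valuation F x = exp (-ordAt v x) := by
  rw [ordAt, neg_neg, exp_log ((Valuation.ne_zero_iff _).mpr hx)]

theorem ordAt_mul (v : HeightOneSpectrum R) {x y : F} (hx : x ≠ 0) (hy : y ≠ 0) :
    ordAt v (x * y) = ordAt v x + ordAt v y := by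
  unfold ordAt
  rw [map_mul, log_mul ((Valuation.ne_zero_iff _).mpr hx) ((Valuation.ne_zero_iff _).mpr hy)]
  ring

@[simp] theorem ordAt_one (v : HeightOneSpectrum R) : ordAt v (1 : F) = 0 := by
  simp [ordAt]

@[simp] theorem ordAt_zero (v : HeightOneSpectrum R) : ordAt v (0 : F) = 0 := by
  simp [ordAt]

theorem ordAt_prod (v : HeightOneSpectrum R) {ι : Type*} (s : Finset ι) (x : ι → F)
    (hx : ∀ i ∈ s, x i ≠ 0) : ordAt v (∏ i ∈ s, x i) = ∑ i ∈ s, ordAt v (x i) := by
  classical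
  induction s using Finset.induction_on with
  | empty => simp
  | insert i s hi ih =>
    rw [prod_insert hi, sum_insert hi,
      ordAt_mul v (hx i (mem_insert_self i s))
        (prod_ne_zero_iff.mpr fun j hj => hx j (mem_insert_of_mem hj)),
      ih fun j hj => hx j (mem_insert_of_mem hj)]

theorem ordAt_pow (v : HeightOneSpectrum R) (x : F) (n : ℕ) :
    ordAt v (x ^ n) = n * ordAt v x := by
  unfold ordAt
  rw [map_pow, log_pow]
  simp

theorem ordAt_inv (v : HeightOneSpectrum R) (x : F) : ordAt v x⁻¹ = -ordAt v x := by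
  unfold ordAt
  rw [map_inv₀, log_inv]

theorem ordAt_div (v : HeightOneSpectrum R) {x y : F} (hx : x ≠ 0) (hy : y ≠ 0) :
    ordAt v (x / y) = ordAt v x - ordAt v y := by
  rw [div_eq_mul_inv, ordAt_mul v hx (inv_ne_zero hy), ordAt_inv]
  ring

theorem ordAt_algebraMap_nonneg (v : HeightOneSpectrum R) (r : R) :
    0 ≤ ordAt v (algebraMap R F r) := by
  rcases eq_or_ne r 0 with rfl | hr
  · simp
  have hr' : algebraMap R F r ≠ 0 := by
    simpa using (IsFractionRing.injective R F).ne hr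
  have h1 := v.valuation_le_one (K := F) r
  rw [valuation_eq_exp_neg_ordAt v hr', ← exp_zero, exp_le_exp] at h1
  linarith

/-- For `r ≠ 0` in `R`: `n ≤ ord_v r ↔ r ∈ v ^ n`. -/
theorem natCast_le_ordAt_algebraMap_iff (v : HeightOneSpectrum R) {r : R} (hr : r ≠ 0) (n : ℕ) :
    (n : ℤ) ≤ ordAt v (algebraMap R F r) ↔ r ∈ v.asIdeal ^ n := by
  have hr' : algebraMap R F r ≠ 0 := by
    simpa using (IsFractionRing.injective R F).ne hr
  rw [← v.intValuation_le_pow_iff_mem, ← v.valuation_of_algebraMap (K := F),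
    valuation_eq_exp_neg_ordAt v hr', exp_le_exp]
  constructor <;> intro h <;> linarith

/-- A ring automorphism of `R` stabilising the prime `v` does not increase the valuation. -/
theorem intValuation_ringEquiv_le (v : HeightOneSpectrum R) (e : R ≃+* R)
    (he : ∀ r, r ∈ v.asIdeal → e r ∈ v.asIdeal) (r : R) :
    v.intValuation (e r) ≤ v.intValuation r := by
  rcases eq_or_ne r 0 with rfl | hr
  · simp
  rw [v.intValuation_eq_exp_neg_multiplicity hr, v.intValuation_le_pow_iff_mem]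
  have hmem : r ∈ v.asIdeal ^ multiplicity v.asIdeal (Ideal.span {r}) := by
    rw [← v.intValuation_le_pow_iff_mem, v.intValuation_eq_exp_neg_multiplicity hr]
  have hmap : Ideal.map (e : R →+* R) v.asIdeal ≤ v.asIdeal := by
    rw [Ideal.map_le_iff_le_comap]
    intro x hx
    exact he x hx
  have h2 : Ideal.map (e : R →+* R) (v.asIdeal ^ multiplicity v.asIdeal (Ideal.span {r})) ≤
      v.asIdeal ^ multiplicity v.asIdeal (Ideal.span {r}) := by
    rw [Ideal.map_pow]
    exact Ideal.pow_right_mono hmap _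
  exact h2 (Ideal.mem_map_of_mem _ hmem)

/-- A ring automorphism of `R` stabilising the prime `v` preserves the valuation. -/
theorem intValuation_ringEquiv (v : HeightOneSpectrum R) (e : R ≃+* R)
    (he : ∀ r, e r ∈ v.asIdeal ↔ r ∈ v.asIdeal) (r : R) :
    v.intValuation (e r) = v.intValuation r := by
  refine le_antisymm (intValuation_ringEquiv_le v e (fun x hx => (he x).mpr hx) r) ?_
  have := intValuation_ringEquiv_le v e.symm (fun x hx => by
    rw [← he]; simpa using hx) (e r)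
  simpa using this

/-- A field automorphism inducing an automorphism of `R` which stabilises `v` preserves the
`v`-adic valuation. -/
theorem valuation_ringEquiv (v : HeightOneSpectrum R) (e : R ≃+* R) (E : F ≃+* F)
    (hE : ∀ r, E (algebraMap R F r) = algebraMap R F (e r))
    (he : ∀ r, e r ∈ v.asIdeal ↔ r ∈ v.asIdeal) (x : F) :
    v.valuation F (E x) = v.valuation F x := by
  obtain ⟨r, s, hs, rfl⟩ := IsFractionRing.div_surjective (A := R) x
  rw [map_div₀, hE, hE, map_div₀, map_div₀, v.valuation_of_algebraMap, v.valuation_of_algebraMap,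
    v.valuation_of_algebraMap, v.valuation_of_algebraMap, intValuation_ringEquiv v e he,
    intValuation_ringEquiv v e he]

theorem ordAt_ringEquiv (v : HeightOneSpectrum R) (e : R ≃+* R) (E : F ≃+* F)
    (hE : ∀ r, E (algebraMap R F r) = algebraMap R F (e r))
    (he : ∀ r, e r ∈ v.asIdeal ↔ r ∈ v.asIdeal) (x : F) :
    ordAt v (E x) = ordAt v x := by
  rw [ordAt, ordAt, valuation_ringEquiv v e E hE he]

end Dedekind

section NumberField

open NumberField

open scoped Pointwise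

variable {Ω : Type*} [Field Ω] [NumberField Ω]

/-- Invariance of `ordAt 𝔓` under an element of a group acting on `Ω` which stabilises `𝔓`
(elementwise form of the hypothesis). -/
theorem ordAt_smul_of_forall_mem {G : Type*} [Group G] [MulSemiringAction G Ω]
    (𝔓 : HeightOneSpectrum (𝓞 Ω)) (g : G)
    (hg : ∀ x : 𝓞 Ω, g • x ∈ 𝔓.asIdeal ↔ x ∈ 𝔓.asIdeal) (x : Ω) :
    ordAt 𝔓 (g • x) = ordAt 𝔓 x :=
  ordAt_ringEquiv 𝔓 (MulSemiringAction.toRingEquiv G (𝓞 Ω) g)
    (MulSemiringAction.toRingEquiv G Ω g) (fun _ => rfl) hg x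

/-- Invariance of `ordAt 𝔓` under an element of the stabiliser of `𝔓`. -/
theorem ordAt_smul_of_smul_eq {G : Type*} [Group G] [MulSemiringAction G Ω]
    (𝔓 : HeightOneSpectrum (𝓞 Ω)) (g : G) (hg : g • 𝔓.asIdeal = 𝔓.asIdeal) (x : Ω) :
    ordAt 𝔓 (g • x) = ordAt 𝔓 x := by
  refine ordAt_smul_of_forall_mem 𝔓 g (fun r => ?_) x
  conv_lhs => rw [← hg]
  exact Ideal.smul_mem_pointwise_smul_iff

/-- Base change of the additive valuation: `ord_𝔓 (y) = e(𝔓|𝔯) * ord_𝔯 (y)` for `y ∈ K`. -/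
theorem ordAt_algebraMap_of_liesOver {K : Type*} [Field K] [NumberField K] [Algebra K Ω]
    (𝔯 : HeightOneSpectrum (𝓞 K)) (𝔓 : HeightOneSpectrum (𝓞 Ω))
    [𝔓.asIdeal.LiesOver 𝔯.asIdeal] (y : K) :
    ordAt 𝔓 (algebraMap K Ω y) = (𝔯.asIdeal.ramificationIdx' 𝔓.asIdeal : ℤ) * ordAt 𝔯 y := by
  unfold ordAt
  rw [← HeightOneSpectrum.valuation_liesOver Ω 𝔯 𝔓 y, log_pow]
  simp

/-- **Transgression (S2), `ordAt 𝔓`-form.**  `σ, τ` commuting `K`-automorphisms of the number
field `Ω`, `𝔓` a prime of `Ω` stabilised by `σ ^ d * τ ^ e`; `z, w ∈ Ωˣ` with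
`τ z * w = σ w * z`, `∏_{j<p} σ^j z = γ ∈ K`, `∏_{l<n} τ^l w = a ∈ K`.  Then
`p * n ∣ n * d * ord_𝔓 γ + p * e * ord_𝔓 a`. -/
theorem transgression_ordAt {K : Type*} [Field K] [Algebra K Ω] (σ τ : Ω ≃ₐ[K] Ω)
    (hcomm : σ * τ = τ * σ) (p n d e : ℕ) (𝔓 : HeightOneSpectrum (𝓞 Ω))
    (hstab : (σ ^ d * τ ^ e) • 𝔓.asIdeal = 𝔓.asIdeal) (z w : Ω) (hz : z ≠ 0) (hw : w ≠ 0)
    (γ a : K) (hγ : ∏ j ∈ range p, (σ ^ j) z = algebraMap K Ω γ)
    (ha : ∏ l ∈ range n, (τ ^ l) w = algebraMap K Ω a) (hzw : τ z * w = σ w * z) :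
    ((p : ℤ) * n) ∣ n * d * ordAt 𝔓 (algebraMap K Ω γ) + p * e * ordAt 𝔓 (algebraMap K Ω a) :=
  transgression σ τ hcomm (ordAt 𝔓) (fun _ _ hx hy => ordAt_mul 𝔓 hx hy) p n d e z w
    (algebraMap K Ω γ) (algebraMap K Ω a) hz hw hγ ha (σ.commutes γ) (τ.commutes γ)
    (σ.commutes a) (τ.commutes a) hzw
    (fun x _ => ordAt_smul_of_smul_eq 𝔓 (σ ^ d * τ ^ e) hstab x)

/-- **Transgression (S2), base form.**  As `transgression_ordAt`, with the valuations computed at
the prime `𝔯` of `K` below `𝔓`, when `𝔓` is unramified over `𝔯`. -/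
theorem transgression_ordAt_base {K : Type*} [Field K] [NumberField K] [Algebra K Ω]
    (σ τ : Ω ≃ₐ[K] Ω) (hcomm : σ * τ = τ * σ) (p n d e : ℕ) (𝔓 : HeightOneSpectrum (𝓞 Ω))
    (𝔯 : HeightOneSpectrum (𝓞 K)) [𝔓.asIdeal.LiesOver 𝔯.asIdeal]
    (hunr : 𝔯.asIdeal.ramificationIdx' 𝔓.asIdeal = 1)
    (hstab : (σ ^ d * τ ^ e) • 𝔓.asIdeal = 𝔓.asIdeal) (z w : Ω) (hz : z ≠ 0) (hw : w ≠ 0)
    (γ a : K) (hγ : ∏ j ∈ range p, (σ ^ j) z = algebraMap K Ω γ)
    (ha : ∏ l ∈ range n, (τ ^ l) w = algebraMap K Ω a) (hzw : τ z * w = σ w * z) :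
    ((p : ℤ) * n) ∣ n * d * ordAt 𝔯 γ + p * e * ordAt 𝔯 a := by
  have h := transgression_ordAt σ τ hcomm p n d e 𝔓 hstab z w hz hw γ a hγ ha hzw
  rwa [ordAt_algebraMap_of_liesOver 𝔯 𝔓, ordAt_algebraMap_of_liesOver 𝔯 𝔓, hunr, Nat.cast_one,
    one_mul, one_mul] at h

end NumberField

end Fermat.Agent.CFT.Recip
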