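import Mathlib
import Fermat.Agent.CFT.Recip.Defs
import Fermat.Agent.CFT.Recip.OmegaDefs
import Fermat.Agent.CFT.Recip.Transgression
import Fermat.Agent.CFT.Recip.CycloNorm

/-!
# The cyclotomic step, local part at `ℓ` (valuation form)

`Ω = L(ζ_ℓ)`, `ℓ` splitting completely in `L`, `τ` the generator of `Gal(Ω/L)` of a
`CrossData`.  If `b = ∏_{l < ℓ - 1} τ^l w` (the norm of `w` from `Ω` to `L`), then at every prime
`lam` of `L` over `ℓ` the element `b / ℓ ^ ord_lam(b)` is congruent to `1` modulo `lam`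
(`cyclo_local`).  This is a reformulation of `norm_cyclo_local`.
-/

set_option autoImplicit false

open NumberField IsDedekindDomain

namespace Fermat.Agent.CFT.Recip

/-- The norm from `Ω` to `L` is the product over the powers of `τ`. -/
theorem cl_norm_eq_prod {K L Ω : Type*} [Field K] [Field L] [Field Ω] [Algebra K L]
    [Algebra L Ω] [Algebra K Ω] [IsScalarTower K L Ω] [FiniteDimensional L Ω] [IsGalois L Ω]
    {p ℓ : ℕ} (hℓ : 2 ≤ ℓ) (D : CrossData K L Ω p ℓ) (w : Ω) :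
    algebraMap L Ω (Algebra.norm L w) = ∏ l ∈ Finset.range (ℓ - 1), (D.τ ^ l) w := by
  classical
  let τL : Ω ≃ₐ[L] Ω := { D.τ.toRingEquiv with commutes' := D.τ_L }
  have hτL1 : ∀ x : Ω, τL x = D.τ x := fun _ => rfl
  have hτL : ∀ (l : ℕ) (x : Ω), (τL ^ l) x = (D.τ ^ l) x := by
    intro l
    induction l with
    | zero => intro x; simp
    | succ n ih =>
      intro x
      rw [pow_succ, pow_succ, AlgEquiv.mul_apply, AlgEquiv.mul_apply, ih, hτL1]
  rw [Algebra.norm_eq_prod_automorphisms]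
  symm
  refine Finset.prod_nbij (fun l => τL ^ l) (fun _ _ => Finset.mem_univ _) ?_ ?_
    (fun l _ => (hτL l w).symm)
  · intro a ha b hb hab
    have hab' : τL ^ a = τL ^ b := hab
    have h1 : D.τ ^ a = D.τ ^ b := by
      ext x
      rw [← hτL a x, ← hτL b x, hab']
    have ha' : a ∈ Set.Iio (orderOf D.τ) := by
      rw [D.τ_order]
      exact Finset.mem_range.mp ha
    have hb' : b ∈ Set.Iio (orderOf D.τ) := by
      rw [D.τ_order]
      exact Finset.mem_range.mp hb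
    exact pow_injOn_Iio_orderOf ha' hb' h1
  · intro σ' _
    obtain ⟨k, hk⟩ := D.fix_L (σ'.restrictScalars K) (fun x => σ'.commutes x)
    refine ⟨k % (ℓ - 1), Finset.mem_coe.mpr (Finset.mem_range.mpr (Nat.mod_lt _ (by omega))), ?_⟩
    ext x
    show (τL ^ (k % (ℓ - 1))) x = σ' x
    rw [hτL, ← D.τ_order, pow_mod_orderOf, ← hk]
    rfl

theorem cyclo_local {K L Ω : Type*} [Field K] [NumberField K] [Field L] [NumberField L]
    [Algebra K L] [IsGalois K L] [Field Ω] [NumberField Ω] [Algebra L Ω] [Algebra K Ω]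
    [IsScalarTower K L Ω] (p ℓ : ℕ) [Fact ℓ.Prime] (hℓ2 : ℓ ≠ 2)
    [IsCyclotomicExtension {ℓ} L Ω] (D : CrossData K L Ω p ℓ) (hsplit : SplitsCompletely ℓ L)
    (w : Ω) (hw : w ≠ 0) (b : L)
    (hNw : ∏ l ∈ Finset.range (ℓ - 1), (D.τ ^ l) w = algebraMap L Ω b)
    (lam : HeightOneSpectrum (𝓞 L)) (hlam : (ℓ : 𝓞 L) ∈ lam.asIdeal) :
    lam.valuation L (b / (ℓ : L) ^ (ordAt lam b) - 1) < 1 := by
  have hℓ : ℓ.Prime := Fact.out
  obtain ⟨hN, hsq⟩ := hsplit lam.asIdeal lam.isPrime hlam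
  have : IsGalois L Ω := IsCyclotomicExtension.isGalois {ℓ} L Ω
  have : FiniteDimensional L Ω := IsCyclotomicExtension.finiteDimensional {ℓ} L Ω
  have hb : Algebra.norm L w = b := by
    apply (algebraMap L Ω).injective
    rw [cl_norm_eq_prod hℓ.two_le D w, hNw]
  have := lam.isPrime
  obtain ⟨j, k, u, v, hu, hv, huv⟩ := norm_cyclo_local hℓ2 lam.asIdeal hlam hsq hN w hw
  rw [hb] at huv
  have huv' : (ℓ : L) ^ j * algebraMap (𝓞 L) L v * b = (ℓ : L) ^ k * algebraMap (𝓞 L) L u := huv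
  have h1 : (1 : 𝓞 L) ∉ lam.asIdeal := fun h =>
    lam.isPrime.ne_top ((Ideal.eq_top_iff_one _).mpr h)
  have hu' : u ∉ lam.asIdeal := fun h => h1 (by
    have := lam.asIdeal.sub_mem h hu
    simpa using this)
  have hv' : v ∉ lam.asIdeal := fun h => h1 (by
    have := lam.asIdeal.sub_mem h hv
    simpa using this)
  have hu0' : u ≠ 0 := fun h => hu' (h ▸ lam.asIdeal.zero_mem)
  have hv0' : v ≠ 0 := fun h => hv' (h ▸ lam.asIdeal.zero_mem)
  have hinj := IsFractionRing.injective (𝓞 L) L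
  have hu0 : algebraMap (𝓞 L) L u ≠ 0 := by simpa using hinj.ne hu0'
  have hv0 : algebraMap (𝓞 L) L v ≠ 0 := by simpa using hinj.ne hv0'
  have hℓ0 : (ℓ : L) ≠ 0 := Nat.cast_ne_zero.mpr hℓ.ne_zero
  have hℓ0' : (ℓ : 𝓞 L) ≠ 0 := Nat.cast_ne_zero.mpr hℓ.ne_zero
  have ho_u : ordAt lam (algebraMap (𝓞 L) L u) = 0 := by
    have h2 : ¬ ((1 : ℤ) ≤ ordAt lam (algebraMap (𝓞 L) L u)) := fun h => hu' (by
      have := (natCast_le_ordAt_algebraMap_iff (F := L) lam hu0' 1).mp (by exact_mod_cast h)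
      rwa [pow_one] at this)
    have h3 := ordAt_algebraMap_nonneg (F := L) lam u
    omega
  have ho_v : ordAt lam (algebraMap (𝓞 L) L v) = 0 := by
    have h2 : ¬ ((1 : ℤ) ≤ ordAt lam (algebraMap (𝓞 L) L v)) := fun h => hv' (by
      have := (natCast_le_ordAt_algebraMap_iff (F := L) lam hv0' 1).mp (by exact_mod_cast h)
      rwa [pow_one] at this)
    have h3 := ordAt_algebraMap_nonneg (F := L) lam v
    omega
  have ho_ℓ : ordAt lam (ℓ : L) = 1 := by
    have e : (ℓ : L) = algebraMap (𝓞 L) L (ℓ : 𝓞 L) := by simp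
    rw [e]
    have h2 : ¬ ((2 : ℤ) ≤ ordAt lam (algebraMap (𝓞 L) L (ℓ : 𝓞 L))) := fun h => hsq
      ((natCast_le_ordAt_algebraMap_iff (F := L) lam hℓ0' 2).mp (by exact_mod_cast h))
    have h3 : (1 : ℤ) ≤ ordAt lam (algebraMap (𝓞 L) L (ℓ : 𝓞 L)) := by
      have := (natCast_le_ordAt_algebraMap_iff (F := L) lam hℓ0' 1).mpr (by rwa [pow_one])
      exact_mod_cast this
    omega
  have hb0 : b ≠ 0 := by
    intro h
    rw [h, mul_zero] at huv'
    exact (mul_ne_zero (pow_ne_zero _ hℓ0) hu0) huv'.symm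
  have hord : ordAt lam b = (k : ℤ) - j := by
    have h2 := congrArg (ordAt lam) huv'
    rw [ordAt_mul lam (mul_ne_zero (pow_ne_zero _ hℓ0) hv0) hb0,
      ordAt_mul lam (pow_ne_zero _ hℓ0) hv0, ordAt_mul lam (pow_ne_zero _ hℓ0) hu0,
      ordAt_pow, ordAt_pow, ho_u, ho_v, ho_ℓ] at h2
    linarith
  have hquot : b / (ℓ : L) ^ (ordAt lam b) = algebraMap (𝓞 L) L u / algebraMap (𝓞 L) L v := by
    rw [hord, zpow_sub₀ hℓ0, zpow_natCast, zpow_natCast]
    field_simp
    linear_combination huv'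
  rw [hquot]
  have e : algebraMap (𝓞 L) L u / algebraMap (𝓞 L) L v - 1
      = algebraMap (𝓞 L) L (u - v) / algebraMap (𝓞 L) L v := by
    rw [map_sub]
    field_simp
  rw [e, map_div₀, (lam.valuation_eq_one_iff_notMem (K := L)).mpr hv', div_one]
  refine (lam.valuation_lt_one_iff_mem _).mpr ?_
  have := lam.asIdeal.sub_mem hu hv
  simpa using this

end Fermat.Agent.CFT.Recip
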