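import Mathlib
import Fermat.Agent.CFT.Recip.Defs

/-!
# RECIP: divisors of a number field (definitions)

* `ord_one`, `ord_mul`, `ord_finite_support`: the three facts needed to define the divisor map.
* `Dv M`: finitely supported integer functions on the primes of `𝓞 M` ("divisor group").
* `dvHom M : Additive Mˣ →+ Dv M`: the divisor of a nonzero element, `P ↦ ord P x`.
* `primeSmul g P`: the prime `g • P`; `primePerm g`: the permutation of the primes induced by `g`.
* `dvAct g : Dv M →+ Dv M`: the induced action on divisors, `(dvAct g δ) (primeSmul g P) = δ P`.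
* `xAct g : Additive Mˣ →+ Additive Mˣ`: the action of `g` on `Mˣ`.
-/

set_option autoImplicit false

open NumberField IsDedekindDomain

open scoped nonZeroDivisors Pointwise

namespace Fermat.Agent.CFT.Recip

section Ord

variable {K : Type*} [Field K] [NumberField K]

theorem ord_one (v : HeightOneSpectrum (𝓞 K)) : ord v (1 : K) = 0 := by
  unfold ord
  rw [FractionalIdeal.spanSingleton_one, FractionalIdeal.count_one]

theorem ord_mul (v : HeightOneSpectrum (𝓞 K)) {x y : K} (hx : x ≠ 0) (hy : y ≠ 0) :
    ord v (x * y) = ord v x + ord v y := by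
  unfold ord
  rw [← FractionalIdeal.spanSingleton_mul_spanSingleton]
  exact FractionalIdeal.count_mul K v (FractionalIdeal.spanSingleton_ne_zero_iff.mpr hx)
    (FractionalIdeal.spanSingleton_ne_zero_iff.mpr hy)

theorem ord_finite_support (x : K) : {v : HeightOneSpectrum (𝓞 K) | ord v x ≠ 0}.Finite :=
  Filter.eventually_cofinite.mp
    (FractionalIdeal.finite_factors (FractionalIdeal.spanSingleton (𝓞 K)⁰ x))

end Ord

section Div

variable (M : Type*) [Field M] [NumberField M]

/-- The divisor group of `M`: finitely supported integer functions on the primes of `𝓞 M`. -/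
abbrev Dv : Type _ := HeightOneSpectrum (𝓞 M) →₀ ℤ

/-- The divisor of a nonzero element of `M`. -/
noncomputable def dvHom : Additive Mˣ →+ Dv M where
  toFun x := Finsupp.ofSupportFinite (fun P => ord P ((Additive.toMul x : Mˣ) : M))
    (ord_finite_support _)
  map_zero' := by
    ext P
    simp [Finsupp.ofSupportFinite_coe, ord_one]
  map_add' x y := by
    ext P
    simp only [Finsupp.ofSupportFinite_coe, Finsupp.coe_add, Pi.add_apply, toMul_add,
      Units.val_mul]
    exact ord_mul P (Units.ne_zero _) (Units.ne_zero _)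

variable {M}

@[simp] theorem dvHom_apply (x : Additive Mˣ) (P : HeightOneSpectrum (𝓞 M)) :
    dvHom M x P = ord P ((Additive.toMul x : Mˣ) : M) := rfl

variable {E : Type*} [Field E] [Algebra E M]

/-- The prime `g • P`. -/
noncomputable def primeSmul (g : M ≃ₐ[E] M) (P : HeightOneSpectrum (𝓞 M)) :
    HeightOneSpectrum (𝓞 M) where
  asIdeal := g • P.asIdeal
  isPrime := inferInstance
  ne_bot := by
    intro h
    apply P.ne_bot
    have h2 : g⁻¹ • (g • P.asIdeal) = g⁻¹ • (⊥ : Ideal (𝓞 M)) := by rw [h]
    rw [inv_smul_smul] at h2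
    rw [h2]
    exact Ideal.smul_bot _

@[simp] theorem primeSmul_asIdeal (g : M ≃ₐ[E] M) (P : HeightOneSpectrum (𝓞 M)) :
    (primeSmul g P).asIdeal = g • P.asIdeal := rfl

theorem primeSmul_one (P : HeightOneSpectrum (𝓞 M)) : primeSmul (1 : M ≃ₐ[E] M) P = P := by
  ext1
  simp

theorem primeSmul_mul (g h : M ≃ₐ[E] M) (P : HeightOneSpectrum (𝓞 M)) :
    primeSmul (g * h) P = primeSmul g (primeSmul h P) := by
  ext1
  simp [mul_smul]

/-- The permutation of the primes of `𝓞 M` induced by `g`. -/
noncomputable def primePerm (g : M ≃ₐ[E] M) : Equiv.Perm (HeightOneSpectrum (𝓞 M)) where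
  toFun := primeSmul g
  invFun := primeSmul g⁻¹
  left_inv P := by rw [← primeSmul_mul, inv_mul_cancel, primeSmul_one]
  right_inv P := by rw [← primeSmul_mul, mul_inv_cancel, primeSmul_one]

@[simp] theorem primePerm_apply (g : M ≃ₐ[E] M) (P : HeightOneSpectrum (𝓞 M)) :
    primePerm g P = primeSmul g P := rfl

/-- The action of `g` on divisors: `(dvAct g δ) (primeSmul g P) = δ P`. -/
noncomputable def dvAct (g : M ≃ₐ[E] M) : Dv M →+ Dv M :=
  (Finsupp.domCongr (primePerm g)).toAddMonoidHom

theorem dvAct_apply_primeSmul (g : M ≃ₐ[E] M) (δ : Dv M) (P : HeightOneSpectrum (𝓞 M)) :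
    dvAct g δ (primeSmul g P) = δ P := by
  change (Finsupp.domCongr (primePerm g) δ) (primePerm g P) = δ P
  rw [Finsupp.domCongr_apply, Finsupp.equivMapDomain_apply, Equiv.symm_apply_apply]

theorem dvAct_apply (g : M ≃ₐ[E] M) (δ : Dv M) (P : HeightOneSpectrum (𝓞 M)) :
    dvAct g δ P = δ (primeSmul g⁻¹ P) := rfl

/-- The action of `g` on `Mˣ`, written additively. -/
noncomputable def xAct (g : M ≃ₐ[E] M) : Additive Mˣ →+ Additive Mˣ :=
  MonoidHom.toAdditive (Units.map ((g : M →+* M) : M →* M))

@[simp] theorem xAct_apply (g : M ≃ₐ[E] M) (x : Additive Mˣ) :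
    ((Additive.toMul (xAct g x) : Mˣ) : M) = g ((Additive.toMul x : Mˣ) : M) := rfl

end Div

end Fermat.Agent.CFT.Recip
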