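import Mathlib
import Fermat.Agent.CFT.Recip.Defs
import Fermat.Agent.CFT.Recip.DivDefs
import Fermat.Agent.CFT.Recip.Transgression

/-!
# RECIP: bridge between the two encodings of the additive valuation, and (S2) in `ord`-form

* `ord_eq_ordAt`: `Recip.ord v x` (exponent of `v` in the fractional ideal `(x)`, Defs.lean)
  equals `Recip.ordAt v x` (`-log` of the `v`-adic valuation, Transgression.lean).
* `ord_smul_of_fixesPrime`: `ord P (g x) = ord P x` when `g` stabilises `P`.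
* `ramificationIdx'_eq_one_of_inertia_eq_bot`: trivial inertia group gives ramification index one.
* `ord_algebraMap_of_inertia_eq_bot`: `ord 𝔓 (algebraMap K Ω y) = ord 𝔯 y` for `𝔓` over `𝔯` with
  trivial inertia group.
* `transgression_ord`: the transgression divisibility (S2), `ord 𝔓`-form.
* `transgression_ord_base`: the same with valuations at the prime `𝔯` of `K` below `𝔓`, when the
  inertia group of `𝔓` in `Gal(Ω/K)` is trivial.
-/

set_option autoImplicit false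

open NumberField IsDedekindDomain

open scoped nonZeroDivisors Pointwise

namespace Fermat.Agent.CFT.Recip

section Bridge

variable {K : Type*} [Field K] [NumberField K]

theorem ord_algebraMap_eq_ordAt (v : HeightOneSpectrum (𝓞 K)) {r : 𝓞 K} (hr : r ≠ 0) :
    ord v (algebraMap (𝓞 K) K r) = ordAt v (algebraMap (𝓞 K) K r) := by
  classical
  have hJ : (Ideal.span {r} : Ideal (𝓞 K)) ≠ 0 := by
    rw [Ne, Ideal.zero_eq_bot, Ideal.span_singleton_eq_bot]
    exact hr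
  unfold ord ordAt
  rw [← FractionalIdeal.coeIdeal_span_singleton, FractionalIdeal.count_coe K v hJ,
    v.valuation_of_algebraMap, v.intValuation_if_neg hr, WithZero.log_exp, neg_neg]

/-- The two encodings of the additive valuation agree. -/
theorem ord_eq_ordAt (v : HeightOneSpectrum (𝓞 K)) (x : K) : ord v x = ordAt v x := by
  rcases eq_or_ne x 0 with rfl | hx
  · simp [ord, FractionalIdeal.count_zero]
  obtain ⟨r, s, hs, rfl⟩ := IsFractionRing.div_surjective (A := 𝓞 K) x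
  have hs0 : s ≠ 0 := nonZeroDivisors.ne_zero hs
  have hs' : algebraMap (𝓞 K) K s ≠ 0 := by
    simpa using (IsFractionRing.injective (𝓞 K) K).ne hs0
  have hr0 : r ≠ 0 := by
    rintro rfl
    simp at hx
  have hr' : algebraMap (𝓞 K) K r ≠ 0 := by
    simpa using (IsFractionRing.injective (𝓞 K) K).ne hr0
  have h1 : ord v (algebraMap (𝓞 K) K r / algebraMap (𝓞 K) K s) + ord v (algebraMap (𝓞 K) K s) =
      ord v (algebraMap (𝓞 K) K r) := by
    rw [← ord_mul v hx hs', div_mul_cancel₀ _ hs']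
  rw [ordAt_div v hr' hs', ← ord_algebraMap_eq_ordAt v hr0, ← ord_algebraMap_eq_ordAt v hs0]
  linarith

end Bridge

section Galois

variable {K Ω : Type*} [Field K] [Field Ω] [NumberField Ω] [Algebra K Ω]

/-- `ord P` is invariant under an automorphism stabilising `P`. -/
theorem ord_smul_of_fixesPrime (g : Ω ≃ₐ[K] Ω) (P : HeightOneSpectrum (𝓞 Ω))
    (hg : FixesPrime g P) (x : Ω) : ord P (g x) = ord P x := by
  rw [ord_eq_ordAt, ord_eq_ordAt]
  exact ordAt_smul_of_smul_eq P g hg x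

/-- **Transgression (S2), `ord`-form.** -/
theorem transgression_ord (σ τ : Ω ≃ₐ[K] Ω) (hcomm : σ * τ = τ * σ) (p n d e : ℕ)
    (𝔓 : HeightOneSpectrum (𝓞 Ω)) (hstab : FixesPrime (σ ^ d * τ ^ e) 𝔓) (z w : Ω) (hz : z ≠ 0)
    (hw : w ≠ 0) (γ a : K) (hγ : ∏ j ∈ Finset.range p, (σ ^ j) z = algebraMap K Ω γ)
    (ha : ∏ l ∈ Finset.range n, (τ ^ l) w = algebraMap K Ω a) (hzw : τ z * w = σ w * z) :
    ((p : ℤ) * n) ∣ n * d * ord 𝔓 (algebraMap K Ω γ) + p * e * ord 𝔓 (algebraMap K Ω a) := by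
  rw [ord_eq_ordAt, ord_eq_ordAt]
  exact transgression_ordAt σ τ hcomm p n d e 𝔓 hstab z w hz hw γ a hγ ha hzw

variable [NumberField K]

/-- Trivial inertia group implies ramification index one. -/
theorem ramificationIdx'_eq_one_of_inertia_eq_bot [IsGalois K Ω]
    (𝔯 : HeightOneSpectrum (𝓞 K)) (𝔓 : HeightOneSpectrum (𝓞 Ω))
    [𝔓.asIdeal.LiesOver 𝔯.asIdeal] (h : 𝔓.asIdeal.inertia (Ω ≃ₐ[K] Ω) = ⊥) :
    𝔯.asIdeal.ramificationIdx' 𝔓.asIdeal = 1 := by
  have h1 : Nat.card (𝔓.asIdeal.inertia (Ω ≃ₐ[K] Ω)) = 1 := by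
    rw [h]; exact Subgroup.card_bot
  rw [Ideal.card_inertia_eq_ramificationIdxIn 𝔯.asIdeal 𝔓.asIdeal,
    Ideal.ramificationIdxIn_eq_ramificationIdx 𝔯.asIdeal 𝔓.asIdeal (Ω ≃ₐ[K] Ω)] at h1
  rw [Ideal.ramificationIdx'_eq_ramificationIdx 𝔯.asIdeal 𝔓.asIdeal 𝔯.ne_bot]
  exact h1

/-- Base change of `ord` at an unramified prime. -/
theorem ord_algebraMap_of_inertia_eq_bot [IsGalois K Ω]
    (𝔯 : HeightOneSpectrum (𝓞 K)) (𝔓 : HeightOneSpectrum (𝓞 Ω))
    [𝔓.asIdeal.LiesOver 𝔯.asIdeal] (h : 𝔓.asIdeal.inertia (Ω ≃ₐ[K] Ω) = ⊥) (y : K) :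
    ord 𝔓 (algebraMap K Ω y) = ord 𝔯 y := by
  rw [ord_eq_ordAt, ord_eq_ordAt, ordAt_algebraMap_of_liesOver 𝔯 𝔓,
    ramificationIdx'_eq_one_of_inertia_eq_bot 𝔯 𝔓 h, Nat.cast_one, one_mul]

/-- **Transgression (S2), base form with `ord`.** -/
theorem transgression_ord_base [IsGalois K Ω] (σ τ : Ω ≃ₐ[K] Ω) (hcomm : σ * τ = τ * σ)
    (p n d e : ℕ) (𝔓 : HeightOneSpectrum (𝓞 Ω)) (𝔯 : HeightOneSpectrum (𝓞 K))
    [𝔓.asIdeal.LiesOver 𝔯.asIdeal] (hunr : 𝔓.asIdeal.inertia (Ω ≃ₐ[K] Ω) = ⊥)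
    (hstab : FixesPrime (σ ^ d * τ ^ e) 𝔓) (z w : Ω) (hz : z ≠ 0) (hw : w ≠ 0) (γ a : K)
    (hγ : ∏ j ∈ Finset.range p, (σ ^ j) z = algebraMap K Ω γ)
    (ha : ∏ l ∈ Finset.range n, (τ ^ l) w = algebraMap K Ω a) (hzw : τ z * w = σ w * z) :
    ((p : ℤ) * n) ∣ n * d * ord 𝔯 γ + p * e * ord 𝔯 a := by
  have h := transgression_ord σ τ hcomm p n d e 𝔓 hstab z w hz hw γ a hγ ha hzw
  rwa [ord_algebraMap_of_inertia_eq_bot 𝔯 𝔓 hunr, ord_algebraMap_of_inertia_eq_bot 𝔯 𝔓 hunr] at h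

end Galois

end Fermat.Agent.CFT.Recip
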