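import Mathlib
import Fermat.Agent.CFT.Recip.Defs
import Fermat.Agent.CFT.Recip.DivDefs
import Fermat.Agent.CFT.Recip.Transgression
import Fermat.Agent.CFT.Recip.OrdBridge
import Fermat.Agent.CFT.Recip.OmegaDefs
import Fermat.Agent.CFT.Recip.CycloNorm
import Fermat.Agent.CFT.Recip.CycloLocal

/-!
# The cyclotomic step, global part (RECIP-S3)

`K` a number field, Galois over `ℚ`, `ℓ` a prime, `a ∈ Kˣ` such that at every prime `v ∣ ℓ` of
`K` the element `a` is a power of `ℓ` times a `v`-adic unit congruent to `1`.  Then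
`∏_{v ∤ ℓ} N(v) ^ (2 * ord_v a) = 1` in `ZMod ℓ` (`cyclo_step_core`).
-/

set_option autoImplicit false
set_option linter.unusedSectionVars false

open NumberField IsDedekindDomain

open scoped nonZeroDivisors Pointwise

namespace Fermat.Agent.CFT.Recip

section Transport

variable {R : Type*} [CommRing R] [IsDedekindDomain R] {F : Type*} [Field F] [Algebra R F]
  [IsFractionRing R F]

/-- A ring automorphism of `R` mapping the prime `v` into `v'` does not increase valuations. -/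
theorem cs_intValuation_equiv_le (v v' : HeightOneSpectrum R) (e : R ≃+* R)
    (he : ∀ r, r ∈ v.asIdeal → e r ∈ v'.asIdeal) (r : R) :
    v'.intValuation (e r) ≤ v.intValuation r := by
  rcases eq_or_ne r 0 with rfl | hr
  · simp
  rw [v.intValuation_eq_exp_neg_multiplicity hr, v'.intValuation_le_pow_iff_mem]
  have hmem : r ∈ v.asIdeal ^ multiplicity v.asIdeal (Ideal.span {r}) := by
    rw [← v.intValuation_le_pow_iff_mem, v.intValuation_eq_exp_neg_multiplicity hr]
  have hmap : Ideal.map (e : R →+* R) v.asIdeal ≤ v'.asIdeal := by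
    rw [Ideal.map_le_iff_le_comap]
    intro x hx
    exact he x hx
  have h2 : Ideal.map (e : R →+* R) (v.asIdeal ^ multiplicity v.asIdeal (Ideal.span {r})) ≤
      v'.asIdeal ^ multiplicity v.asIdeal (Ideal.span {r}) := by
    rw [Ideal.map_pow]
    exact Ideal.pow_right_mono hmap _
  exact h2 (Ideal.mem_map_of_mem _ hmem)

/-- A ring automorphism of `R` mapping the prime `v` onto `v'` transports valuations. -/
theorem cs_intValuation_equiv (v v' : HeightOneSpectrum R) (e : R ≃+* R)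
    (he : ∀ r, e r ∈ v'.asIdeal ↔ r ∈ v.asIdeal) (r : R) :
    v'.intValuation (e r) = v.intValuation r := by
  refine le_antisymm (cs_intValuation_equiv_le v v' e (fun x hx => (he x).mpr hx) r) ?_
  have := cs_intValuation_equiv_le v' v e.symm (fun x hx => by
    rw [← he]; simpa using hx) (e r)
  simpa using this

/-- Transport of the adic valuation along a compatible pair of automorphisms. -/
theorem cs_valuation_equiv (v v' : HeightOneSpectrum R) (e : R ≃+* R) (E : F ≃+* F)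
    (hE : ∀ r, E (algebraMap R F r) = algebraMap R F (e r))
    (he : ∀ r, e r ∈ v'.asIdeal ↔ r ∈ v.asIdeal) (x : F) :
    v'.valuation F (E x) = v.valuation F x := by
  obtain ⟨r, s, hs, rfl⟩ := IsFractionRing.div_surjective (A := R) x
  rw [map_div₀, hE, hE, map_div₀, map_div₀, v.valuation_of_algebraMap, v.valuation_of_algebraMap,
    v'.valuation_of_algebraMap, v'.valuation_of_algebraMap, cs_intValuation_equiv v v' e he,
    cs_intValuation_equiv v v' e he]

/-- `x` is a `v`-adic unit congruent to `1`. -/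
def NearOne (v : HeightOneSpectrum R) (x : F) : Prop := v.valuation F (x - 1) < 1

theorem NearOne.valuation_eq_one {v : HeightOneSpectrum R} {x : F} (h : NearOne v x) :
    v.valuation F x = 1 := by
  have h1 := Valuation.map_one_add_of_lt (v := v.valuation F) h
  rwa [add_sub_cancel] at h1

theorem nearOne_one (v : HeightOneSpectrum R) : NearOne v (1 : F) := by
  simp [NearOne]

theorem NearOne.mul {v : HeightOneSpectrum R} {x y : F} (hx : NearOne v x) (hy : NearOne v y) :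
    NearOne v (x * y) := by
  unfold NearOne at *
  have e : x * y - 1 = (x - 1) * y + (y - 1) := by ring
  rw [e]
  refine lt_of_le_of_lt (Valuation.map_add _ _ _) (max_lt ?_ hy)
  rw [map_mul, NearOne.valuation_eq_one (show NearOne v y from hy), mul_one]
  exact hx

theorem nearOne_prod {v : HeightOneSpectrum R} {ι : Type*} (s : Finset ι) (x : ι → F)
    (h : ∀ i ∈ s, NearOne v (x i)) : NearOne v (∏ i ∈ s, x i) := by
  classical
  induction s using Finset.induction_on with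
  | empty => simpa using nearOne_one v
  | insert i s hi ih =>
    rw [Finset.prod_insert hi]
    exact (h i (Finset.mem_insert_self i s)).mul (ih fun j hj => h j (Finset.mem_insert_of_mem hj))

theorem NearOne.ordAt_eq_zero {v : HeightOneSpectrum R} {x : F} (h : NearOne v x) :
    ordAt v x = 0 := by
  rw [ordAt_def, h.valuation_eq_one]
  simp

end Transport

section NumberFieldLemmas

variable {K : Type*} [Field K] [NumberField K]

/-- The absolute norm of a prime is a power of a rational prime contained in it. -/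
theorem cs_absNorm_prime_pow (v : HeightOneSpectrum (𝓞 K)) :
    ∃ q n : ℕ, q.Prime ∧ (q : 𝓞 K) ∈ v.asIdeal ∧ Ideal.absNorm v.asIdeal = q ^ n := by
  have hmax : v.asIdeal.IsMaximal := v.isMaximal
  let : Field (𝓞 K ⧸ v.asIdeal) := Ideal.Quotient.field v.asIdeal
  have hfin : Finite (𝓞 K ⧸ v.asIdeal) := Ideal.finiteQuotientOfFreeOfNeBot v.asIdeal v.ne_bot
  let : Fintype (𝓞 K ⧸ v.asIdeal) := Fintype.ofFinite _
  obtain ⟨q, hchar, n, hq, hcard⟩ := FiniteField.card' (𝓞 K ⧸ v.asIdeal)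
  refine ⟨q, n, hq, ?_, ?_⟩
  · rw [← Ideal.Quotient.eq_zero_iff_mem, map_natCast]
    exact CharP.cast_eq_zero _ q
  · rw [← hcard, ← Nat.card_eq_fintype_card]
    rfl

/-- An integer lies in a prime over `ℓ` iff it is divisible by `ℓ`. -/
theorem cs_intCast_mem_iff {ℓ : ℕ} (hℓ : ℓ.Prime) (v : HeightOneSpectrum (𝓞 K))
    (hv : (ℓ : 𝓞 K) ∈ v.asIdeal) (n : ℤ) : (n : 𝓞 K) ∈ v.asIdeal ↔ (ℓ : ℤ) ∣ n := by
  constructor
  · intro hn
    by_contra hdvd
    have hcop : IsCoprime (ℓ : ℤ) n :=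
      (Nat.prime_iff_prime_int.mp hℓ).coprime_iff_not_dvd.mpr hdvd
    obtain ⟨x, y, hxy⟩ := hcop
    have h1 : ((x * ℓ + y * n : ℤ) : 𝓞 K) ∈ v.asIdeal := by
      push_cast
      exact v.asIdeal.add_mem (Ideal.mul_mem_left _ _ hv) (Ideal.mul_mem_left _ _ hn)
    rw [hxy, Int.cast_one] at h1
    exact v.isPrime.ne_top ((Ideal.eq_top_iff_one _).mpr h1)
  · rintro ⟨c, rfl⟩
    push_cast
    exact Ideal.mul_mem_right _ _ hv

/-- Two rational primes in the same prime ideal are equal. -/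
theorem cs_prime_eq_of_mem {ℓ q : ℕ} (hℓ : ℓ.Prime) (hq : q.Prime) (v : HeightOneSpectrum (𝓞 K))
    (hv : (ℓ : 𝓞 K) ∈ v.asIdeal) (hqv : (q : 𝓞 K) ∈ v.asIdeal) : q = ℓ := by
  have h1 : ((q : ℤ) : 𝓞 K) ∈ v.asIdeal := by simpa using hqv
  have h2 := (cs_intCast_mem_iff hℓ v hv (q : ℤ)).mp h1
  have h3 : ℓ ∣ q := Int.natCast_dvd_natCast.mp h2
  exact ((Nat.prime_dvd_prime_iff_eq hℓ hq).mp h3).symm

/-- The valuation of an integer prime to `ℓ` at a prime over `ℓ` is `1`. -/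
theorem cs_valuation_intCast {ℓ : ℕ} (hℓ : ℓ.Prime) (v : HeightOneSpectrum (𝓞 K))
    (hv : (ℓ : 𝓞 K) ∈ v.asIdeal) (n : ℤ) (hn : ¬ (ℓ : ℤ) ∣ n) : v.valuation K (n : K) = 1 := by
  have h1 : (n : K) = algebraMap (𝓞 K) K (n : 𝓞 K) := by simp
  rw [h1, v.valuation_of_algebraMap, HeightOneSpectrum.intValuation_eq_one_iff]
  exact fun h => hn ((cs_intCast_mem_iff hℓ v hv n).mp h)

/-- There is a prime of `𝓞 K` over every rational prime. -/
theorem cs_exists_prime_over {ℓ : ℕ} (hℓ : ℓ.Prime) :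
    ∃ v : HeightOneSpectrum (𝓞 K), (ℓ : 𝓞 K) ∈ v.asIdeal := by
  have hne : Ideal.span {(ℓ : 𝓞 K)} ≠ ⊤ := by
    intro h
    have h1 := congrArg Ideal.absNorm h
    rw [Ideal.absNorm_top, Ideal.absNorm_span_singleton] at h1
    have h2 : Algebra.norm ℤ (ℓ : 𝓞 K) = (ℓ : ℤ) ^ Module.finrank ℤ (𝓞 K) := by
      have := Algebra.norm_algebraMap (R := ℤ) (S := 𝓞 K) (ℓ : ℤ)
      simpa using this
    rw [h2, Int.natAbs_pow, Int.natAbs_natCast] at h1
    have h3 : ℓ ∣ 1 := by
      rw [← h1]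
      exact dvd_pow_self ℓ (Module.finrank_pos (R := ℤ) (M := 𝓞 K)).ne'
    exact hℓ.one_lt.ne' (Nat.dvd_one.mp h3)
  obtain ⟨M, hM, hle⟩ := Ideal.exists_le_maximal _ hne
  have hmem : (ℓ : 𝓞 K) ∈ M := hle (Ideal.mem_span_singleton_self _)
  have hM0 : M ≠ ⊥ := by
    rintro rfl
    have : (ℓ : 𝓞 K) = 0 := by simpa using hmem
    exact hℓ.ne_zero (by exact_mod_cast this)
  exact ⟨⟨M, hM.isPrime, hM0⟩, hmem⟩

/-- Transport of valuations under the Galois action on primes. -/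
theorem cs_valuation_primeSmul {E : Type*} [Field E] [Algebra E K] (g : K ≃ₐ[E] K)
    (v : HeightOneSpectrum (𝓞 K)) (x : K) :
    (primeSmul g v).valuation K (g x) = v.valuation K x := by
  refine cs_valuation_equiv v (primeSmul g v)
    (MulSemiringAction.toRingEquiv (K ≃ₐ[E] K) (𝓞 K) g)
    (MulSemiringAction.toRingEquiv (K ≃ₐ[E] K) K g) (fun _ => rfl) (fun r => ?_) x
  rw [primeSmul_asIdeal]
  exact Ideal.smul_mem_pointwise_smul_iff

theorem cs_nearOne_primeSmul {E : Type*} [Field E] [Algebra E K] (g : K ≃ₐ[E] K)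
    (v : HeightOneSpectrum (𝓞 K)) {x : K} (h : NearOne v x) : NearOne (primeSmul g v) (g x) := by
  unfold NearOne at *
  have e : g x - 1 = g (x - 1) := by rw [map_sub, map_one]
  rw [e, cs_valuation_primeSmul]
  exact h

end NumberFieldLemmas

section Abstract

/-- A finite product of integer powers of natural numbers prime to `ℓ` is a quotient `A / B` of
natural numbers prime to `ℓ`, simultaneously in `ℚ` and in `ZMod ℓ`. -/
theorem cs_exists_nat_div (ℓ : ℕ) [Fact ℓ.Prime] {ι : Type*} (S : Finset ι) (n : ι → ℕ)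
    (e : ι → ℤ) (hn : ∀ i ∈ S, ¬ ℓ ∣ n i) :
    ∃ A B : ℕ, ¬ ℓ ∣ A ∧ ¬ ℓ ∣ B ∧ ∏ i ∈ S, ((n i : ℚ)) ^ (e i) = (A : ℚ) / B ∧
      ∏ i ∈ S, ((n i : ZMod ℓ)) ^ (e i) = (A : ZMod ℓ) / B := by
  classical
  have hℓ : ℓ.Prime := Fact.out
  induction S using Finset.induction_on with
  | empty =>
    refine ⟨1, 1, ?_, ?_, by simp, by simp⟩ <;>
    · intro h
      exact hℓ.one_lt.ne' (Nat.dvd_one.mp h)
  | insert i S hi ih =>
    obtain ⟨A, B, hA, hB, h1, h2⟩ := ih (fun j hj => hn j (Finset.mem_insert_of_mem hj))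
    have hni := hn i (Finset.mem_insert_self i S)
    have hniQ : (n i : ℚ) ≠ 0 := by
      intro h
      apply hni
      have : n i = 0 := by exact_mod_cast h
      rw [this]
      exact dvd_zero _
    have hniZ : (n i : ZMod ℓ) ≠ 0 := by
      rw [Ne, ZMod.natCast_eq_zero_iff]
      exact hni
    rw [Finset.prod_insert hi, Finset.prod_insert hi, h1, h2]
    rcases le_or_gt 0 (e i) with he | he
    · obtain ⟨m, hm⟩ := Int.eq_ofNat_of_zero_le he
      refine ⟨n i ^ m * A, B, ?_, hB, ?_, ?_⟩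
      · intro h
        rcases (Nat.Prime.dvd_mul hℓ).mp h with h' | h'
        · exact hni (hℓ.dvd_of_dvd_pow h')
        · exact hA h'
      · rw [hm, zpow_natCast]
        push_cast
        ring
      · rw [hm, zpow_natCast]
        push_cast
        ring
    · obtain ⟨m, hm⟩ : ∃ m : ℕ, e i = -(m : ℤ) := ⟨(-e i).toNat, by omega⟩
      refine ⟨A, n i ^ m * B, hA, ?_, ?_, ?_⟩
      · intro h
        rcases (Nat.Prime.dvd_mul hℓ).mp h with h' | h'
        · exact hni (hℓ.dvd_of_dvd_pow h')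
        · exact hB h'
      · rw [hm, zpow_neg, zpow_natCast]
        push_cast
        rw [div_eq_mul_inv, div_eq_mul_inv, mul_inv]
        ring
      · rw [hm, zpow_neg, zpow_natCast]
        push_cast
        rw [div_eq_mul_inv, div_eq_mul_inv, mul_inv]
        ring

end Abstract

section ProductFormula

variable {K : Type*} [Field K] [NumberField K]

/-- The product formula: `|N_{K/ℚ}(a)| = ∏_v N(v) ^ ord_v(a)`. -/
theorem cs_abs_norm_eq_finprod (a : K) (ha : a ≠ 0) :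
    |Algebra.norm ℚ a| = ∏ᶠ v : HeightOneSpectrum (𝓞 K),
      ((Ideal.absNorm v.asIdeal : ℕ) : ℚ) ^ (ordAt v a) := by
  have h0 : FractionalIdeal.spanSingleton (𝓞 K)⁰ a ≠ 0 :=
    FractionalIdeal.spanSingleton_ne_zero_iff.mpr ha
  have h1 := FractionalIdeal.finprod_heightOneSpectrum_factorization' (K := K) h0
  have h2 := congrArg FractionalIdeal.absNorm h1
  rw [FractionalIdeal.absNorm_span_singleton] at h2
  rw [← h2]
  have hfin : (Function.mulSupport fun v : HeightOneSpectrum (𝓞 K) =>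
      (v.asIdeal : FractionalIdeal (𝓞 K)⁰ K) ^
        FractionalIdeal.count K v (FractionalIdeal.spanSingleton (𝓞 K)⁰ a)).Finite := by
    refine Set.Finite.subset (ord_finite_support a) ?_
    intro v hv
    rw [Function.mem_mulSupport] at hv
    show ord v a ≠ 0
    intro h
    apply hv
    have h' : FractionalIdeal.count K v (FractionalIdeal.spanSingleton (𝓞 K)⁰ a) = 0 := h
    rw [h', zpow_zero]
  have h3 := MonoidHom.map_finprod
    (FractionalIdeal.absNorm (R := 𝓞 K) (K := K)).toMonoidHom hfin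
  refine h3.trans (finprod_congr fun v => ?_)
  show FractionalIdeal.absNorm ((v.asIdeal : FractionalIdeal (𝓞 K)⁰ K) ^
    FractionalIdeal.count K v (FractionalIdeal.spanSingleton (𝓞 K)⁰ a)) = _
  rw [map_zpow₀, FractionalIdeal.coeIdeal_absNorm, ← ord_eq_ordAt]
  rfl

end ProductFormula

section Core

variable {K : Type*} [Field K] [NumberField K]

theorem cs_ordAt_zpow (v : HeightOneSpectrum (𝓞 K)) (x : K) (m : ℤ) :
    ordAt v (x ^ m) = m * ordAt v x := by
  unfold ordAt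
  rw [map_zpow₀, WithZero.log_zpow]
  simp

/-- A product of powers of `ℓ`-powers is a power of `ℓ`. -/
theorem cs_exists_zpow (ℓ : ℕ) {ι : Type*} (T : Finset ι) (n : ι → ℕ) (e : ι → ℤ)
    (hn : ∀ i ∈ T, ∃ f : ℕ, n i = ℓ ^ f) :
    ∃ M : ℤ, ∏ i ∈ T, ((n i : ℚ)) ^ (e i) = (ℓ : ℚ) ^ M := by
  classical
  induction T using Finset.induction_on with
  | empty => exact ⟨0, by simp⟩
  | insert i T hi ih =>
    obtain ⟨M, hM⟩ := ih (fun j hj => hn j (Finset.mem_insert_of_mem hj))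
    obtain ⟨f, hf⟩ := hn i (Finset.mem_insert_self i T)
    rcases eq_or_ne ℓ 0 with rfl | hℓ0
    · rcases eq_or_ne f 0 with rfl | hf0
      · refine ⟨M, ?_⟩
        rw [Finset.prod_insert hi, hM, hf]
        simp
      · rcases eq_or_ne (e i) 0 with he | he
        · refine ⟨M, ?_⟩
          rw [Finset.prod_insert hi, hM, he]
          simp
        · refine ⟨1, ?_⟩
          rw [Finset.prod_insert hi, hf]
          simp [zero_pow hf0, zero_zpow _ he]
    · have hℓQ : (ℓ : ℚ) ≠ 0 := Nat.cast_ne_zero.mpr hℓ0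
      refine ⟨f * e i + M, ?_⟩
      rw [Finset.prod_insert hi, hM, hf, zpow_add₀ hℓQ, zpow_mul, Nat.cast_pow, zpow_natCast]

/-- A product of integer powers of `ℓ` is an integer power of `ℓ`. -/
theorem cs_prod_zpow_eq {F : Type*} [Field F] (x : F) (hx : x ≠ 0) {ι : Type*} (T : Finset ι)
    (n : ι → ℤ) : ∏ i ∈ T, x ^ n i = x ^ ∑ i ∈ T, n i := by
  classical
  induction T using Finset.induction_on with
  | empty => simp
  | insert i T hi ih => rw [Finset.prod_insert hi, Finset.sum_insert hi, ih, zpow_add₀ hx]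

open Classical in
/-- **Cyclotomic step, global core.** If `a ∈ Kˣ` is, at every prime `v ∣ ℓ` of `K`, a power of
`ℓ` times a `v`-adic unit congruent to `1`, then `∏_{v ∤ ℓ} N(v) ^ (2 ord_v a) = 1` in `ZMod ℓ`. -/
theorem cyclo_step_core (ℓ : ℕ) [Fact ℓ.Prime] [IsGalois ℚ K] (a : K) (ha : a ≠ 0)
    (hloc : ∀ v : HeightOneSpectrum (𝓞 K), (ℓ : 𝓞 K) ∈ v.asIdeal →
      ∃ n : ℤ, NearOne v (a / (ℓ : K) ^ n)) :
    ∏ᶠ v : HeightOneSpectrum (𝓞 K), (if (ℓ : 𝓞 K) ∈ v.asIdeal then (1 : ZMod ℓ)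
      else (Ideal.absNorm v.asIdeal : ZMod ℓ) ^ (2 * ordAt v a)) = 1 := by
  have hℓ : ℓ.Prime := Fact.out
  have hℓK : (ℓ : K) ≠ 0 := Nat.cast_ne_zero.mpr hℓ.ne_zero
  obtain ⟨v₀, hv₀⟩ := cs_exists_prime_over (K := K) hℓ
  -- Galois side
  choose! n hn using hloc
  have hG : ∀ g : K ≃ₐ[ℚ] K, NearOne v₀ (g a / (ℓ : K) ^ n (primeSmul g⁻¹ v₀)) := by
    intro g
    have hmem : (ℓ : 𝓞 K) ∈ (primeSmul g⁻¹ v₀).asIdeal := by
      rw [primeSmul_asIdeal]
      have h1 : (ℓ : 𝓞 K) = g⁻¹ • (ℓ : 𝓞 K) :=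
        (map_natCast (MulSemiringAction.toRingHom (K ≃ₐ[ℚ] K) (𝓞 K) g⁻¹) ℓ).symm
      rw [h1]
      exact Ideal.smul_mem_pointwise_smul _ _ _ hv₀
    have h1 := cs_nearOne_primeSmul g (primeSmul g⁻¹ v₀) (hn _ hmem)
    rw [← primeSmul_mul, mul_inv_cancel, primeSmul_one] at h1
    rwa [map_div₀, map_zpow₀, map_natCast] at h1
  have hprod := nearOne_prod Finset.univ
    (fun g : K ≃ₐ[ℚ] K => g a / (ℓ : K) ^ n (primeSmul g⁻¹ v₀)) (fun g _ => hG g)
  rw [Finset.prod_div_distrib, ← Algebra.norm_eq_prod_automorphisms, cs_prod_zpow_eq _ hℓK] at hprod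
  set N : ℤ := ∑ g : K ≃ₐ[ℚ] K, n (primeSmul g⁻¹ v₀) with hN
  set r : ℚ := Algebra.norm ℚ a with hr
  have hr0 : r ≠ 0 := Algebra.norm_ne_zero_iff.mpr ha
  -- product formula
  have hpf := cs_abs_norm_eq_finprod a ha
  set S : Finset (HeightOneSpectrum (𝓞 K)) := (ord_finite_support a).toFinset with hS
  have hSmem : ∀ v, v ∈ S ↔ ordAt v a ≠ 0 := by
    intro v
    rw [hS, Set.Finite.mem_toFinset, Set.mem_ofPred_eq, ord_eq_ordAt]
  have hpf2 : |r| = ∏ v ∈ S, ((Ideal.absNorm v.asIdeal : ℕ) : ℚ) ^ (ordAt v a) := by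
    rw [hpf]
    refine finprod_eq_prod_of_mulSupport_subset _ ?_
    intro v hv
    rw [Function.mem_mulSupport] at hv
    rw [Finset.mem_coe, hSmem]
    intro h
    apply hv
    rw [h, zpow_zero]
  rw [← Finset.prod_filter_mul_prod_filter_not S (fun v => (ℓ : 𝓞 K) ∈ v.asIdeal)] at hpf2
  -- the part over ℓ
  obtain ⟨M, hM⟩ := cs_exists_zpow ℓ (S.filter fun v => (ℓ : 𝓞 K) ∈ v.asIdeal)
    (fun v => Ideal.absNorm v.asIdeal) (fun v => ordAt v a) (by
      intro v hv
      rw [Finset.mem_filter] at hv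
      obtain ⟨q, k, hq, hqv, hqk⟩ := cs_absNorm_prime_pow v
      have := cs_prime_eq_of_mem hℓ hq v hv.2 hqv
      exact ⟨k, by rw [hqk, this]⟩)
  -- the part away from ℓ
  obtain ⟨A, B, hA, hB, hAB, hABZ⟩ := cs_exists_nat_div ℓ
    (S.filter fun v => ¬ (ℓ : 𝓞 K) ∈ v.asIdeal)
    (fun v => Ideal.absNorm v.asIdeal) (fun v => ordAt v a) (by
      intro v hv
      rw [Finset.mem_filter] at hv
      obtain ⟨q, k, hq, hqv, hqk⟩ := cs_absNorm_prime_pow v
      rw [hqk]
      intro hdvd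
      have h1 : ℓ ∣ q := hℓ.dvd_of_dvd_pow hdvd
      have h2 : ℓ = q := (Nat.prime_dvd_prime_iff_eq hℓ hq).mp h1
      exact hv.2 (by rw [h2]; exact hqv))
  rw [hM, hAB] at hpf2
  -- rewrite the target
  have htarget : ∏ᶠ v : HeightOneSpectrum (𝓞 K), (if (ℓ : 𝓞 K) ∈ v.asIdeal then (1 : ZMod ℓ)
      else (Ideal.absNorm v.asIdeal : ZMod ℓ) ^ (2 * ordAt v a)) = ((A : ZMod ℓ) / B) ^ 2 := by
    rw [finprod_eq_prod_of_mulSupport_subset (s := S)]
    · rw [← Finset.prod_filter_mul_prod_filter_not S (fun v => (ℓ : 𝓞 K) ∈ v.asIdeal)]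
      rw [Finset.prod_congr rfl (g := fun _ => (1 : ZMod ℓ)) (fun v hv => by
        rw [Finset.mem_filter] at hv
        rw [if_pos hv.2])]
      rw [Finset.prod_const_one, one_mul, ← hABZ, ← Finset.prod_pow]
      refine Finset.prod_congr rfl fun v hv => ?_
      rw [Finset.mem_filter] at hv
      rw [if_neg hv.2, mul_comm, zpow_mul]
      exact zpow_ofNat _ 2
    · intro v hv
      rw [Function.mem_mulSupport] at hv
      rw [Finset.mem_coe, hSmem]
      intro h
      apply hv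
      rw [h, mul_zero, zpow_zero]
      simp
  rw [htarget]
  -- sign
  have hAZ : (A : ZMod ℓ) ≠ 0 := by
    rw [Ne, ZMod.natCast_eq_zero_iff]
    exact hA
  have hBZ : (B : ZMod ℓ) ≠ 0 := by
    rw [Ne, ZMod.natCast_eq_zero_iff]
    exact hB
  have hAK : (A : K) ≠ 0 := by
    intro h
    apply hA
    have : A = 0 := by exact_mod_cast h
    rw [this]
    exact dvd_zero _
  have hBK : (B : K) ≠ 0 := by
    intro h
    apply hB
    have : B = 0 := by exact_mod_cast h
    rw [this]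
    exact dvd_zero _
  obtain ⟨ε, hε, hrε⟩ : ∃ ε : ℤ, (ε = 1 ∨ ε = -1) ∧ r = ε * ((ℓ : ℚ) ^ M * ((A : ℚ) / B)) := by
    rcases abs_choice r with h | h
    · exact ⟨1, Or.inl rfl, by rw [← hpf2, h]; simp⟩
    · exact ⟨-1, Or.inr rfl, by rw [← hpf2, h]; simp⟩
  have hεK : (ε : K) ≠ 0 := by
    rcases hε with rfl | rfl <;> simp
  have hεdvd : ¬ (ℓ : ℤ) ∣ ε := by
    intro h
    have h1 : (ℓ : ℤ) ∣ 1 := by
      rcases hε with rfl | rfl
      · exact h
      · simpa using h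
    have h2 : ℓ ∣ 1 := Int.natCast_dvd_natCast.mp (by simpa using h1)
    exact hℓ.one_lt.ne' (Nat.dvd_one.mp h2)
  have hrK : algebraMap ℚ K r = (ε : K) * ((ℓ : K) ^ M * ((A : K) / B)) := by
    rw [hrε]
    simp
  rw [hrK] at hprod
  -- valuations
  have hvε : v₀.valuation K (ε : K) = 1 := cs_valuation_intCast hℓ v₀ hv₀ ε hεdvd
  have hvA : v₀.valuation K (A : K) = 1 := by
    have := cs_valuation_intCast (K := K) hℓ v₀ hv₀ (A : ℤ)
      (fun h => hA (Int.natCast_dvd_natCast.mp h))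
    simpa using this
  have hvB : v₀.valuation K (B : K) = 1 := by
    have := cs_valuation_intCast (K := K) hℓ v₀ hv₀ (B : ℤ)
      (fun h => hB (Int.natCast_dvd_natCast.mp h))
    simpa using this
  have hordℓ : 1 ≤ ordAt v₀ (ℓ : K) := by
    have h1 : (ℓ : K) = algebraMap (𝓞 K) K (ℓ : 𝓞 K) := by simp
    have h2 : (ℓ : 𝓞 K) ≠ 0 := Nat.cast_ne_zero.mpr hℓ.ne_zero
    rw [h1]
    have := (natCast_le_ordAt_algebraMap_iff (F := K) v₀ h2 1).mpr (by simpa using hv₀)
    simpa using this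
  have hMN : M = N := by
    have h1 := hprod.ordAt_eq_zero
    have e1 : (ε : K) * ((ℓ : K) ^ M * ((A : K) / B)) / (ℓ : K) ^ N =
        ((ε : K) * ((A : K) / B)) * (ℓ : K) ^ (M - N) := by
      rw [zpow_sub₀ hℓK]
      field_simp
    rw [e1, ordAt_mul v₀ (mul_ne_zero hεK (div_ne_zero hAK hBK)) (zpow_ne_zero _ hℓK),
      cs_ordAt_zpow] at h1
    have h2 : ordAt v₀ ((ε : K) * ((A : K) / B)) = 0 := by
      rw [ordAt_def, map_mul, map_div₀, hvε, hvA, hvB]
      simp
    rw [h2, zero_add] at h1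
    rcases mul_eq_zero.mp h1 with h | h
    · omega
    · omega
  rw [hMN] at hprod
  have e2 : (ε : K) * ((ℓ : K) ^ N * ((A : K) / B)) / (ℓ : K) ^ N = (ε : K) * (A : K) / B := by
    field_simp
  rw [e2] at hprod
  -- the congruence
  have hz : v₀.valuation K (((ε * A - B : ℤ) : K)) < 1 := by
    have e3 : (((ε * A - B : ℤ) : K)) = ((ε : K) * (A : K) / B - 1) * B := by
      push_cast
      field_simp
    rw [e3, map_mul, hvB, mul_one]
    exact hprod
  have hzmem : ((ε * A - B : ℤ) : 𝓞 K) ∈ v₀.asIdeal := by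
    rw [← v₀.valuation_lt_one_iff_mem (K := K)]
    simpa using hz
  have hzdvd : (ℓ : ℤ) ∣ ε * A - B := (cs_intCast_mem_iff hℓ v₀ hv₀ _).mp hzmem
  have hzZ : ((ε * A - B : ℤ) : ZMod ℓ) = 0 := (ZMod.intCast_zmod_eq_zero_iff_dvd _ ℓ).mpr hzdvd
  have hBA : (B : ZMod ℓ) = (ε : ZMod ℓ) * A := by
    push_cast at hzZ
    exact (sub_eq_zero.mp hzZ).symm
  have hε2 : (ε : ZMod ℓ) ^ 2 = 1 := by
    rcases hε with rfl | rfl <;> simp
  rw [div_pow, hBA, mul_pow, hε2, one_mul, div_self (pow_ne_zero 2 hAZ)]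

end Core

section Final

variable {K L Ω : Type*} [Field K] [NumberField K] [Field L] [NumberField L] [Algebra K L]
  [IsGalois K L] [Field Ω] [NumberField Ω] [Algebra L Ω] [Algebra K Ω] [IsScalarTower K L Ω]

/-- A prime of `L` above a given prime of `K`. -/
theorem cs_exists_liesOver (v : HeightOneSpectrum (𝓞 K)) :
    ∃ lam : HeightOneSpectrum (𝓞 L), lam.asIdeal.LiesOver v.asIdeal := by
  have hker : RingHom.ker (algebraMap (𝓞 K) (𝓞 L)) ≤ v.asIdeal := by
    rw [(RingHom.injective_iff_ker_eq_bot _).mp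
      (FaithfulSMul.algebraMap_injective (𝓞 K) (𝓞 L))]
    exact bot_le
  obtain ⟨Q, hQmax, hQ⟩ := Ideal.exists_ideal_over_maximal_of_isIntegral (S := 𝓞 L) v.asIdeal hker
  have hQ0 : Q ≠ ⊥ := by
    rintro rfl
    apply v.ne_bot
    rw [← hQ]
    exact (RingHom.injective_iff_ker_eq_bot _).mp
      (FaithfulSMul.algebraMap_injective (𝓞 K) (𝓞 L))
  exact ⟨⟨Q, hQmax.isPrime, hQ0⟩, ⟨hQ.symm⟩⟩

/-- Being congruent to `1` descends along a prime lying over. -/
theorem cs_nearOne_of_algebraMap (v : HeightOneSpectrum (𝓞 K)) (lam : HeightOneSpectrum (𝓞 L))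
    [lam.asIdeal.LiesOver v.asIdeal] (x : K) (h : NearOne lam (algebraMap K L x)) :
    NearOne v x := by
  unfold NearOne at h ⊢
  have h1 : algebraMap K L x - 1 = algebraMap K L (x - 1) := by
    rw [map_sub, map_one]
  rw [h1, ← HeightOneSpectrum.valuation_liesOver L v lam (x - 1)] at h
  by_contra hcon
  rw [not_lt] at hcon
  exact absurd h (not_lt.mpr (one_le_pow₀ hcon))

open Classical in
/-- **Cyclotomic step (S3), global part.** `Ω = L(ζ_ℓ)`, `ℓ` splitting completely in `L`; if the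
norm `∏_{l < ℓ - 1} τ^l w` of `w ∈ Ωˣ` to `L` is an element `a` of `K`, then
`∏_{v ∤ ℓ} N(v) ^ (2 ord_v a) = 1` in `ZMod ℓ`. -/
theorem cyclo_step [IsGalois ℚ K] (p ℓ : ℕ) [Fact ℓ.Prime] (hℓ2 : ℓ ≠ 2)
    [IsCyclotomicExtension {ℓ} L Ω] (D : CrossData K L Ω p ℓ) (hsplit : SplitsCompletely ℓ L)
    (w : Ω) (hw : w ≠ 0) (a : K) (ha : a ≠ 0)
    (hNw : ∏ l ∈ Finset.range (ℓ - 1), (D.τ ^ l) w = algebraMap K Ω a) :
    ∏ᶠ v : HeightOneSpectrum (𝓞 K), (if (ℓ : 𝓞 K) ∈ v.asIdeal then (1 : ZMod ℓ)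
      else (Ideal.absNorm v.asIdeal : ZMod ℓ) ^ (2 * ordAt v a)) = 1 := by
  refine cyclo_step_core ℓ a ha ?_
  intro v hv
  obtain ⟨lam, hlam⟩ := cs_exists_liesOver (L := L) v
  have hmem : (ℓ : 𝓞 L) ∈ lam.asIdeal := by
    have h1 : (ℓ : 𝓞 K) ∈ lam.asIdeal.under (𝓞 K) := by
      rw [← hlam.over]
      exact hv
    rw [Ideal.mem_comap, map_natCast] at h1
    exact h1
  have hNw' : ∏ l ∈ Finset.range (ℓ - 1), (D.τ ^ l) w = algebraMap L Ω (algebraMap K L a) := by
    rw [hNw, IsScalarTower.algebraMap_apply K L Ω]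
  have h := cyclo_local p ℓ hℓ2 D hsplit w hw (algebraMap K L a) hNw' lam hmem
  refine ⟨ordAt lam (algebraMap K L a), cs_nearOne_of_algebraMap v lam _ ?_⟩
  unfold NearOne
  rw [map_div₀, map_zpow₀, map_natCast]
  exact h

end Final

end Fermat.Agent.CFT.Recip
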