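import Mathlib
import Fermat.Agent.CFT.Recip.Defs
import Fermat.Agent.CFT.Recip.DivDefs
import Fermat.Agent.CFT.Recip.Transgression
import Fermat.Agent.CFT.Recip.OrdBridge

/-!
# RECIP-FROB: Frobenius bookkeeping in `Ω/K ⊇ L/K` and counting with `ordAt`

* `isArithFrobAt_restrictNormal`: the restriction to `L` of an arithmetic Frobenius at `P` is an
  arithmetic Frobenius at `P ∩ 𝓞 L`.
* `frob_unique`: in an abelian extension unramified everywhere, the arithmetic Frobenius only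
  depends on the prime below.
* `frob_apply_zeta`: an arithmetic Frobenius at `P ∌ ℓ` raises `ℓ`-th roots of unity to the power
  `N(P ∩ 𝓞 K)`.
* `mem_powers_of_smul_eq`: at a prime with trivial inertia group, the decomposition group consists
  of the powers of the arithmetic Frobenius.
* `ordAt_eq_card_of_prod_eq_span`: if `∏ i, 𝔯 i = (γ)` with primes `𝔯 i`, then the valuation of
  `γ` at `v` is the number of `i` with `𝔯 i = v`.
* `ordAt_finite_support`: `ordAt · x` has finite support.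
-/

set_option autoImplicit false

open NumberField IsDedekindDomain

open scoped Pointwise nonZeroDivisors

namespace Fermat.Agent.CFT.Recip

section Frob


variable {K L Ω : Type*} [Field K] [NumberField K] [Field L] [NumberField L] [Algebra K L]
  [IsGalois K L] [Field Ω] [NumberField Ω] [Algebra L Ω] [Algebra K Ω] [IsScalarTower K L Ω]
  [IsGalois K Ω]

theorem isArithFrobAt_restrictNormal (P : Ideal (𝓞 Ω)) [P.IsPrime] (φ : Ω ≃ₐ[K] Ω)
    (hφ : IsArithFrobAt (𝓞 K) φ P) :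
    IsArithFrobAt (𝓞 K) (AlgEquiv.restrictNormal φ L) (P.under (𝓞 L)) := by
  intro x
  have h1 := hφ (algebraMap (𝓞 L) (𝓞 Ω) x)
  have hunder : (P.under (𝓞 L)).under (𝓞 K) = P.under (𝓞 K) := Ideal.under_under P
  rw [hunder]
  have h2 : algebraMap (𝓞 L) (𝓞 Ω)
      ((MulSemiringAction.toAlgHom (𝓞 K) (𝓞 L) (AlgEquiv.restrictNormal φ L)) x) =
      (MulSemiringAction.toAlgHom (𝓞 K) (𝓞 Ω) φ) (algebraMap (𝓞 L) (𝓞 Ω) x) := by
    apply RingOfIntegers.ext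
    exact AlgEquiv.restrictNormal_commutes φ L (x : L)
  rw [Ideal.under_def, Ideal.mem_comap, map_sub, map_pow, h2]
  exact h1

theorem frob_apply_zeta (ℓ : ℕ) (P : Ideal (𝓞 Ω)) [P.IsPrime] (hℓP : (ℓ : 𝓞 Ω) ∉ P)
    (φ : Ω ≃ₐ[K] Ω) (hφ : IsArithFrobAt (𝓞 K) φ P) (ζ : Ω) (hζ : ζ ^ ℓ = 1) :
    φ ζ = ζ ^ Ideal.absNorm (P.under (𝓞 K)) := by
  have hℓ0 : ℓ ≠ 0 := by
    rintro rfl
    apply hℓP
    simp
  have hζint : IsIntegral ℤ ζ := by
    refine IsIntegral.of_pow (Nat.pos_of_ne_zero hℓ0) ?_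
    rw [hζ]
    exact isIntegral_one
  set ζ' : 𝓞 Ω := ⟨ζ, hζint⟩ with hζ'def
  have hζ' : ζ' ^ ℓ = 1 := by
    apply RingOfIntegers.ext
    show ζ ^ ℓ = ((1 : 𝓞 Ω) : Ω)
    rw [hζ]
    simp
  have h1 := AlgHom.IsArithFrobAt.apply_of_pow_eq_one hφ hζ' hℓP
  have h2 : Ideal.absNorm (P.under (𝓞 K)) = Nat.card (𝓞 K ⧸ P.under (𝓞 K)) := by
    rw [Ideal.absNorm_apply, Submodule.cardQuot_apply]
  rw [h2]
  have h3 := congrArg (fun y : 𝓞 Ω => (y : Ω)) h1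
  exact h3



theorem frob_unique (hab : ∀ a b : L ≃ₐ[K] L, a * b = b * a)
    (hunr : ∀ P : Ideal (𝓞 L), P.IsPrime → P ≠ ⊥ → P.inertia (L ≃ₐ[K] L) = ⊥)
    (P Q : Ideal (𝓞 L)) [P.IsPrime] [Q.IsPrime] (hP0 : P ≠ ⊥)
    (hPQ : P.under (𝓞 K) = Q.under (𝓞 K)) (φ ψ : L ≃ₐ[K] L)
    (hφ : IsArithFrobAt (𝓞 K) φ P) (hψ : IsArithFrobAt (𝓞 K) ψ Q) : φ = ψ := by
  obtain ⟨g, hg⟩ := Algebra.IsInvariant.exists_smul_of_under_eq (𝓞 K) (𝓞 L) (L ≃ₐ[K] L) P Q hPQ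
  have h1 : IsArithFrobAt (𝓞 K) (g * φ * g⁻¹) (g • P) := hφ.conj g
  have h2 : g * φ * g⁻¹ = φ := by
    rw [hab g φ, mul_assoc, mul_inv_cancel, mul_one]
  rw [h2, ← hg] at h1
  have hQ0 : Q ≠ ⊥ := by
    rintro rfl
    apply hP0
    have h3 : P = g⁻¹ • (⊥ : Ideal (𝓞 L)) := by
      rw [hg, inv_smul_smul]
    rw [h3]
    simp
  have h4 := IsArithFrobAt.mul_inv_mem_inertia h1 hψ
  rw [hunr Q inferInstance hQ0, Subgroup.mem_bot] at h4
  exact mul_inv_eq_one.mp h4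

/-- At a prime with trivial inertia group, every element of the decomposition group is a power
of the arithmetic Frobenius. -/
theorem mem_powers_of_smul_eq (P : Ideal (𝓞 Ω)) [P.IsPrime] (hP0 : P ≠ ⊥)
    (hin : P.inertia (Ω ≃ₐ[K] Ω) = ⊥) (φ : Ω ≃ₐ[K] Ω) (hφ : IsArithFrobAt (𝓞 K) φ P)
    (g : Ω ≃ₐ[K] Ω) (hg : g • P = P) : ∃ j : ℕ, g = φ ^ j := by
  classical
  have hPmax : P.IsMaximal := Ring.DimensionLEOne.maximalOfPrime hP0 inferInstance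
  have h𝔭max : (P.under (𝓞 K)).IsMaximal := inferInstance
  let _ := Ideal.Quotient.field P
  let _ := Ideal.Quotient.field (P.under (𝓞 K))
  have hfinΩ : Finite (𝓞 Ω ⧸ P) := Ideal.finiteQuotientOfFreeOfNeBot P hP0
  have hfinK : Finite (𝓞 K ⧸ P.under (𝓞 K)) :=
    Finite.of_injective _ (algebraMap (𝓞 K ⧸ P.under (𝓞 K)) (𝓞 Ω ⧸ P)).injective
  have hfintype : Fintype (𝓞 K ⧸ P.under (𝓞 K)) := Fintype.ofFinite _
  -- the residue automorphism of `g`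
  have hgmem : g ∈ MulAction.stabilizer (Ω ≃ₐ[K] Ω) P := hg
  let gbar := Ideal.Quotient.stabilizerHom P (P.under (𝓞 K)) (Ω ≃ₐ[K] Ω) ⟨g, hgmem⟩
  obtain ⟨n, hn⟩ := (FiniteField.bijective_frobeniusAlgEquivOfAlgebraic_pow
    (𝓞 K ⧸ P.under (𝓞 K)) (𝓞 Ω ⧸ P)).2 gbar
  have hcard : Nat.card (𝓞 K ⧸ P.under (𝓞 K)) = Fintype.card (𝓞 K ⧸ P.under (𝓞 K)) :=
    Nat.card_eq_fintype_card
  -- `g` acts on the residue field as the `n`-th power of the Frobenius map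
  have hA : ∀ x : 𝓞 Ω, Ideal.Quotient.mk P (g • x) =
      (Ideal.Quotient.mk P x) ^ (Nat.card (𝓞 K ⧸ P.under (𝓞 K)) ^ (n : ℕ)) := by
    intro x
    have h1 : gbar (Ideal.Quotient.mk P x) = Ideal.Quotient.mk P (g • x) := rfl
    rw [← h1, ← hn, hcard]
    show (FiniteField.frobeniusAlgEquivOfAlgebraic (𝓞 K ⧸ P.under (𝓞 K)) (𝓞 Ω ⧸ P) ^ (n : ℕ))
      (Ideal.Quotient.mk P x) = _
    rw [AlgEquiv.coe_pow, FiniteField.coe_frobeniusAlgEquivOfAlgebraic_iterate]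
  -- so does `φ ^ n`
  have hB : ∀ (m : ℕ) (x : 𝓞 Ω), Ideal.Quotient.mk P ((φ ^ m) • x) =
      (Ideal.Quotient.mk P x) ^ (Nat.card (𝓞 K ⧸ P.under (𝓞 K)) ^ m) := by
    intro m
    induction m with
    | zero => intro x; simp
    | succ m ih =>
      intro x
      rw [pow_succ', mul_smul]
      have h2 := AlgHom.IsArithFrobAt.mk_apply hφ ((φ ^ m) • x)
      have h3 : Ideal.Quotient.mk P (φ • ((φ ^ m) • x)) =
          (Ideal.Quotient.mk P ((φ ^ m) • x)) ^ Nat.card (𝓞 K ⧸ P.under (𝓞 K)) := h2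
      rw [h3, ih x, ← pow_mul, pow_succ]
  have hmem : g * (φ ^ (n : ℕ))⁻¹ ∈ P.inertia (Ω ≃ₐ[K] Ω) := by
    intro x
    rw [mul_smul]
    show g • (φ ^ (n : ℕ))⁻¹ • x - x ∈ P
    rw [← Ideal.Quotient.eq, hA]
    have h4 := hB n ((φ ^ (n : ℕ))⁻¹ • x)
    rw [smul_inv_smul] at h4
    rw [h4]
  rw [hin, Subgroup.mem_bot] at hmem
  exact ⟨n, mul_inv_eq_one.mp hmem⟩

end Frob

section Count

variable {K : Type*} [Field K] [NumberField K]

open Classical in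
theorem ordAt_eq_card_of_prod_eq_span {ι : Type*} [Fintype ι] (𝔯 : ι → Ideal (𝓞 K))
    (h𝔯 : ∀ i, (𝔯 i).IsPrime) (h0 : ∀ i, 𝔯 i ≠ ⊥) (γ : 𝓞 K)
    (hγ : ∏ i, 𝔯 i = Ideal.span {γ}) (v : HeightOneSpectrum (𝓞 K)) :
    ordAt v (algebraMap (𝓞 K) K γ) =
      ((Finset.univ.filter (fun i => 𝔯 i = v.asIdeal)).card : ℤ) := by
  have hprod0 : (∏ i, 𝔯 i) ≠ ⊥ := by
    rw [← Ideal.zero_eq_bot, Finset.prod_ne_zero_iff]
    intro i _
    exact h0 i
  have hγ0 : γ ≠ 0 := by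
    rintro rfl
    apply hprod0
    rw [hγ]
    simp
  rw [← ord_algebraMap_eq_ordAt v hγ0]
  unfold ord
  have hcoe : ((∏ i, 𝔯 i : Ideal (𝓞 K)) : FractionalIdeal (𝓞 K)⁰ K) =
      ∏ i, ((𝔯 i : Ideal (𝓞 K)) : FractionalIdeal (𝓞 K)⁰ K) :=
    map_prod (FractionalIdeal.coeIdealHom (𝓞 K)⁰ K) _ _
  rw [← FractionalIdeal.coeIdeal_span_singleton, ← hγ, hcoe, FractionalIdeal.count_prod]
  · rw [Finset.card_filter, Nat.cast_sum]
    refine Finset.sum_congr rfl fun i _ => ?_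
    let w : HeightOneSpectrum (𝓞 K) := ⟨𝔯 i, h𝔯 i, h0 i⟩
    have h1 := FractionalIdeal.count_maximal K v w
    have hw : (w.asIdeal : FractionalIdeal (𝓞 K)⁰ K) = ((𝔯 i : Ideal (𝓞 K)) : FractionalIdeal (𝓞 K)⁰ K) := rfl
    rw [hw] at h1
    rw [h1]
    have hiff : w = v ↔ 𝔯 i = v.asIdeal := by
      constructor
      · intro h; rw [← h]
      · intro h; exact HeightOneSpectrum.ext h
    by_cases h : 𝔯 i = v.asIdeal
    · rw [if_pos (hiff.mpr h), if_pos h]; simp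
    · rw [if_neg (fun h' => h (hiff.mp h')), if_neg h]; simp
  · intro i _
    rw [Ne, FractionalIdeal.coeIdeal_eq_zero]
    exact h0 i

theorem ordAt_finite_support (x : K) : {v : HeightOneSpectrum (𝓞 K) | ordAt v x ≠ 0}.Finite := by
  have h := ord_finite_support x
  convert h using 3 with v
  rw [ord_eq_ordAt]

end Count

end Fermat.Agent.CFT.Recip
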