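import Mathlib
import Fermat.Agent.CFT.Recip.OmegaDefs

/-!
# RECIP: existence of the crossing data for `Ω = L(ζ_ℓ)`

`K ⊆ L ⊆ Ω` fields, `L/K` finite Galois of prime degree `p`, `Ω` a cyclotomic extension of `L`
for `{ℓ}` (`ℓ` prime) such that the `ℓ`-th cyclotomic polynomial is irreducible over `L`.

* `isGalois_of_isCyclotomicExtension`: `Ω/K` is Galois.
* `omx_ext`: a `K`-automorphism of `Ω` is determined by its restriction to `L` and its value at
  a primitive `ℓ`-th root of unity.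
* `nonempty_crossData`: the structure `CrossData K L Ω p ℓ` of `OmegaDefs.lean` is inhabited.
* `exists_crossData_restrict`: the same, with the lift `σ` restricting to a prescribed generator
  of `Gal(L/K)`.
-/

set_option autoImplicit false
set_option linter.unusedSectionVars false
set_option linter.style.haveILetI false

open Polynomial

namespace Fermat.Agent.CFT.Recip

section Omega

variable {K L Ω : Type*} [Field K] [Field L] [Field Ω] [Algebra K L] [Algebra L Ω] [Algebra K Ω]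
  [IsScalarTower K L Ω]

/-- `Ω = L(ζ_ℓ)` is Galois over `K` if `L/K` is finite Galois. -/
theorem isGalois_of_isCyclotomicExtension (ℓ : ℕ) [NeZero ℓ] [FiniteDimensional K L] [IsGalois K L]
    [IsCyclotomicExtension {ℓ} L Ω] : IsGalois K Ω := by
  haveI : IsGalois L Ω := IsCyclotomicExtension.isGalois {ℓ} L Ω
  haveI : Algebra.IsSeparable K Ω := Algebra.IsSeparable.trans K L Ω
  obtain ⟨f, hfsep, hfsplit⟩ := IsGalois.is_separable_splitting_field K L
  haveI := hfsplit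
  haveI : IsSplittingField L Ω ((cyclotomic ℓ K).map (algebraMap K L)) := by
    rw [map_cyclotomic]
    exact IsCyclotomicExtension.splitting_field_cyclotomic ℓ L Ω
  haveI : IsSplittingField K Ω (f * cyclotomic ℓ K) :=
    IsSplittingField.mul (F := K) (K := L) Ω f (cyclotomic ℓ K) hfsep.ne_zero
      (cyclotomic_ne_zero ℓ K)
  haveI : Normal K Ω := Normal.of_isSplittingField (f * cyclotomic ℓ K)
  exact ⟨⟩

/-- A `K`-automorphism of `Ω = L(ζ)` is determined by its restriction to `L` and its value at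
`ζ`. -/
theorem omx_ext {ℓ : ℕ} [NeZero ℓ] [IsCyclotomicExtension {ℓ} L Ω] {ζ : Ω}
    (hζ : IsPrimitiveRoot ζ ℓ) (h₁ h₂ : Ω ≃ₐ[K] Ω)
    (hL : ∀ x : L, h₁ (algebraMap L Ω x) = h₂ (algebraMap L Ω x)) (hz : h₁ ζ = h₂ ζ) :
    h₁ = h₂ := by
  ext x
  have hx : x ∈ Algebra.adjoin L {ζ} := by
    rw [IsCyclotomicExtension.adjoin_primitive_root_eq_top hζ]
    trivial
  induction hx using Algebra.adjoin_induction with
  | mem y hy =>
    rw [Set.mem_singleton_iff.mp hy]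
    exact hz
  | algebraMap r => exact hL r
  | add x y _ _ hx hy => rw [map_add, map_add, hx, hy]
  | mul x y _ _ hx hy => rw [map_mul, map_mul, hx, hy]

omit [Algebra L Ω] in
theorem omx_pow_eq_pow_iff {ℓ : ℕ} [NeZero ℓ] {ζ : Ω} (hζ : IsPrimitiveRoot ζ ℓ) (a b : ℕ) :
    ζ ^ a = ζ ^ b ↔ (a : ZMod ℓ) = (b : ZMod ℓ) := by
  obtain ⟨u, rfl⟩ := hζ.isUnit (NeZero.ne ℓ)
  have hu : IsPrimitiveRoot u ℓ := IsPrimitiveRoot.coe_units_iff.mp hζ
  rw [← Units.val_pow_eq_pow_val, ← Units.val_pow_eq_pow_val, Units.val_inj, pow_eq_pow_iff_modEq,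
    ← hu.eq_orderOf, ZMod.natCast_eq_natCast_iff]

/-- **Existence of the crossing data**, with prescribed restriction of `σ` to `L`. -/
theorem exists_crossData_restrict [FiniteDimensional K L] [IsGalois K L] {p ℓ : ℕ} (hp : p.Prime)
    (hℓ : ℓ.Prime) [IsCyclotomicExtension {ℓ} L Ω] (hdeg : Module.finrank K L = p)
    (hirr : Irreducible (cyclotomic ℓ L)) (σ₀ : L ≃ₐ[K] L) (hσ₀1 : σ₀ ≠ 1) :
    ∃ c : CrossData K L Ω p ℓ, ∀ x : L, c.σ (algebraMap L Ω x) = algebraMap L Ω (σ₀ x) := by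
  haveI : NeZero ℓ := ⟨hℓ.ne_zero⟩
  haveI : Fact p.Prime := ⟨hp⟩
  haveI : Fact ℓ.Prime := ⟨hℓ⟩
  haveI hG : IsGalois K Ω := isGalois_of_isCyclotomicExtension (K := K) (L := L) ℓ
  have hinj : Function.Injective (algebraMap L Ω) := (algebraMap L Ω).injective
  set ζ : Ω := IsCyclotomicExtension.zeta ℓ L Ω with hζdef
  have hζ : IsPrimitiveRoot ζ ℓ := IsCyclotomicExtension.zeta_spec ℓ L Ω
  -- automorphisms over `L` with prescribed exponent
  have hexp : ∀ m : ℕ, m.Coprime ℓ → ∃ c : Ω ≃ₐ[K] Ω,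
      (∀ x : L, c (algebraMap L Ω x) = algebraMap L Ω x) ∧ c ζ = ζ ^ m := by
    intro m hm
    refine ⟨(IsCyclotomicExtension.fromZetaAut (hζ.pow_of_coprime m hm) hirr).restrictScalars K,
      fun x => ?_, ?_⟩
    · exact AlgEquiv.commutes _ x
    · exact IsCyclotomicExtension.fromZetaAut_spec (hζ.pow_of_coprime m hm) hirr
  -- the exponent of an automorphism
  have hexp' : ∀ h : Ω ≃ₐ[K] Ω, ∃ m : ℕ, m.Coprime ℓ ∧ h ζ = ζ ^ m := by
    intro h
    have hprim : IsPrimitiveRoot (h ζ) ℓ := hζ.map_of_injective h.injective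
    obtain ⟨m, -, hm⟩ := hζ.eq_pow_of_pow_eq_one hprim.pow_eq_one
    refine ⟨m, ?_, hm.symm⟩
    rw [← hm] at hprim
    exact (hζ.pow_iff_coprime hℓ.pos m).mp hprim
  -- `σ₀` generates `Gal(L/K)`
  have hcard : Nat.card (L ≃ₐ[K] L) = p := by rw [IsGalois.card_aut_eq_finrank, hdeg]
  have hσ₀ord : orderOf σ₀ = p := by
    have hdvd : orderOf σ₀ ∣ p := hcard ▸ orderOf_dvd_natCard σ₀
    rcases (Nat.dvd_prime hp).mp hdvd with h | h
    · exact absurd (orderOf_eq_one_iff.mp h) hσ₀1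
    · exact h
  have hσ₀ : ∀ x : L ≃ₐ[K] L, x ∈ Subgroup.zpowers σ₀ := by
    intro x
    have htop : Subgroup.zpowers σ₀ = ⊤ := by
      apply Subgroup.eq_top_of_card_eq
      rw [Nat.card_zpowers, hσ₀ord, hcard]
    rw [htop]
    trivial
  -- a primitive root modulo `ℓ`
  obtain ⟨t, ht⟩ := IsCyclic.exists_generator (α := (ZMod ℓ)ˣ)
  have htord : orderOf t = ℓ - 1 := by
    rw [orderOf_eq_card_of_forall_mem_zpowers ht, Nat.card_eq_fintype_card,
      ZMod.card_units_eq_totient, Nat.totient_prime hℓ]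
  set g : ℕ := (t : ZMod ℓ).val with hg
  have hgcop : g.Coprime ℓ := ZMod.val_coe_unit_coprime t
  have hgk : ∀ k : ℕ, ((g ^ k : ℕ) : ZMod ℓ) = ((t ^ k : (ZMod ℓ)ˣ) : ZMod ℓ) := by
    intro k
    rw [Nat.cast_pow, hg, ZMod.natCast_zmod_val, Units.val_pow_eq_pow_val]
  have hpr : ∀ m : ℕ, m.Coprime ℓ → ∃ k : ℕ, ζ ^ m = ζ ^ (g ^ k) := by
    intro m hm
    have hmem := ht (ZMod.unitOfCoprime m hm)
    obtain ⟨k, hk⟩ := (Submonoid.mem_powers_iff _ _).mp
      ((isOfFinOrder_of_finite t).mem_powers_iff_mem_zpowers.mpr hmem)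
    refine ⟨k, ?_⟩
    rw [omx_pow_eq_pow_iff hζ, hgk, hk, ZMod.coe_unitOfCoprime]
  -- `τ`
  obtain ⟨τ, hτL, hτζ⟩ := hexp g hgcop
  -- `σ`
  obtain ⟨s, hs⟩ := AlgEquiv.restrictNormalHom_surjective (F := K) (K₁ := L) Ω σ₀
  have hsL : ∀ x : L, s (algebraMap L Ω x) = algebraMap L Ω (σ₀ x) := by
    intro x
    rw [← hs]
    exact (AlgEquiv.restrictNormal_commutes s L x).symm
  obtain ⟨m, hm, hsm⟩ := hexp' s
  set m' : ℕ := (((ZMod.unitOfCoprime m hm)⁻¹ : (ZMod ℓ)ˣ) : ZMod ℓ).val with hm'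
  have hm'cop : m'.Coprime ℓ := ZMod.val_coe_unit_coprime _
  obtain ⟨c, hcL, hcζ⟩ := hexp m' hm'cop
  set σ : Ω ≃ₐ[K] Ω := s * c with hσ
  have hσL : ∀ x : L, σ (algebraMap L Ω x) = algebraMap L Ω (σ₀ x) := by
    intro x
    rw [hσ, AlgEquiv.mul_apply, hcL, hsL]
  have hσζ : σ ζ = ζ := by
    rw [hσ, AlgEquiv.mul_apply, hcζ, map_pow, hsm, ← pow_mul]
    have h1 : ζ ^ (m * m') = ζ ^ 1 := by
      rw [omx_pow_eq_pow_iff hζ, Nat.cast_mul, hm', ZMod.natCast_zmod_val, Nat.cast_one]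
      have h2 := (ZMod.unitOfCoprime m hm).mul_inv
      rw [ZMod.coe_unitOfCoprime] at h2
      exact h2
    rw [h1, pow_one]
  clear_value σ
  -- powers
  have hσpowL : ∀ (i : ℕ) (x : L), (σ ^ i) (algebraMap L Ω x) = algebraMap L Ω ((σ₀ ^ i) x) := by
    intro i
    induction i with
    | zero => intro x; simp
    | succ i ih =>
      intro x
      rw [pow_succ σ i, AlgEquiv.mul_apply, hσL, ih, pow_succ σ₀ i, AlgEquiv.mul_apply]
  have hσpowζ : ∀ i : ℕ, (σ ^ i) ζ = ζ := by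
    intro i
    induction i with
    | zero => simp
    | succ i ih => rw [pow_succ σ i, AlgEquiv.mul_apply, hσζ, ih]
  have hτpowL : ∀ (k : ℕ) (x : L), (τ ^ k) (algebraMap L Ω x) = algebraMap L Ω x := by
    intro k
    induction k with
    | zero => intro x; simp
    | succ k ih =>
      intro x
      rw [pow_succ τ k, AlgEquiv.mul_apply, hτL, ih]
  have hτpowζ : ∀ k : ℕ, (τ ^ k) ζ = ζ ^ (g ^ k) := by
    intro k
    induction k with
    | zero => simp
    | succ k ih =>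
      rw [pow_succ τ k, AlgEquiv.mul_apply, hτζ, map_pow, ih, ← pow_mul, pow_succ g k]
  have hT : ∀ k : ℕ, τ ^ k = 1 ↔ (ℓ - 1) ∣ k := by
    intro k
    rw [← htord, orderOf_dvd_iff_pow_eq_one]
    constructor
    · intro h
      have h1 : ζ ^ (g ^ k) = ζ ^ 1 := by
        rw [← hτpowζ, h, pow_one]
        rfl
      rw [omx_pow_eq_pow_iff hζ, hgk, Nat.cast_one] at h1
      exact Units.ext h1
    · intro h
      refine omx_ext (L := L) hζ _ _ (fun x => by rw [hτpowL]; rfl) ?_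
      rw [hτpowζ]
      have h1 : ζ ^ (g ^ k) = ζ ^ 1 := by
        rw [omx_pow_eq_pow_iff hζ, hgk, h, Units.val_one, Nat.cast_one]
      rw [h1, pow_one]
      rfl
  have hσp : σ ^ p = 1 := by
    refine omx_ext (L := L) hζ _ _ (fun x => ?_) ?_
    · rw [hσpowL, ← hσ₀ord, pow_orderOf_eq_one]
      rfl
    · rw [hσpowζ]
      rfl
  have hσ1 : σ ≠ 1 := by
    intro h
    apply hσ₀1
    ext x
    apply hinj
    rw [← hσL, h]
    rfl
  refine ⟨{ ζ := ζ, hζ := hζ, σ := σ, τ := τ, g := g, comm := ?_, σ_ζ := hσζ, τ_L := hτL,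
            τ_ζ := hτζ, σ_order := orderOf_eq_prime hσp hσ1, τ_order := ?_, g_order := ?_, gen := ?_,
            σ_L := ?_, fix_L := ?_ }, hσL⟩
  · refine omx_ext (L := L) hζ _ _ (fun x => ?_) ?_
    · rw [AlgEquiv.mul_apply, AlgEquiv.mul_apply, hτL, hσL, hτL]
    · rw [AlgEquiv.mul_apply, AlgEquiv.mul_apply, hτζ, map_pow, hσζ, hτζ]
  · exact Nat.dvd_antisymm (orderOf_dvd_of_pow_eq_one ((hT _).mpr dvd_rfl))
      ((hT _).mp (pow_orderOf_eq_one τ))
  · rw [hg, ZMod.natCast_zmod_val, orderOf_units, htord]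
  · intro h
    obtain ⟨i, hi⟩ : ∃ i : ℕ, σ₀ ^ i = AlgEquiv.restrictNormalHom L h :=
      (Submonoid.mem_powers_iff _ _).mp
        ((isOfFinOrder_of_finite σ₀).mem_powers_iff_mem_zpowers.mpr (hσ₀ _))
    obtain ⟨m, hm, hhm⟩ := hexp' h
    obtain ⟨k, hk⟩ := hpr m hm
    refine ⟨i, k, omx_ext (L := L) hζ _ _ (fun x => ?_) ?_⟩
    · rw [AlgEquiv.mul_apply, hτpowL, hσpowL, hi]
      exact (AlgEquiv.restrictNormal_commutes h L x).symm
    · rw [AlgEquiv.mul_apply, hτpowζ, map_pow, hσpowζ, hhm, hk]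
  · intro i hi
    rw [← hσ₀ord, orderOf_dvd_iff_pow_eq_one]
    ext x
    apply hinj
    rw [← hσpowL, hi]
    rfl
  · intro h hh
    obtain ⟨m, hm, hhm⟩ := hexp' h
    obtain ⟨k, hk⟩ := hpr m hm
    exact ⟨k, omx_ext (L := L) hζ _ _ (fun x => by rw [hh, hτpowL]) (by rw [hτpowζ, hhm, hk])⟩

/-- **Existence of the crossing data.** -/
theorem nonempty_crossData [FiniteDimensional K L] [IsGalois K L] {p ℓ : ℕ} (hp : p.Prime)
    (hℓ : ℓ.Prime) [IsCyclotomicExtension {ℓ} L Ω] (hdeg : Module.finrank K L = p)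
    (hirr : Irreducible (cyclotomic ℓ L)) : Nonempty (CrossData K L Ω p ℓ) := by
  have hcard : Nat.card (L ≃ₐ[K] L) = p := by rw [IsGalois.card_aut_eq_finrank, hdeg]
  haveI : Nontrivial (L ≃ₐ[K] L) := by
    have h1 : 1 < Nat.card (L ≃ₐ[K] L) := hcard ▸ hp.one_lt
    exact (Finite.one_lt_card_iff_nontrivial).mp h1
  obtain ⟨σ₀, hσ₀⟩ := exists_ne (1 : L ≃ₐ[K] L)
  obtain ⟨c, -⟩ := exists_crossData_restrict (Ω := Ω) hp hℓ hdeg hirr σ₀ hσ₀
  exact ⟨c⟩

end Omega

section Exists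

universe u

/-- **The crossing field exists**: for `L/K` Galois of prime degree `p` (number fields) and a prime
`ℓ` such that the `ℓ`-th cyclotomic polynomial is irreducible over `L`, there is a number field
`Ω = L(ζ_ℓ)`, Galois over `K`, carrying crossing data whose `σ` restricts to the prescribed
nontrivial element `σ₀` of `Gal(L/K)`. -/
theorem exists_omega {K L : Type u} [Field K] [NumberField K] [Field L] [NumberField L]
    [Algebra K L] [IsGalois K L] {p ℓ : ℕ} (hp : p.Prime) (hℓ : ℓ.Prime)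
    (hdeg : Module.finrank K L = p) (hirr : Irreducible (cyclotomic ℓ L)) (σ₀ : L ≃ₐ[K] L)
    (hσ₀ : σ₀ ≠ 1) :
    ∃ (Ω : Type u) (_ : Field Ω) (_ : NumberField Ω) (_ : Algebra K Ω) (_ : Algebra L Ω)
      (_ : IsScalarTower K L Ω) (_ : IsCyclotomicExtension {ℓ} L Ω) (_ : IsGalois K Ω)
      (c : CrossData K L Ω p ℓ), ∀ x : L, c.σ (algebraMap L Ω x) = algebraMap L Ω (σ₀ x) := by
  haveI : NeZero ℓ := ⟨hℓ.ne_zero⟩
  haveI : IsScalarTower K L (CyclotomicField ℓ L) := inferInstance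
  haveI : NumberField (CyclotomicField ℓ L) := IsCyclotomicExtension.numberField {ℓ} L _
  haveI : IsGalois K (CyclotomicField ℓ L) :=
    isGalois_of_isCyclotomicExtension (K := K) (L := L) ℓ
  obtain ⟨c, hc⟩ := exists_crossData_restrict (Ω := CyclotomicField ℓ L) hp hℓ hdeg hirr σ₀ hσ₀
  exact ⟨CyclotomicField ℓ L, inferInstance, inferInstance, inferInstance, inferInstance,
    inferInstance, inferInstance, inferInstance, c, hc⟩

end Exists

end Fermat.Agent.CFT.Recip
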