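import Mathlib
import Fermat.Agent.CFT.Recip.Defs
import Fermat.Agent.CFT.Recip.OmegaDefs
import Fermat.Agent.CFT.Recip.OmegaExists
import Fermat.Agent.CFT.Recip.CycloIrred

/-!
# RECIP-OMEGA-GAL: Galois structure of `Ω = L(ζ_ℓ)` over `K`

The task-212 interface on top of `OmegaExists.lean` (abstract field theory) and `CycloIrred.lean`
(irreducibility of `Φ_ℓ` over a number field in which `ℓ` is unramified at one prime).

* `isGalois_omega`: `Ω/K` is Galois.
* `irreducible_cyclotomic_of_splitsCompletely`: `Φ_ℓ` is irreducible over `L` when `ℓ` splits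
  completely in `L`.
* `exists_crossData`: `Nonempty (CrossData K L Ω p ℓ)`.
* `exists_crossData_restrict_of_splits`: the same with prescribed restriction of `σ` to `L`.
-/

set_option autoImplicit false
set_option linter.unusedSectionVars false
set_option linter.style.haveILetI false

open NumberField Polynomial

namespace Fermat.Agent.CFT.Recip

/-- There is a prime of `𝓞 L` containing the rational prime `ℓ`. -/
theorem exists_prime_natCast_mem {ℓ : ℕ} (hℓ : ℓ.Prime) (L : Type*) [Field L] [NumberField L] :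
    ∃ P : Ideal (𝓞 L), P.IsPrime ∧ (ℓ : 𝓞 L) ∈ P := by
  haveI : (Ideal.span {(ℓ : ℤ)}).IsMaximal :=
    PrincipalIdealRing.isMaximal_of_irreducible (Nat.prime_iff_prime_int.mp hℓ).irreducible
  obtain ⟨P, hPmax, hPover⟩ :=
    Ideal.exists_maximal_ideal_liesOver_of_isIntegral (S := 𝓞 L) (Ideal.span {(ℓ : ℤ)})
  refine ⟨P, hPmax.isPrime, ?_⟩
  have h1 : (ℓ : ℤ) ∈ P.under ℤ := by
    rw [← hPover.over]
    exact Ideal.subset_span rfl
  have h2 := Ideal.mem_comap.mp h1
  simpa using h2

/-- `Φ_ℓ` is irreducible over a number field in which `ℓ` splits completely. -/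
theorem irreducible_cyclotomic_of_splitsCompletely {ℓ : ℕ} (hℓ : ℓ.Prime) {L : Type*} [Field L]
    [NumberField L] (hsplit : SplitsCompletely ℓ L) : Irreducible (cyclotomic ℓ L) := by
  haveI : Fact ℓ.Prime := ⟨hℓ⟩
  obtain ⟨P, hP, hℓP⟩ := exists_prime_natCast_mem hℓ L
  haveI := hP
  exact irreducible_cyclotomic_of_splits P hℓP (hsplit P hP hℓP).2

variable (K L Ω : Type*) [Field K] [NumberField K] [Field L] [NumberField L] [Algebra K L]
  [IsGalois K L] [Field Ω] [NumberField Ω] [Algebra L Ω] [Algebra K Ω] [IsScalarTower K L Ω]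

/-- `Ω = L(ζ_ℓ)` is Galois over `K`. -/
theorem isGalois_omega (ℓ : ℕ) [NeZero ℓ] [IsCyclotomicExtension {ℓ} L Ω] : IsGalois K Ω :=
  isGalois_of_isCyclotomicExtension (K := K) (L := L) ℓ

/-- **RECIP-OMEGA-GAL**: the crossing data of `Ω = L(ζ_ℓ)` over `K` exist. -/
theorem exists_crossData (p ℓ : ℕ) [Fact p.Prime] (hℓ : ℓ.Prime) [IsCyclotomicExtension {ℓ} L Ω]
    (hdeg : Module.finrank K L = p) (hsplit : SplitsCompletely ℓ L) :
    Nonempty (CrossData K L Ω p ℓ) :=
  nonempty_crossData (Fact.out : p.Prime) hℓ hdeg (irreducible_cyclotomic_of_splitsCompletely hℓ hsplit)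

/-- The crossing data with prescribed restriction of `σ` to `L`. -/
theorem exists_crossData_restrict_of_splits (p ℓ : ℕ) [Fact p.Prime] (hℓ : ℓ.Prime)
    [IsCyclotomicExtension {ℓ} L Ω] (hdeg : Module.finrank K L = p)
    (hsplit : SplitsCompletely ℓ L) (σ₀ : L ≃ₐ[K] L) (hσ₀ : σ₀ ≠ 1) :
    ∃ c : CrossData K L Ω p ℓ, ∀ x : L, c.σ (algebraMap L Ω x) = algebraMap L Ω (σ₀ x) :=
  exists_crossData_restrict (Fact.out : p.Prime) hℓ hdeg
    (irreducible_cyclotomic_of_splitsCompletely hℓ hsplit) σ₀ hσ₀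

end Fermat.Agent.CFT.Recip
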