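import Mathlib
import Fermat.Agent.CFT.Recip.Defs
import Fermat.Agent.CFT.Recip.OmegaDefs
import Fermat.Agent.CFT.Recip.OrdBridge

/-!
# RECIP: ramification in `Ω = L(ζ_ℓ)` over `K`, and of `q ≠ p` in `L`

`K ⊆ L ⊆ Ω` number fields, `L/K` Galois and unramified at all finite primes, `D : CrossData K L Ω p ℓ`
the Galois-theoretic structure of `Ω/K`.

* `inertia_omega_eq_bot`: the inertia group in `Gal(Ω/K)` of a prime of `Ω` not containing `ℓ` is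
  trivial.
* `sigma_pow_not_mem_inertia`: a power of `σ` lying in an inertia group of `Ω/K` is trivial.
* `ramificationIdx_omega_eq_one`: ramification index one at the primes of `Ω` not containing `ℓ`.
* `natCast_not_mem_sq`: for `K = ℚ(ζ_p)`, a rational prime `q ≠ p` is unramified in `L`.
-/

set_option autoImplicit false

set_option linter.unusedSectionVars false

open NumberField IsDedekindDomain

open scoped Pointwise

namespace Fermat.Agent.CFT.Recip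

section Abstract

/-- Distinct `ℓ`-th roots of unity stay distinct modulo a prime ideal not containing `ℓ`. -/
theorem or_pow_eq_of_sub_mem {R : Type*} [CommRing R] [IsDomain R] {ℓ : ℕ} (hℓ : ℓ.Prime) {ζ : R}
    (hζ : IsPrimitiveRoot ζ ℓ) (P : Ideal R) (hP : P.IsPrime) (hℓP : (ℓ : R) ∉ P)
    (a b : ℕ) (h : ζ ^ a - ζ ^ b ∈ P) : ζ ^ a = ζ ^ b := by
  wlog hab : b ≤ a generalizing a b
  · have h' : ζ ^ b - ζ ^ a ∈ P := by
      have := P.neg_mem h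
      rwa [neg_sub] at this
    exact (this b a h' (le_of_not_ge hab)).symm
  by_contra hne
  obtain ⟨d, rfl⟩ := Nat.exists_eq_add_of_le hab
  have hd1 : ζ ^ d ≠ 1 := by
    intro h1
    apply hne
    rw [pow_add, h1, mul_one]
  have hfac : ζ ^ (b + d) - ζ ^ b = ζ ^ b * (ζ ^ d - 1) := by ring
  rw [hfac] at h
  have hunit : IsUnit (ζ ^ b) := (hζ.isUnit hℓ.ne_zero).pow b
  have hmem : ζ ^ d - 1 ∈ P := by
    rcases hP.mem_or_mem h with h1 | h1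
    · exact absurd (P.eq_top_of_isUnit_mem h1 hunit) hP.ne_top
    · exact h1
  have hnd : ¬ ℓ ∣ d := fun hdvd => hd1 ((hζ.pow_eq_one_iff_dvd d).mpr hdvd)
  have hcop : d.Coprime ℓ := ((Nat.Prime.coprime_iff_not_dvd hℓ).mpr hnd).symm
  have hη : IsPrimitiveRoot (ζ ^ d) ℓ := hζ.pow_of_coprime d hcop
  obtain ⟨n, rfl⟩ : ∃ n, ℓ = n + 1 := ⟨ℓ - 1, (Nat.sub_add_cancel hℓ.one_le).symm⟩
  have hprod := hη.prod_one_sub_pow_eq_order
  apply hℓP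
  have hn0 : 0 ∈ Finset.range n := by
    rw [Finset.mem_range]
    have := hℓ.two_le
    omega
  have hdvd : (1 - (ζ ^ d) ^ (0 + 1)) ∣ ∏ k ∈ Finset.range n, (1 - (ζ ^ d) ^ (k + 1)) :=
    Finset.dvd_prod_of_mem _ hn0
  have hmem' : (1 - (ζ ^ d) ^ (0 + 1)) ∈ P := by
    rw [zero_add, pow_one]
    have := P.neg_mem hmem
    rwa [neg_sub] at this
  have := P.mem_of_dvd hdvd hmem'
  rw [hprod] at this
  push_cast
  exact this

end Abstract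

variable {K L Ω : Type*} [Field K] [NumberField K] [Field L] [NumberField L] [Algebra K L]
  [IsGalois K L] [Field Ω] [NumberField Ω] [Algebra L Ω] [Algebra K Ω] [IsScalarTower K L Ω]
  {p ℓ : ℕ}

/-- An element of an inertia group of `Ω/K` fixes `L` pointwise, when `L/K` is unramified. -/
theorem or_fixes_of_mem_inertia
    (hunr : ∀ P : Ideal (𝓞 L), P.IsPrime → P ≠ ⊥ → P.inertia (L ≃ₐ[K] L) = ⊥)
    (P : Ideal (𝓞 Ω)) (hP : P.IsPrime) (hP0 : P ≠ ⊥) (h : Ω ≃ₐ[K] Ω)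
    (hh : h ∈ P.inertia (Ω ≃ₐ[K] Ω)) (x : L) : h (algebraMap L Ω x) = algebraMap L Ω x := by
  have hmem : h.restrictNormal L ∈ (P.under (𝓞 L)).inertia (L ≃ₐ[K] L) := by
    intro y
    change algebraMap (𝓞 L) (𝓞 Ω) ((h.restrictNormal L) • y - y) ∈ P
    have hy : algebraMap (𝓞 L) (𝓞 Ω) ((h.restrictNormal L) • y - y) =
        h • (algebraMap (𝓞 L) (𝓞 Ω) y) - algebraMap (𝓞 L) (𝓞 Ω) y := by
      apply RingOfIntegers.ext
      rw [map_sub]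
      exact congrArg (· - algebraMap L Ω (y : L)) (AlgEquiv.restrictNormal_commutes h L (y : L))
    rw [hy]
    exact hh _
  have hPL : (P.under (𝓞 L)).IsPrime := inferInstance
  have hPL0 : P.under (𝓞 L) ≠ ⊥ := Ideal.IsIntegral.comap_ne_bot (𝓞 L) hP0
  rw [hunr _ hPL hPL0, Subgroup.mem_bot] at hmem
  rw [← AlgEquiv.restrictNormal_commutes, hmem]
  rfl

theorem or_tau_pow_zeta (D : CrossData K L Ω p ℓ) (k : ℕ) :
    (D.τ ^ k) D.ζ = D.ζ ^ (D.g ^ k) := by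
  induction k with
  | zero => simp
  | succ k ih =>
    rw [pow_succ', AlgEquiv.mul_apply, ih, map_pow, D.τ_ζ, ← pow_mul, ← pow_succ']

theorem inertia_omega_eq_bot [IsGalois K Ω] (D : CrossData K L Ω p ℓ) (hℓ : ℓ.Prime)
    (hunr : ∀ P : Ideal (𝓞 L), P.IsPrime → P ≠ ⊥ → P.inertia (L ≃ₐ[K] L) = ⊥)
    (P : Ideal (𝓞 Ω)) (hP : P.IsPrime) (hP0 : P ≠ ⊥) (hℓP : (ℓ : 𝓞 Ω) ∉ P) :
    P.inertia (Ω ≃ₐ[K] Ω) = ⊥ := by
  rw [eq_bot_iff]
  intro h hh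
  rw [Subgroup.mem_bot]
  have hfix := or_fixes_of_mem_inertia hunr P hP hP0 h hh
  obtain ⟨k, rfl⟩ := D.fix_L h hfix
  have : NeZero ℓ := ⟨hℓ.ne_zero⟩
  have hζ' : IsPrimitiveRoot D.hζ.toInteger ℓ := D.hζ.toInteger_isPrimitiveRoot
  have hmem : (D.τ ^ k) • D.hζ.toInteger - D.hζ.toInteger ∈ P := hh D.hζ.toInteger
  have hact : (D.τ ^ k) • D.hζ.toInteger = D.hζ.toInteger ^ (D.g ^ k) := by
    apply RingOfIntegers.ext
    exact or_tau_pow_zeta D k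
  rw [hact] at hmem
  have heq := or_pow_eq_of_sub_mem hℓ hζ' P hP hℓP (D.g ^ k) 1 (by simpa using hmem)
  have hfin : IsOfFinOrder D.hζ.toInteger :=
    isOfFinOrder_iff_pow_eq_one.mpr ⟨ℓ, hℓ.pos, hζ'.pow_eq_one⟩
  have h1 := hfin.pow_eq_pow_iff_modEq.mp heq
  rw [← hζ'.eq_orderOf] at h1
  have hg : (D.g : ZMod ℓ) ^ k = 1 := by
    have h2 := (ZMod.natCast_eq_natCast_iff (D.g ^ k) 1 ℓ).mpr h1
    push_cast at h2
    exact h2
  have hdvd : orderOf (D.g : ZMod ℓ) ∣ k := orderOf_dvd_of_pow_eq_one hg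
  rw [D.g_order, ← D.τ_order] at hdvd
  exact orderOf_dvd_iff_pow_eq_one.mp hdvd

theorem sigma_pow_not_mem_inertia [IsGalois K Ω] (D : CrossData K L Ω p ℓ)
    (hunr : ∀ P : Ideal (𝓞 L), P.IsPrime → P ≠ ⊥ → P.inertia (L ≃ₐ[K] L) = ⊥)
    (P : Ideal (𝓞 Ω)) (hP : P.IsPrime) (hP0 : P ≠ ⊥) (j : ℕ)
    (hj : D.σ ^ j ∈ P.inertia (Ω ≃ₐ[K] Ω)) : D.σ ^ j = 1 := by
  have hfix := or_fixes_of_mem_inertia hunr P hP hP0 (D.σ ^ j) hj
  have hdvd := D.σ_L j hfix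
  rw [← D.σ_order] at hdvd
  exact orderOf_dvd_iff_pow_eq_one.mp hdvd

theorem ramificationIdx_omega_eq_one [IsGalois K Ω] (D : CrossData K L Ω p ℓ) (hℓ : ℓ.Prime)
    (hunr : ∀ P : Ideal (𝓞 L), P.IsPrime → P ≠ ⊥ → P.inertia (L ≃ₐ[K] L) = ⊥)
    (𝔓 : HeightOneSpectrum (𝓞 Ω)) (𝔯 : HeightOneSpectrum (𝓞 K))
    [𝔓.asIdeal.LiesOver 𝔯.asIdeal] (hℓP : (ℓ : 𝓞 Ω) ∉ 𝔓.asIdeal) :
    𝔯.asIdeal.ramificationIdx' 𝔓.asIdeal = 1 :=
  ramificationIdx'_eq_one_of_inertia_eq_bot 𝔯 𝔓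
    (inertia_omega_eq_bot D hℓ hunr 𝔓.asIdeal 𝔓.isPrime 𝔓.ne_bot hℓP)

theorem natCast_not_mem_sq (p : ℕ) [Fact p.Prime] [IsCyclotomicExtension {p} ℚ K]
    (hunr : ∀ P : Ideal (𝓞 L), P.IsPrime → P ≠ ⊥ → P.inertia (L ≃ₐ[K] L) = ⊥)
    (q : ℕ) (hq : q.Prime) (hqp : q ≠ p) (P : Ideal (𝓞 L)) (hP : P.IsPrime)
    (hqP : (q : 𝓞 L) ∈ P) : (q : 𝓞 L) ∉ P ^ 2 := by
  intro hsq
  have hqF : Fact q.Prime := ⟨hq⟩
  have hpN : NeZero p := ⟨(Fact.out : p.Prime).ne_zero⟩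
  have hq0L : (q : 𝓞 L) ≠ 0 := Nat.cast_ne_zero.mpr hq.ne_zero
  have hP0 : P ≠ ⊥ := by
    rintro rfl
    exact hq0L (by simpa using hqP)
  have h𝔯P : (P.under (𝓞 K)).IsPrime := inferInstance
  have h𝔯0 : P.under (𝓞 K) ≠ ⊥ := Ideal.IsIntegral.comap_ne_bot (𝓞 K) hP0
  have hPover : P.LiesOver (P.under (𝓞 K)) := ⟨rfl⟩
  have hq𝔯 : (q : 𝓞 K) ∈ P.under (𝓞 K) := by
    change algebraMap (𝓞 K) (𝓞 L) (q : 𝓞 K) ∈ P
    rw [map_natCast]
    exact hqP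
  have h𝔯over : (P.under (𝓞 K)).LiesOver (Ideal.span {(q : ℤ)}) := by
    constructor
    have hmax : (Ideal.span {(q : ℤ)}).IsMaximal := Int.ideal_span_isMaximal_of_prime q
    have hne : ((P.under (𝓞 K)).under ℤ) ≠ ⊤ := Ideal.IsPrime.ne_top inferInstance
    refine hmax.eq_of_le hne ?_
    rw [Ideal.span_le, Set.singleton_subset_iff]
    change algebraMap ℤ (𝓞 K) (q : ℤ) ∈ P.under (𝓞 K)
    simpa using hq𝔯
  have he1 : (P.under (𝓞 K)).ramificationIdx ℤ = 1 :=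
    IsCyclotomicExtension.Rat.ramificationIdx_eq_of_not_dvd q K (P.under (𝓞 K))
      (fun hdvd => hqp ((Nat.prime_dvd_prime_iff_eq hq (Fact.out : p.Prime)).mp hdvd))
  have hqne : Ideal.span {(q : ℤ)} ≠ ⊥ := by
    simp [hq.ne_zero]
  have he1' : (Ideal.span {(q : ℤ)}).ramificationIdx' (P.under (𝓞 K)) = 1 := by
    rw [Ideal.ramificationIdx'_eq_ramificationIdx _ _ hqne]
    exact he1
  have he2 : (P.under (𝓞 K)).ramificationIdx' P = 1 :=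
    ramificationIdx'_eq_one_of_inertia_eq_bot (⟨P.under (𝓞 K), h𝔯P, h𝔯0⟩ : HeightOneSpectrum (𝓞 K))
      (⟨P, hP, hP0⟩ : HeightOneSpectrum (𝓞 L)) (hunr P hP hP0)
  have htower := Ideal.ramificationIdx'_algebra_tower' (Ideal.span {(q : ℤ)}) (P.under (𝓞 K)) P
  rw [he1', he2] at htower
  have hle : Ideal.map (algebraMap ℤ (𝓞 L)) (Ideal.span {(q : ℤ)}) ≤ P ^ 2 := by
    rw [Ideal.map_span, Ideal.span_le]
    rintro _ ⟨x, hx, rfl⟩
    rw [Set.mem_singleton_iff] at hx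
    subst hx
    simpa using hsq
  unfold Ideal.ramificationIdx' at htower
  by_cases hb : BddAbove {n | Ideal.map (algebraMap ℤ (𝓞 L)) (Ideal.span {(q : ℤ)}) ≤ P ^ n}
  · have h2 := le_csSup hb (show 2 ∈ {n | Ideal.map (algebraMap ℤ (𝓞 L)) (Ideal.span {(q : ℤ)}) ≤
      P ^ n} from hle)
    omega
  · have h0 := Nat.sSup_of_not_bddAbove hb
    omega

end Fermat.Agent.CFT.Recip
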