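import Mathlib
import Fermat.Agent.CFT.Recip.Transgression
import Fermat.Agent.CFT.HNT.Main
import Fermat.Agent.CFT.Analytic.SecondIneqMain

/-!
# RECIP: the Hasse norm theorem and Hilbert 90 in `σ`-form

`Ω / K` is a Galois extension of number fields and `σ ∈ Gal(Ω/K)`.  The reciprocity argument
uses the cyclic extension `Ω / E`, `E` the fixed field of `σ`, only through statements about
`σ` itself.  This file provides

* `hilbert90_sigma`: if `∏_{j < n} σ^j y = 1` (`n` the order of `σ`), then `y = σ w / w`;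
* the dictionary between `σ` and `Gal(Ω/E)` (`sigmaField σ`, `sigmaLift σ`):
  `finrank_sigmaField`, `exists_eq_sigmaLift_pow`, `algebraMap_norm_sigmaField`,
  `inertia_sigmaField_eq_bot`, `smul_ne_of_sigma_smul_ne`;
* `hnt_sigma_of`: the Hasse norm theorem in `σ`-form, deduced from the Hasse norm theorem
  for `Ω / E` (taken as a hypothesis in exactly the shape of interface (I2));
* `hnt_sigma`: the Hasse norm theorem in `σ`-form (unconditional: `HNT.exists_norm_eq` and the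
  second inequality `classGroup_index_le_finrank_under` are plugged in).
-/

set_option autoImplicit false

namespace Fermat.Agent.CFT.Recip

open NumberField IsDedekindDomain Finset

open scoped Pointwise

/-! ### Hilbert 90 -/

section Hilbert90

variable {K Ω : Type*} [Field K] [Field Ω] [Algebra K Ω]

/-- The partial products `∏_{j < i} σ^j y`. -/
noncomputable def h90part (σ : Ω ≃ₐ[K] Ω) (y : Ω) (i : ℕ) : Ω := ∏ j ∈ range i, (σ ^ j) y

theorem h90part_zero (σ : Ω ≃ₐ[K] Ω) (y : Ω) : h90part σ y 0 = 1 := by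
  simp [h90part]

theorem h90part_succ (σ : Ω ≃ₐ[K] Ω) (y : Ω) (i : ℕ) :
    h90part σ y (i + 1) = y * σ (h90part σ y i) := by
  unfold h90part
  rw [prod_range_succ', map_prod, pow_zero, AlgEquiv.one_apply, mul_comm]
  congr 1
  refine prod_congr rfl fun j _ => ?_
  rw [pow_succ', AlgEquiv.mul_apply]

theorem h90part_ne_zero (σ : Ω ≃ₐ[K] Ω) {y : Ω} (hy : y ≠ 0) (i : ℕ) : h90part σ y i ≠ 0 := by
  unfold h90part
  exact prod_ne_zero_iff.mpr fun j _ => (map_ne_zero_iff _ (σ ^ j).injective).mpr hy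

/-- **Hilbert 90** for the cyclic group generated by `σ`, in multiplicative `σ`-form. -/
theorem hilbert90_sigma (n : ℕ) (hn : 0 < n) (σ : Ω ≃ₐ[K] Ω) (hσ : orderOf σ = n) (y : Ω)
    (hy : ∏ j ∈ Finset.range n, (σ ^ j) y = 1) : ∃ w : Ω, w ≠ 0 ∧ y * w = σ w := by
  classical
  have hy0 : y ≠ 0 := by
    rintro rfl
    rw [prod_eq_zero (mem_range.mpr hn) (by simp)] at hy
    exact zero_ne_one hy
  have han : h90part σ y n = 1 := hy
  -- the resolvent
  set w : Ω → Ω := fun θ => ∑ i ∈ range n, (h90part σ y i)⁻¹ * (σ ^ i) θ with hw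
  have hσn : σ ^ n = 1 := hσ ▸ pow_orderOf_eq_one σ
  have key : ∀ θ, σ (w θ) = y * w θ := by
    intro θ
    have h1 : σ (w θ) = y * ∑ i ∈ range n, (h90part σ y (i + 1))⁻¹ * (σ ^ (i + 1)) θ := by
      rw [hw, map_sum, mul_sum]
      refine sum_congr rfl fun i _ => ?_
      rw [map_mul, map_inv₀, h90part_succ, mul_inv, pow_succ', AlgEquiv.mul_apply]
      field_simp
    have h2 : ∑ i ∈ range n, (h90part σ y (i + 1))⁻¹ * (σ ^ (i + 1)) θ = w θ := by
      have e1 := sum_range_succ' (fun i => (h90part σ y i)⁻¹ * (σ ^ i) θ) n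
      have e2 := sum_range_succ (fun i => (h90part σ y i)⁻¹ * (σ ^ i) θ) n
      simp only [h90part_zero, han, hσn, pow_zero, inv_one, AlgEquiv.one_apply, one_mul] at e1 e2
      rw [e2] at e1
      exact (add_right_cancel e1).symm
    rw [h1, h2]
  -- some value of the resolvent is nonzero
  have hex : ∃ θ, w θ ≠ 0 := by
    by_contra hcon
    push Not at hcon
    have hli := linearIndependent_monoidHom Ω Ω
    have hinj : Function.Injective (fun i : Fin n => ((σ ^ (i : ℕ) : Ω ≃ₐ[K] Ω) : Ω →* Ω)) := by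
      intro i j hij
      have h3 : σ ^ (i : ℕ) = σ ^ (j : ℕ) := by
        ext θ
        exact DFunLike.congr_fun hij θ
      have hi : (i : ℕ) < orderOf σ := hσ ▸ i.2
      have hj : (j : ℕ) < orderOf σ := hσ ▸ j.2
      exact Fin.ext (pow_injOn_Iio_orderOf hi hj h3)
    have hli2 := hli.comp _ hinj
    rw [Fintype.linearIndependent_iff] at hli2
    have h0 := hli2 (fun i => (h90part σ y (i : ℕ))⁻¹) (by
      funext θ
      have h4 : ∑ i ∈ range n, (h90part σ y i)⁻¹ * (σ ^ i) θ = 0 := hcon θ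
      simp only [Function.comp_apply, Finset.sum_apply, Pi.smul_apply, smul_eq_mul,
        Pi.zero_apply]
      rw [← h4]
      exact Fin.sum_univ_eq_sum_range (fun i => (h90part σ y i)⁻¹ * (σ ^ i) θ) n) ⟨0, hn⟩
    simp [h90part_zero] at h0
  obtain ⟨θ, hθ⟩ := hex
  exact ⟨w θ, hθ, (key θ).symm⟩

end Hilbert90

/-! ### The fixed field of `σ` -/

section SigmaField

variable {K Ω : Type*} [Field K] [Field Ω] [Algebra K Ω]

/-- The fixed field of `σ`. -/
abbrev sigmaField (σ : Ω ≃ₐ[K] Ω) : IntermediateField K Ω :=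
  IntermediateField.fixedField (Subgroup.zpowers σ)

theorem mem_sigmaField_iff (σ : Ω ≃ₐ[K] Ω) (x : Ω) : x ∈ sigmaField σ ↔ σ x = x := by
  rw [IntermediateField.mem_fixedField_iff]
  constructor
  · intro h
    exact h σ (Subgroup.mem_zpowers σ)
  · intro h f hf
    obtain ⟨k, rfl⟩ := Subgroup.mem_zpowers_iff.mp hf
    have h1 : (Subgroup.zpowers σ) ≤ MulAction.stabilizer (Ω ≃ₐ[K] Ω) x := by
      rw [Subgroup.zpowers_le]
      exact h
    exact h1 (Subgroup.zpow_mem_zpowers σ k)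

/-- `σ` as an automorphism of `Ω` over its fixed field. -/
def sigmaLift (σ : Ω ≃ₐ[K] Ω) : Ω ≃ₐ[sigmaField σ] Ω :=
  { (σ : Ω ≃+* Ω) with
    commutes' := fun x => (mem_sigmaField_iff σ (x : Ω)).mp x.2 }

@[simp] theorem sigmaLift_apply (σ : Ω ≃ₐ[K] Ω) (x : Ω) : sigmaLift σ x = σ x := rfl

@[simp] theorem sigmaLift_pow_apply (σ : Ω ≃ₐ[K] Ω) (j : ℕ) (x : Ω) :
    (sigmaLift σ ^ j) x = (σ ^ j) x := by
  induction j generalizing x with
  | zero => simp
  | succ j ih => rw [pow_succ, pow_succ, AlgEquiv.mul_apply, AlgEquiv.mul_apply, ih,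
      sigmaLift_apply]

theorem sigmaLift_pow_eq_one_iff (σ : Ω ≃ₐ[K] Ω) (j : ℕ) : sigmaLift σ ^ j = 1 ↔ σ ^ j = 1 := by
  constructor
  · intro h
    ext x
    rw [← sigmaLift_pow_apply, h]
    rfl
  · intro h
    ext x
    rw [sigmaLift_pow_apply, h]
    rfl

theorem orderOf_sigmaLift (σ : Ω ≃ₐ[K] Ω) : orderOf (sigmaLift σ) = orderOf σ :=
  orderOf_eq_orderOf_iff.mpr fun j => sigmaLift_pow_eq_one_iff σ j

variable [FiniteDimensional K Ω]

/-- Every automorphism of `Ω` over the fixed field of `σ` is a power of `σ`. -/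
theorem exists_eq_sigmaLift_pow (σ : Ω ≃ₐ[K] Ω) (s : Ω ≃ₐ[sigmaField σ] Ω) :
    ∃ j : ℕ, j < orderOf σ ∧ s = sigmaLift σ ^ j := by
  have h1 : s.restrictScalars K ∈ (sigmaField σ).fixingSubgroup := by
    rw [IntermediateField.mem_fixingSubgroup_iff]
    intro x hx
    exact s.commutes ⟨x, hx⟩
  rw [IntermediateField.fixingSubgroup_fixedField] at h1
  have hfin : IsOfFinOrder σ := isOfFinOrder_of_finite σ
  rw [← hfin.mem_powers_iff_mem_zpowers] at h1
  obtain ⟨j, hj⟩ := h1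
  have hj' : σ ^ j = s.restrictScalars K := hj
  refine ⟨j % orderOf σ, Nat.mod_lt _ hfin.orderOf_pos, ?_⟩
  ext x
  rw [sigmaLift_pow_apply, pow_mod_orderOf, hj']
  rfl

theorem finrank_sigmaField (σ : Ω ≃ₐ[K] Ω) :
    Module.finrank (sigmaField σ) Ω = orderOf σ := by
  rw [IntermediateField.finrank_fixedField_eq_card, Nat.card_zpowers]

theorem sigmaLift_generates (σ : Ω ≃ₐ[K] Ω) (s : Ω ≃ₐ[sigmaField σ] Ω) :
    s ∈ Subgroup.zpowers (sigmaLift σ) := by
  obtain ⟨j, -, rfl⟩ := exists_eq_sigmaLift_pow σ s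
  exact Subgroup.npow_mem_zpowers _ j

/-- The norm to the fixed field of `σ` is `z ↦ ∏_{j < ord σ} σ^j z`. -/
theorem algebraMap_norm_sigmaField [IsGalois K Ω] (σ : Ω ≃ₐ[K] Ω) (z : Ω) :
    algebraMap (sigmaField σ) Ω (Algebra.norm (sigmaField σ) z) =
      ∏ j ∈ range (orderOf σ), (σ ^ j) z := by
  classical
  rw [Algebra.norm_eq_prod_automorphisms]
  symm
  refine prod_bij (fun j _ => sigmaLift σ ^ j) (fun _ _ => mem_univ _) ?_ ?_ ?_
  · intro i hi j hj hij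
    have h3 : σ ^ i = σ ^ j := by
      ext x
      have h4 := DFunLike.congr_fun hij x
      rwa [sigmaLift_pow_apply, sigmaLift_pow_apply] at h4
    exact pow_injOn_Iio_orderOf (mem_range.mp hi) (mem_range.mp hj) h3
  · intro s _
    obtain ⟨j, hj, rfl⟩ := exists_eq_sigmaLift_pow σ s
    exact ⟨j, mem_range.mpr hj, rfl⟩
  · intro j _
    rw [sigmaLift_pow_apply]

end SigmaField

/-! ### Number fields: inertia, decomposition, and the Hasse norm theorem in `σ`-form -/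

section NumberFields

variable {K Ω : Type*} [Field K] [NumberField K] [Field Ω] [NumberField Ω] [Algebra K Ω]

set_option linter.unusedSectionVars false

/-- On `𝓞 Ω`, the power `σ^j` acts in the same way as an element of `Gal(Ω/E)` and of
`Gal(Ω/K)`. -/
theorem sigmaLift_pow_smul (σ : Ω ≃ₐ[K] Ω) (j : ℕ) (x : 𝓞 Ω) :
    (sigmaLift σ ^ j) • x = (σ ^ j) • x := by
  apply RingOfIntegers.ext
  exact sigmaLift_pow_apply σ j (x : Ω)

theorem sigmaLift_pow_smul_ideal (σ : Ω ≃ₐ[K] Ω) (j : ℕ) (P : Ideal (𝓞 Ω)) :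
    (sigmaLift σ ^ j) • P = (σ ^ j) • P := by
  ext x
  rw [Ideal.mem_pointwise_smul_iff_inv_smul_mem, Ideal.mem_pointwise_smul_iff_inv_smul_mem]
  have h : (sigmaLift σ ^ j)⁻¹ • x = (σ ^ j)⁻¹ • x := by
    apply RingOfIntegers.ext
    show (sigmaLift σ ^ j).symm (x : Ω) = (σ ^ j).symm (x : Ω)
    apply (σ ^ j).injective
    rw [AlgEquiv.apply_symm_apply, ← sigmaLift_pow_apply, AlgEquiv.apply_symm_apply]
  rw [h]

/-- If no nontrivial power of `σ` lies in an inertia group of `Ω/K`, then `Ω` is unramified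
over the fixed field of `σ`. -/
theorem inertia_sigmaField_eq_bot (σ : Ω ≃ₐ[K] Ω)
    (hunr : ∀ P : Ideal (𝓞 Ω), P.IsPrime → P ≠ ⊥ →
      ∀ j : ℕ, σ ^ j ∈ P.inertia (Ω ≃ₐ[K] Ω) → σ ^ j = 1)
    (P : Ideal (𝓞 Ω)) (hP : P.IsPrime) (hP0 : P ≠ ⊥) :
    P.inertia (Ω ≃ₐ[sigmaField σ] Ω) = ⊥ := by
  rw [eq_bot_iff]
  intro s hs
  obtain ⟨j, -, rfl⟩ := exists_eq_sigmaLift_pow σ s
  rw [Subgroup.mem_bot, sigmaLift_pow_eq_one_iff]
  apply hunr P hP hP0 j
  intro x
  have h1 := hs x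
  rwa [sigmaLift_pow_smul] at h1

/-- If `σ` (of prime order) moves the ideal `P`, then so does every nontrivial automorphism
of `Ω` over the fixed field of `σ`. -/
theorem smul_ne_of_sigma_smul_ne (p : ℕ) [Fact p.Prime] (σ : Ω ≃ₐ[K] Ω) (hσ : orderOf σ = p)
    (P : Ideal (𝓞 Ω)) (hP : σ • P ≠ P) (s : Ω ≃ₐ[sigmaField σ] Ω) (hs : s ≠ 1) : s • P ≠ P := by
  obtain ⟨j, -, rfl⟩ := exists_eq_sigmaLift_pow σ s
  intro h
  rw [sigmaLift_pow_smul_ideal] at h
  apply hP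
  have hj1 : σ ^ j ≠ 1 := fun h1 => hs ((sigmaLift_pow_eq_one_iff σ j).mpr h1)
  have hp : p.Prime := Fact.out
  have hcop : Nat.Coprime j p := by
    rw [Nat.coprime_comm, Nat.Prime.coprime_iff_not_dvd hp]
    intro hd
    rw [← hσ] at hd
    exact hj1 (orderOf_dvd_iff_pow_eq_one.mp hd)
  obtain ⟨k, -, hk⟩ := Nat.exists_mul_mod_eq_one_of_coprime hcop hp.one_lt
  have hσk : (σ ^ j) ^ k = σ := by
    rw [← pow_mul, ← pow_mod_orderOf, hσ, hk, pow_one]
  have hmem : σ ^ j ∈ MulAction.stabilizer (Ω ≃ₐ[K] Ω) P := h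
  have hmem2 : (σ ^ j) ^ k ∈ MulAction.stabilizer (Ω ≃ₐ[K] Ω) P := Subgroup.pow_mem _ hmem k
  rw [hσk] at hmem2
  exact hmem2

variable [IsGalois K Ω]

/-- **Hasse norm theorem in `σ`-form**, deduced from the Hasse norm theorem for the extension
`Ω / E` (`E` the fixed field of `σ`), which is taken as the hypothesis `hHNT` in the shape of
interface (I2). -/
theorem hnt_sigma_of (p : ℕ) [Fact p.Prime] (σ : Ω ≃ₐ[K] Ω) (hσ : orderOf σ = p)
    (hunr : ∀ P : Ideal (𝓞 Ω), P.IsPrime → P ≠ ⊥ →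
      ∀ j : ℕ, σ ^ j ∈ P.inertia (Ω ≃ₐ[K] Ω) → σ ^ j = 1)
    (x : Ω) (hx : x ≠ 0) (hfix : σ x = x)
    (hsplit : ∀ 𝔓 : IsDedekindDomain.HeightOneSpectrum (𝓞 Ω), ordAt 𝔓 x ≠ 0 →
      σ • 𝔓.asIdeal ≠ 𝔓.asIdeal)
    (hHNT : Module.finrank (sigmaField σ) Ω = p →
      (∀ P : Ideal (𝓞 Ω), P.IsPrime → P ≠ ⊥ → P.inertia (Ω ≃ₐ[sigmaField σ] Ω) = ⊥) →
      ∀ x' : sigmaField σ, x' ≠ 0 →
      (∀ 𝔓 : IsDedekindDomain.HeightOneSpectrum (𝓞 Ω),
        𝔓.valuation Ω (algebraMap (sigmaField σ) Ω x') ≠ 1 →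
        ∀ s : Ω ≃ₐ[sigmaField σ] Ω, s ≠ 1 → s • 𝔓.asIdeal ≠ 𝔓.asIdeal) →
      ∃ z : Ω, Algebra.norm (sigmaField σ) z = x') :
    ∃ z : Ω, z ≠ 0 ∧ ∏ j ∈ Finset.range p, (σ ^ j) z = x := by
  set x' : sigmaField σ := ⟨x, (mem_sigmaField_iff σ x).mpr hfix⟩ with hx'def
  have hx' : x' ≠ 0 := fun h => hx (congrArg Subtype.val h)
  obtain ⟨z, hz⟩ := hHNT (by rw [finrank_sigmaField, hσ]) (inertia_sigmaField_eq_bot σ hunr)
    x' hx' (by
      intro 𝔓 hv s hs
      refine smul_ne_of_sigma_smul_ne p σ hσ _ (hsplit 𝔓 ?_) s hs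
      intro h0
      apply hv
      show 𝔓.valuation Ω x = 1
      rw [valuation_eq_exp_neg_ordAt 𝔓 hx, h0]
      simp)
  refine ⟨z, ?_, ?_⟩
  · rintro rfl
    rw [Algebra.norm_zero] at hz
    exact hx' hz.symm
  · rw [← hσ, ← algebraMap_norm_sigmaField, hz]
    rfl

end NumberFields

/-! ### The final statement -/

section Final

variable {K Ω : Type} [Field K] [NumberField K] [Field Ω] [NumberField Ω] [Algebra K Ω]
  [IsGalois K Ω]

/-- **Hasse norm theorem in `σ`-form.**  Let `σ ∈ Gal(Ω/K)` have odd prime order `p`, and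
suppose that no nontrivial power of `σ` lies in an inertia group.  If `x ≠ 0` is fixed by `σ`
and `σ` moves every prime of `Ω` at which `x` is not a unit, then `x = ∏_{j < p} σ^j z` for some
`z ≠ 0`. -/
theorem hnt_sigma (p : ℕ) [Fact p.Prime] (hp2 : p ≠ 2) (σ : Ω ≃ₐ[K] Ω) (hσ : orderOf σ = p)
    (hunr : ∀ P : Ideal (𝓞 Ω), P.IsPrime → P ≠ ⊥ →
      ∀ j : ℕ, σ ^ j ∈ P.inertia (Ω ≃ₐ[K] Ω) → σ ^ j = 1)
    (x : Ω) (hx : x ≠ 0) (hfix : σ x = x)
    (hsplit : ∀ 𝔓 : IsDedekindDomain.HeightOneSpectrum (𝓞 Ω), ordAt 𝔓 x ≠ 0 →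
      σ • 𝔓.asIdeal ≠ 𝔓.asIdeal) :
    ∃ z : Ω, z ≠ 0 ∧ ∏ j ∈ Finset.range p, (σ ^ j) z = x :=
  hnt_sigma_of p σ hσ hunr x hx hfix hsplit fun hdeg hur x' hx' hsp =>
    HNT.exists_norm_eq (E := sigmaField σ) (M := Ω) (Fact.out : p.Prime) hp2 hdeg hur
      (fun H hH => classGroup_index_le_finrank_under (sigmaField σ) Ω H
        fun w hw => hH w (w.under (𝓞 (sigmaField σ))) ⟨rfl⟩ hw)
      x' hx' hsp

end Final

end Fermat.Agent.CFT.Recip
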