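import Mathlib
import Fermat.Agent.CFT.Defs
import Fermat.Agent.CFT.Recip.Defs
import Fermat.Agent.CFT.Recip.OmegaDefs
import Fermat.Agent.CFT.Recip.Transgression
import Fermat.Agent.CFT.Recip.OrdBridge
import Fermat.Agent.CFT.Recip.OmegaGal
import Fermat.Agent.CFT.Recip.OmegaRam
import Fermat.Agent.CFT.Recip.OmegaFrob
import Fermat.Agent.CFT.Recip.SigmaForm
import Fermat.Agent.CFT.Recip.AuxPrime
import Fermat.Agent.CFT.Recip.CycloStep

/-!
# RECIP: the reciprocity statement (assembly)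

`recip : RecipStatement p` — for an everywhere unramified cyclic extension `L/K` of degree `p`
of `K = ℚ(ζ_p)` (with `L/ℚ` Galois), the product of the Frobenius elements of the prime factors
of a principal ideal `(γ)`, supported on degree one primes over one rational prime `q ≠ p`, is
killed by every character of `Gal(L/K)`.

Proof (crossing with a cyclotomic extension, Artin's lemma in transgression form): choose a prime
`ℓ` splitting completely in `L` modulo which `q` is not a `p`-th power; in `Ω = L(ζ_ℓ)` with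
`Gal(Ω/K) = ⟨σ⟩ × ⟨τ⟩` the Hasse norm theorem for `Ω/Ω^σ` gives `z` with `N_σ z = γ`,
Hilbert 90 gives `w` with `τ z / z = σ w / w`, and `a = N_τ w ∈ K`.  The transgression relation
at every prime `v ∤ ℓ` of `K` (Frobenius `σ^d τ^e`), summed over `v`, together with the
cyclotomic reciprocity step for `a` (a norm from `L(ζ_ℓ)`), gives `p ∣ ∑_v d_v ord_v γ`.
-/

set_option autoImplicit false

open NumberField IsDedekindDomain
open scoped Pointwise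

namespace Fermat.Agent.CFT.Recip

set_option linter.unusedSectionVars false
set_option linter.style.haveILetI false

/-! ### elementary lemmas -/

/-- if `q` is not a `p`-th power mod `ℓ` and `q ^ j = 1` then `p ∣ j`. -/
theorem rcp_dvd_of_pow_eq_one {p ℓ : ℕ} [Fact p.Prime] [Fact ℓ.Prime] (q : ZMod ℓ)
    (hpow : ∀ x : ZMod ℓ, x ^ p ≠ q) (j : ℕ) (hj : q ^ j = 1) : p ∣ j := by
  by_contra hpj
  have hp : p.Prime := Fact.out
  have hcop : Nat.Coprime j p := (Nat.Coprime.symm ((Nat.Prime.coprime_iff_not_dvd hp).mpr hpj))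
  obtain ⟨m, hm⟩ := Nat.exists_mul_mod_eq_one_of_coprime hcop hp.one_lt
  have h1 : j * m = p * (j * m / p) + 1 := by
    have := Nat.div_add_mod (j * m) p
    omega
  set t := j * m / p with ht
  have h2 : q ^ (p * t + 1) = 1 := by
    rw [← h1, pow_mul, hj, one_pow]
  have h3 : (q ^ t) ^ p * q = 1 := by
    rw [← pow_mul, mul_comm t p, ← pow_succ]
    exact h2
  have hqt : q ^ t ≠ 0 := by
    intro h0
    rw [h0, zero_pow hp.ne_zero, zero_mul] at h3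
    exact zero_ne_one h3
  apply hpow ((q ^ t)⁻¹)
  rw [inv_pow]
  exact inv_eq_of_mul_eq_one_right h3

theorem rcp_natCast_eq_of_pow_eq {Ω : Type*} [CommRing Ω] [IsDomain Ω] {ℓ : ℕ} {ζ : Ω}
    (hζ : IsPrimitiveRoot ζ ℓ) (hℓ : 0 < ℓ) {a b : ℕ} (h : ζ ^ a = ζ ^ b) :
    (a : ZMod ℓ) = b := by
  rw [ZMod.natCast_eq_natCast_iff]
  have hfin : IsOfFinOrder ζ := isOfFinOrder_iff_pow_eq_one.mpr ⟨ℓ, hℓ, hζ.pow_eq_one⟩
  have := hfin.pow_eq_pow_iff_modEq.mp h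
  rwa [← hζ.eq_orderOf] at this

theorem rcp_pow_apply_zeta {K Ω : Type*} [Field K] [Field Ω] [Algebra K Ω] (f : Ω ≃ₐ[K] Ω)
    (ζ : Ω) (q : ℕ) (h : f ζ = ζ ^ q) (j : ℕ) : (f ^ j) ζ = ζ ^ (q ^ j) := by
  induction j with
  | zero => simp
  | succ n ih =>
    rw [pow_succ, AlgEquiv.mul_apply, h, map_pow, ih, ← pow_mul, ← pow_succ]

theorem rcp_not_mem_of_coprime {R : Type*} [CommRing R] (I : Ideal R) (hI : I ≠ ⊤) {m n : ℕ}
    (h : Nat.Coprime m n) (hm : (m : R) ∈ I) : (n : R) ∉ I := by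
  intro hn
  apply hI
  rw [Ideal.eq_top_iff_one]
  obtain ⟨a, b, hab⟩ := Nat.isCoprime_iff_coprime.mpr h
  have : ((a * m + b * n : ℤ) : R) = 1 := by rw [hab]; simp
  rw [← this]; push_cast
  exact I.add_mem (I.mul_mem_left _ hm) (I.mul_mem_left _ hn)

theorem rcp_pow_fixed {K Ω : Type*} [Field K] [Field Ω] [Algebra K Ω] (f : Ω ≃ₐ[K] Ω)
    (x : Ω) (h : f x = x) (j : ℕ) : (f ^ j) x = x := by
  induction j with
  | zero => simp
  | succ n ih => rw [pow_succ, AlgEquiv.mul_apply, h, ih]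

theorem rcp_prod_range_div {F : Type*} [Field F] (f : ℕ → F) (hf : ∀ l, f l ≠ 0) (n : ℕ) :
    ∏ l ∈ Finset.range n, f (l + 1) / f l = f n / f 0 := by
  induction n with
  | zero => simp [div_self (hf 0)]
  | succ n ih =>
    rw [Finset.prod_range_succ, ih]
    have h1 := hf n
    have h2 := hf 0
    field_simp

section Core

variable {K L Ω : Type} [Field K] [NumberField K] [Field L] [NumberField L] [Algebra K L]
  [IsGalois K L] [Field Ω] [NumberField Ω] [Algebra L Ω] [Algebra K Ω] [IsScalarTower K L Ω]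
  [IsGalois K Ω] {p ℓ : ℕ}

/-- the restriction to `L` of `f ^ (p * j)` is trivial -/
theorem rcp_pow_card_apply (hdeg : Module.finrank K L = p) (f : Ω ≃ₐ[K] Ω) (j : ℕ) (x : L) :
    (f ^ (p * j)) (algebraMap L Ω x) = algebraMap L Ω x := by
  have h1 : (AlgEquiv.restrictNormalHom L f) ^ p = 1 := by
    rw [← hdeg, ← IsGalois.card_aut_eq_finrank K L]
    exact pow_card_eq_one'
  have h2 : AlgEquiv.restrictNormalHom L (f ^ (p * j)) = 1 := by
    rw [map_pow, pow_mul, h1, one_pow]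
  have h3 := AlgEquiv.restrictNormal_commutes (f ^ (p * j)) L x
  rw [← h3]
  have h4 : (f ^ (p * j)).restrictNormal L = 1 := h2
  rw [h4]
  rfl

theorem rcp_sigma_smul_ne [Fact p.Prime] [Fact ℓ.Prime] [IsCyclotomicExtension {ℓ} L Ω]
    (D : CrossData K L Ω p ℓ) (hdeg : Module.finrank K L = p)
    (hunr : ∀ P : Ideal (𝓞 L), P.IsPrime → P ≠ ⊥ → P.inertia (L ≃ₐ[K] L) = ⊥)
    (q : ℕ) (hq : q.Prime) (hqℓ : q ≠ ℓ) (hpow : ∀ x : ZMod ℓ, x ^ p ≠ (q : ZMod ℓ))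
    (𝔓 : HeightOneSpectrum (𝓞 Ω)) (hN : Ideal.absNorm (𝔓.asIdeal.under (𝓞 K)) = q) :
    D.σ • 𝔓.asIdeal ≠ 𝔓.asIdeal := by
  intro hfix
  have hℓ : ℓ.Prime := Fact.out
  haveI := 𝔓.isPrime
  have hℓP : (ℓ : 𝓞 Ω) ∉ 𝔓.asIdeal := by
    intro h
    have h1 : (ℓ : 𝓞 K) ∈ 𝔓.asIdeal.under (𝓞 K) := by
      rw [Ideal.under, Ideal.mem_comap]
      simpa using h
    have h2 : (q : 𝓞 K) ∈ 𝔓.asIdeal.under (𝓞 K) := by
      rw [← hN]
      exact Ideal.absNorm_mem _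
    have hcop : Nat.Coprime ℓ q := (Nat.coprime_primes hℓ hq).mpr (Ne.symm hqℓ)
    exact rcp_not_mem_of_coprime _ (Ideal.IsPrime.ne_top inferInstance) hcop h1 h2
  have hin := inertia_omega_eq_bot D hℓ hunr 𝔓.asIdeal 𝔓.isPrime 𝔓.ne_bot hℓP
  obtain ⟨fr, hfr⟩ := IsArithFrobAt.exists_of_isInvariant (𝓞 K) (Ω ≃ₐ[K] Ω) 𝔓.asIdeal
  obtain ⟨j, hj⟩ := mem_powers_of_smul_eq 𝔓.asIdeal 𝔓.ne_bot hin fr hfr D.σ hfix
  have hfrζ := frob_apply_zeta ℓ 𝔓.asIdeal hℓP fr hfr D.ζ D.hζ.pow_eq_one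
  rw [hN] at hfrζ
  have h1 : (fr ^ j) D.ζ = D.ζ ^ (q ^ j) := rcp_pow_apply_zeta fr D.ζ q hfrζ j
  rw [← hj, D.σ_ζ] at h1
  have h2 : ((1 : ℕ) : ZMod ℓ) = ((q ^ j : ℕ) : ZMod ℓ) :=
    rcp_natCast_eq_of_pow_eq D.hζ hℓ.pos (by simpa using h1)
  have h3 : (q : ZMod ℓ) ^ j = 1 := by
    push_cast at h2
    exact h2.symm
  obtain ⟨j', rfl⟩ := rcp_dvd_of_pow_eq_one (q : ZMod ℓ) hpow j h3
  have h4 : ∀ x : L, (D.σ ^ 1) (algebraMap L Ω x) = algebraMap L Ω x := by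
    intro x
    rw [pow_one, hj]
    exact rcp_pow_card_apply hdeg fr j' x
  have h5 := D.σ_L 1 h4
  exact (Fact.out : p.Prime).one_lt.ne' (Nat.dvd_one.mp h5)

/-- Steps C–E: the elements `z`, `w`, `a`. -/
theorem rcp_exists_zwa [Fact p.Prime] (hp2 : p ≠ 2) (D : CrossData K L Ω p ℓ)
    (hunr : ∀ P : Ideal (𝓞 L), P.IsPrime → P ≠ ⊥ → P.inertia (L ≃ₐ[K] L) = ⊥)
    (x : K) (hx : x ≠ 0)
    (hsplit : ∀ 𝔓 : HeightOneSpectrum (𝓞 Ω), ordAt 𝔓 (algebraMap K Ω x) ≠ 0 →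
      D.σ • 𝔓.asIdeal ≠ 𝔓.asIdeal) :
    ∃ (z w : Ω) (a : K), z ≠ 0 ∧ w ≠ 0 ∧ a ≠ 0 ∧
      ∏ j ∈ Finset.range p, (D.σ ^ j) z = algebraMap K Ω x ∧
      ∏ l ∈ Finset.range (ℓ - 1), (D.τ ^ l) w = algebraMap K Ω a ∧
      D.τ z * w = D.σ w * z := by
  have hx' : algebraMap K Ω x ≠ 0 := by simpa using hx
  obtain ⟨z, hz, hNz⟩ := hnt_sigma p hp2 D.σ D.σ_order
    (fun P hP hP0 j hj => sigma_pow_not_mem_inertia D hunr P hP hP0 j hj)
    (algebraMap K Ω x) hx' (D.σ.commutes x) hsplit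
  have hcomm : ∀ (i j : ℕ) (u : Ω), (D.σ ^ i) ((D.τ ^ j) u) = (D.τ ^ j) ((D.σ ^ i) u) := by
    intro i j u
    have h1 : D.σ ^ i * D.τ ^ j = D.τ ^ j * D.σ ^ i :=
      (Commute.pow_pow (show Commute D.σ D.τ from D.comm) i j).eq
    exact DFunLike.congr_fun h1 u
  have hcomm1 : ∀ (i : ℕ) (u : Ω), (D.σ ^ i) (D.τ u) = D.τ ((D.σ ^ i) u) := by
    intro i u
    simpa using hcomm i 1 u
  have hcomm2 : ∀ (j : ℕ) (u : Ω), D.σ ((D.τ ^ j) u) = (D.τ ^ j) (D.σ u) := by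
    intro j u
    simpa using hcomm 1 j u
  have hy : ∏ j ∈ Finset.range p, (D.σ ^ j) (D.τ z / z) = 1 := by
    simp only [map_div₀, hcomm1]
    rw [Finset.prod_div_distrib, ← map_prod, hNz, D.τ.commutes, div_self hx']
  obtain ⟨w, hw, hyw⟩ := hilbert90_sigma p (Fact.out : p.Prime).pos D.σ D.σ_order (D.τ z / z) hy
  have hzw : D.τ z * w = D.σ w * z := by
    rw [← hyw]
    field_simp
  set n := ℓ - 1 with hn
  have hτn : D.τ ^ n = 1 := by
    rw [hn, ← D.τ_order]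
    exact pow_orderOf_eq_one _
  have hτa : D.τ (∏ l ∈ Finset.range n, (D.τ ^ l) w) = ∏ l ∈ Finset.range n, (D.τ ^ l) w := by
    rw [map_prod]
    have h1 := Finset.prod_range_succ' (fun l => (D.τ ^ l) w) n
    have h2 := Finset.prod_range_succ (fun l => (D.τ ^ l) w) n
    have h3 : (D.τ ^ n) w = w := by rw [hτn]; rfl
    simp only [pow_zero, AlgEquiv.one_apply] at h1
    rw [h2, h3] at h1
    have h4 : ∀ l : ℕ, D.τ ((D.τ ^ l) w) = (D.τ ^ (l + 1)) w := by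
      intro l
      rw [pow_succ']
      rfl
    simp only [h4]
    exact (mul_right_cancel₀ hw h1).symm
  have hσa : D.σ (∏ l ∈ Finset.range n, (D.τ ^ l) w) = ∏ l ∈ Finset.range n, (D.τ ^ l) w := by
    rw [map_prod]
    simp only [hcomm2, ← hyw, map_mul, map_div₀]
    rw [Finset.prod_mul_distrib]
    have h4 : ∀ l : ℕ, (D.τ ^ l) (D.τ z) = (D.τ ^ (l + 1)) z := by
      intro l
      rw [pow_succ]
      rfl
    simp only [h4]
    rw [rcp_prod_range_div (fun l => (D.τ ^ l) z) (fun l => (map_ne_zero _).mpr hz) n, hτn]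
    simp [div_self hz]
  have hfix : ∀ h : Ω ≃ₐ[K] Ω, h (∏ l ∈ Finset.range n, (D.τ ^ l) w) =
      ∏ l ∈ Finset.range n, (D.τ ^ l) w := by
    intro h
    obtain ⟨i, k, rfl⟩ := D.gen h
    rw [AlgEquiv.mul_apply, rcp_pow_fixed D.τ _ hτa k, rcp_pow_fixed D.σ _ hσa i]
  obtain ⟨a, ha⟩ := (IsGalois.mem_range_algebraMap_iff_fixed _).mpr hfix
  have ha0 : a ≠ 0 := by
    rintro rfl
    rw [map_zero] at ha
    have h5 := Finset.prod_eq_zero_iff.mp ha.symm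
    obtain ⟨l, -, hl⟩ := h5
    exact hw ((map_eq_zero _).mp hl)
  exact ⟨z, w, a, hz, hw, ha0, hNz, ha.symm, hzw⟩

theorem rcp_restrict_tau (D : CrossData K L Ω p ℓ) : AlgEquiv.restrictNormalHom L D.τ = 1 := by
  ext x
  apply (algebraMap L Ω).injective
  have h := AlgEquiv.restrictNormal_commutes D.τ L x
  change algebraMap L Ω ((D.τ.restrictNormal L) x) = _
  rw [h, D.τ_L]
  rfl

theorem rcp_gal_comm [Fact p.Prime] (hdeg : Module.finrank K L = p) (a b : L ≃ₐ[K] L) :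
    a * b = b * a := by
  have hcard : Nat.card (L ≃ₐ[K] L) = p := by rw [IsGalois.card_aut_eq_finrank, hdeg]
  have : IsCyclic (L ≃ₐ[K] L) := isCyclic_of_prime_card hcard
  let := IsCyclic.commGroup (α := L ≃ₐ[K] L)
  exact mul_comm a b

/-- Step F: the data at a prime `v ∤ ℓ` of `K`. -/
theorem rcp_local [Fact p.Prime] [Fact ℓ.Prime] (D : CrossData K L Ω p ℓ)
    (hdeg : Module.finrank K L = p)
    (hunr : ∀ P : Ideal (𝓞 L), P.IsPrime → P ≠ ⊥ → P.inertia (L ≃ₐ[K] L) = ⊥)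
    (z w : Ω) (hz : z ≠ 0) (hw : w ≠ 0) (x a : K)
    (hNz : ∏ j ∈ Finset.range p, (D.σ ^ j) z = algebraMap K Ω x)
    (hNw : ∏ l ∈ Finset.range (ℓ - 1), (D.τ ^ l) w = algebraMap K Ω a)
    (hzw : D.τ z * w = D.σ w * z)
    (v : HeightOneSpectrum (𝓞 K)) (hv : (ℓ : 𝓞 K) ∉ v.asIdeal) :
    ∃ d e : ℕ,
      ((p : ℤ) * ((ℓ - 1 : ℕ) : ℤ)) ∣
        ((ℓ - 1 : ℕ) : ℤ) * d * ordAt v x + p * e * ordAt v a ∧
      (Ideal.absNorm v.asIdeal : ZMod ℓ) = (D.g : ZMod ℓ) ^ e ∧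
      ∀ (P : Ideal (𝓞 L)) (ψ : L ≃ₐ[K] L), P.IsPrime → P.under (𝓞 K) = v.asIdeal →
        IsArithFrobAt (𝓞 K) ψ P → ψ = (AlgEquiv.restrictNormalHom L D.σ) ^ d := by
  have hℓ : ℓ.Prime := Fact.out
  have := v.isPrime
  obtain ⟨𝔓, h𝔓prime, h𝔓v⟩ := Ideal.exists_ideal_over_prime_of_isIntegral_of_isDomain
    (S := 𝓞 Ω) v.asIdeal (by
      rw [(RingHom.injective_iff_ker_eq_bot _).mp (FaithfulSMul.algebraMap_injective (𝓞 K) (𝓞 Ω))]
      exact bot_le)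
  have : 𝔓.LiesOver v.asIdeal := ⟨h𝔓v.symm⟩
  have h𝔓0 : 𝔓 ≠ ⊥ := Ideal.ne_bot_of_liesOver_of_ne_bot v.ne_bot 𝔓
  let 𝔓' : HeightOneSpectrum (𝓞 Ω) := ⟨𝔓, h𝔓prime, h𝔓0⟩
  have : 𝔓'.asIdeal.LiesOver v.asIdeal := ⟨h𝔓v.symm⟩
  have hℓP : (ℓ : 𝓞 Ω) ∉ 𝔓 := by
    intro h
    apply hv
    rw [← h𝔓v, Ideal.mem_comap]
    simpa using h
  have : Finite (𝓞 Ω ⧸ 𝔓) := Ideal.finiteQuotientOfFreeOfNeBot 𝔓 h𝔓0
  obtain ⟨fr, hfr⟩ := IsArithFrobAt.exists_of_isInvariant (𝓞 K) (Ω ≃ₐ[K] Ω) 𝔓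
  obtain ⟨d, e, hde⟩ := D.gen fr
  refine ⟨d, e, ?_, ?_, ?_⟩
  · have hstab : (D.σ ^ d * D.τ ^ e) • 𝔓'.asIdeal = 𝔓'.asIdeal := by
      rw [← hde]
      exact MulAction.mem_stabilizer_iff.mp hfr.mem_stabilizer
    exact transgression_ordAt_base D.σ D.τ D.comm p (ℓ - 1) d e 𝔓' v
      (ramificationIdx_omega_eq_one D hℓ hunr 𝔓' v hℓP) hstab z w hz hw x a hNz hNw hzw
  · have h1 := frob_apply_zeta ℓ 𝔓 hℓP fr hfr D.ζ D.hζ.pow_eq_one
    have h2 : 𝔓.under (𝓞 K) = v.asIdeal := h𝔓v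
    rw [h2, hde, AlgEquiv.mul_apply, rcp_pow_apply_zeta D.τ D.ζ D.g D.τ_ζ e, map_pow,
      rcp_pow_fixed D.σ D.ζ D.σ_ζ d] at h1
    have h3 := rcp_natCast_eq_of_pow_eq D.hζ hℓ.pos h1
    rw [← h3]
    push_cast
    rfl
  · intro P ψ hP hPv hψ
    have := hP
    have hP0 : P ≠ ⊥ := by
      rintro rfl
      exact v.ne_bot (by rw [← hPv, Ideal.under_bot])
    have hPQ : P.under (𝓞 K) = (𝔓.under (𝓞 L)).under (𝓞 K) := by
      rw [Ideal.under_under, hPv]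
      exact h𝔓v.symm
    have h1 := isArithFrobAt_restrictNormal (L := L) 𝔓 fr hfr
    have h2 := frob_unique (rcp_gal_comm hdeg) hunr P (𝔓.under (𝓞 L)) hP0 hPQ ψ _ hψ h1
    rw [h2, hde]
    change AlgEquiv.restrictNormalHom L (D.σ ^ d * D.τ ^ e) = _
    rw [map_mul, map_pow, map_pow, rcp_restrict_tau D, one_pow, mul_one]


theorem rcp_pow_prime_eq_one {p : ℕ} [Fact p.Prime] (b : Multiplicative (ZMod p)) : b ^ p = 1 := by
  apply Multiplicative.toAdd.injective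
  rw [toAdd_pow, toAdd_one]
  simp

theorem rcp_zpow_sum {F : Type*} [Field F] (g : F) (hg : g ≠ 0) {α : Type*} (s : Finset α)
    (f : α → ℤ) : ∏ v ∈ s, g ^ f v = g ^ ∑ v ∈ s, f v := by
  classical
  induction s using Finset.induction_on with
  | empty => simp
  | insert a s ha ih => rw [Finset.prod_insert ha, Finset.sum_insert ha, ih, zpow_add₀ hg]

open Classical in
theorem rcp_core [IsGalois ℚ K] [Fact p.Prime] [Fact ℓ.Prime] (hp2 : p ≠ 2) (hℓ2 : ℓ ≠ 2)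
    [IsCyclotomicExtension {ℓ} L Ω]
    (D : CrossData K L Ω p ℓ) (hdeg : Module.finrank K L = p)
    (hunr : ∀ P : Ideal (𝓞 L), P.IsPrime → P ≠ ⊥ → P.inertia (L ≃ₐ[K] L) = ⊥)
    (hsplit : SplitsCompletely ℓ L)
    (q : ℕ) (hq : q.Prime) (hqℓ : q ≠ ℓ) (hpow : ∀ x : ZMod ℓ, x ^ p ≠ (q : ZMod ℓ))
    {ι : Type*} [Fintype ι] (𝔯 : ι → Ideal (𝓞 K)) (h𝔯 : ∀ i, (𝔯 i).IsPrime)
    (hN : ∀ i, Ideal.absNorm (𝔯 i) = q) (γ : 𝓞 K) (hγ : ∏ i, 𝔯 i = Ideal.span {γ})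
    (φ : ι → (L ≃ₐ[K] L))
    (hφ : ∀ i, ∃ P : Ideal (𝓞 L), P.IsPrime ∧ P.under (𝓞 K) = 𝔯 i ∧
      IsArithFrobAt (𝓞 K) (φ i) P)
    (β : (L ≃ₐ[K] L) →* Multiplicative (ZMod p)) : ∏ i, β (φ i) = 1 := by
  have hp : p.Prime := Fact.out
  have hℓ : ℓ.Prime := Fact.out
  have hcop : Nat.Coprime ℓ q := (Nat.coprime_primes hℓ hq).mpr (Ne.symm hqℓ)
  have h𝔯0 : ∀ i, 𝔯 i ≠ ⊥ := by
    intro i h
    have h1 := hN i
    rw [h, Ideal.absNorm_bot] at h1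
    exact hq.ne_zero h1.symm
  have hγ0 : γ ≠ 0 := by
    rintro rfl
    rw [Ideal.span_singleton_eq_bot.mpr rfl] at hγ
    obtain ⟨i, -, hi⟩ := Finset.prod_eq_zero_iff.mp hγ
    exact h𝔯0 i hi
  have hℓ𝔯 : ∀ i, (ℓ : 𝓞 K) ∉ 𝔯 i := by
    intro i h
    have h2 : (q : 𝓞 K) ∈ 𝔯 i := by
      rw [← hN i]
      exact Ideal.absNorm_mem _
    exact rcp_not_mem_of_coprime (𝔯 i) (h𝔯 i).ne_top hcop h h2
  set x : K := algebraMap (𝓞 K) K γ with hx
  have hx0 : x ≠ 0 := by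
    rw [hx]
    simpa using hγ0
  -- the hypothesis of the Hasse norm theorem
  have hsplit' : ∀ 𝔓 : HeightOneSpectrum (𝓞 Ω), ordAt 𝔓 (algebraMap K Ω x) ≠ 0 →
      D.σ • 𝔓.asIdeal ≠ 𝔓.asIdeal := by
    intro 𝔓 h𝔓
    have h1 : algebraMap K Ω x = algebraMap (𝓞 Ω) Ω (algebraMap (𝓞 K) (𝓞 Ω) γ) := rfl
    have hγΩ : algebraMap (𝓞 K) (𝓞 Ω) γ ≠ 0 := by
      intro h0
      rw [h1, h0, map_zero] at h𝔓
      exact h𝔓 (by simp [ordAt])
    have h2 : algebraMap (𝓞 K) (𝓞 Ω) γ ∈ 𝔓.asIdeal := by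
      have h3 := ordAt_algebraMap_nonneg (F := Ω) 𝔓 (algebraMap (𝓞 K) (𝓞 Ω) γ)
      rw [h1] at h𝔓
      have h4 : ((1 : ℕ) : ℤ) ≤ ordAt 𝔓 (algebraMap (𝓞 Ω) Ω (algebraMap (𝓞 K) (𝓞 Ω) γ)) := by
        push_cast
        omega
      have h5 := (natCast_le_ordAt_algebraMap_iff 𝔓 hγΩ 1).mp h4
      simpa using h5
    have h6 : ∏ i, 𝔯 i ≤ 𝔓.asIdeal.under (𝓞 K) := by
      rw [hγ, Ideal.span_singleton_le_iff_mem]
      exact h2
    haveI := 𝔓.isPrime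
    obtain ⟨i, -, hi⟩ := (Ideal.IsPrime.prod_le inferInstance).mp h6
    have h7 : 𝔯 i = 𝔓.asIdeal.under (𝓞 K) := by
      have hmax : (𝔯 i).IsMaximal := (h𝔯 i).isMaximal (h𝔯0 i)
      exact hmax.eq_of_le (Ideal.IsPrime.ne_top inferInstance) hi
    exact rcp_sigma_smul_ne D hdeg hunr q hq hqℓ hpow 𝔓 (by rw [← h7]; exact hN i)
  obtain ⟨z, w, a, hz, hw, ha, hNz, hNw, hzw⟩ := rcp_exists_zwa hp2 D hunr x hx0 hsplit'
  -- local data at the primes not over `ℓ`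
  have hloc := rcp_local D hdeg hunr z w hz hw x a hNz hNw hzw
  have hloc' : ∀ v : HeightOneSpectrum (𝓞 K), ∃ d e : ℕ, (ℓ : 𝓞 K) ∉ v.asIdeal →
      (((p : ℤ) * ((ℓ - 1 : ℕ) : ℤ)) ∣
        ((ℓ - 1 : ℕ) : ℤ) * d * ordAt v x + p * e * ordAt v a ∧
      (Ideal.absNorm v.asIdeal : ZMod ℓ) = (D.g : ZMod ℓ) ^ e ∧
      ∀ (P : Ideal (𝓞 L)) (ψ : L ≃ₐ[K] L), P.IsPrime → P.under (𝓞 K) = v.asIdeal →
        IsArithFrobAt (𝓞 K) ψ P → ψ = (AlgEquiv.restrictNormalHom L D.σ) ^ d) := by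
    intro v
    by_cases hv : (ℓ : 𝓞 K) ∈ v.asIdeal
    · exact ⟨0, 0, fun h => absurd hv h⟩
    · obtain ⟨d, e, h⟩ := hloc v hv
      exact ⟨d, e, fun _ => h⟩
  choose d e hde using hloc'
  -- the finite set of primes
  have hfinx := ordAt_finite_support x
  have hfina := ordAt_finite_support a
  set S : Finset (HeightOneSpectrum (𝓞 K)) :=
    (hfinx.toFinset ∪ hfina.toFinset).filter (fun v => (ℓ : 𝓞 K) ∉ v.asIdeal) with hSdef
  have hS : ∀ v ∈ S, (ℓ : 𝓞 K) ∉ v.asIdeal := fun v hv => (Finset.mem_filter.mp hv).2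
  set n : ℕ := ℓ - 1 with hn
  have hn0 : n ≠ 0 := by
    have := hℓ.two_le
    omega
  set A : ℤ := ∑ v ∈ S, (d v : ℤ) * ordAt v x with hA
  set B : ℤ := ∑ v ∈ S, (e v : ℤ) * ordAt v a with hB
  have hT : ((p : ℤ) * (n : ℤ)) ∣ (n : ℤ) * A + p * B := by
    have h1 : (n : ℤ) * A + p * B =
        ∑ v ∈ S, ((n : ℤ) * d v * ordAt v x + p * e v * ordAt v a) := by
      rw [Finset.sum_add_distrib, hA, hB, Finset.mul_sum, Finset.mul_sum]
      congr 1 <;> (apply Finset.sum_congr rfl; intro v _; ring)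
    rw [h1]
    exact Finset.dvd_sum (fun v hv => (hde v (hS v hv)).1)
  -- the cyclotomic step
  have hcyc := cyclo_step p ℓ hℓ2 D hsplit w hw a ha hNw
  have hg0 : (D.g : ZMod ℓ) ≠ 0 := by
    intro h0
    have h1 := D.g_order
    rw [h0, orderOf_zero] at h1
    exact hn0 h1.symm
  have hB2 : (n : ℤ) ∣ 2 * B := by
    have hprod : ∏ v ∈ S, (Ideal.absNorm v.asIdeal : ZMod ℓ) ^ (2 * ordAt v a) = 1 := by
      rw [← hcyc]
      symm
      rw [finprod_eq_prod_of_mulSupport_subset (s := S)]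
      · apply Finset.prod_congr rfl
        intro v hv
        rw [if_neg (hS v hv)]
      · intro v hv
        rw [Function.mem_mulSupport] at hv
        by_cases hℓv : (ℓ : 𝓞 K) ∈ v.asIdeal
        · rw [if_pos hℓv] at hv
          exact absurd rfl hv
        · rw [if_neg hℓv] at hv
          have h2 : ordAt v a ≠ 0 := by
            intro h
            rw [h] at hv
            simp at hv
          rw [Finset.mem_coe, hSdef, Finset.mem_filter, Finset.mem_union]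
          exact ⟨Or.inr (by simpa using h2), hℓv⟩
    have hprod2 : (D.g : ZMod ℓ) ^ (2 * B) = 1 := by
      rw [← hprod, hB, Finset.mul_sum, ← rcp_zpow_sum _ hg0]
      apply Finset.prod_congr rfl
      intro v hv
      rw [(hde v (hS v hv)).2.1, ← zpow_natCast, ← zpow_mul]
      congr 1
      ring
    set gu : (ZMod ℓ)ˣ := Units.mk0 _ hg0 with hgu
    have hgu_ord : orderOf gu = n := by
      rw [hn, ← D.g_order, ← orderOf_units]
      rfl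
    have h3 : gu ^ (2 * B) = 1 := by
      apply Units.ext
      rw [Units.val_zpow_eq_zpow_val, Units.val_one]
      exact hprod2
    rw [← hgu_ord]
    exact orderOf_dvd_iff_zpow_eq_one.mpr h3
  -- `p ∣ A`
  have hpA : (p : ℤ) ∣ A := by
    have hn0' : (n : ℤ) ≠ 0 := by exact_mod_cast hn0
    obtain ⟨c, hc⟩ := hB2
    obtain ⟨t, ht⟩ := hT
    have h1 : (n : ℤ) * (2 * A) = (n : ℤ) * (p * (2 * t - c)) := by
      linear_combination 2 * ht - (p : ℤ) * hc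
    have h2 : 2 * A = p * (2 * t - c) := mul_left_cancel₀ hn0' h1
    have h3 : (p : ℤ) ∣ 2 * A := ⟨_, h2⟩
    have hp' : Prime (p : ℤ) := Nat.prime_iff_prime_int.mp hp
    rcases hp'.dvd_or_dvd h3 with h | h
    · exfalso
      have h4 : p ∣ 2 := by exact_mod_cast h
      exact hp2 ((Nat.prime_dvd_prime_iff_eq hp Nat.prime_two).mp h4)
    · exact h
  -- bookkeeping
  set vi : ι → HeightOneSpectrum (𝓞 K) := fun i => ⟨𝔯 i, h𝔯 i, h𝔯0 i⟩ with hvi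
  have hcount : ∀ v : HeightOneSpectrum (𝓞 K),
      ordAt v x = ((Finset.univ.filter (fun i => 𝔯 i = v.asIdeal)).card : ℤ) :=
    ordAt_eq_card_of_prod_eq_span 𝔯 h𝔯 h𝔯0 γ hγ
  have hviS : ∀ i, vi i ∈ S := by
    intro i
    rw [hSdef, Finset.mem_filter, Finset.mem_union]
    refine ⟨Or.inl ?_, hℓ𝔯 i⟩
    rw [Set.Finite.mem_toFinset, Set.mem_ofPred_eq, hcount]
    have h1 : i ∈ Finset.univ.filter (fun j => 𝔯 j = (vi i).asIdeal) := by
      simp [hvi]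
    have h2 := Finset.card_pos.mpr ⟨i, h1⟩
    exact_mod_cast h2.ne'
  have hφd : ∀ i, φ i = (AlgEquiv.restrictNormalHom L D.σ) ^ d (vi i) := by
    intro i
    obtain ⟨P, hP, hPr, hfr⟩ := hφ i
    exact (hde (vi i) (hS _ (hviS i))).2.2 P (φ i) hP hPr hfr
  have hsum : A = ((∑ i, d (vi i) : ℕ) : ℤ) := by
    rw [hA]
    push_cast
    rw [← Finset.sum_fiberwise_of_maps_to (s := Finset.univ) (t := S) (g := vi)
      (fun i _ => hviS i)]
    apply Finset.sum_congr rfl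
    intro v hv
    rw [hcount v]
    have h1 : ∀ i ∈ Finset.univ.filter (fun i => vi i = v), (d (vi i) : ℤ) = d v := by
      intro i hi
      rw [(Finset.mem_filter.mp hi).2]
    have hfilt : Finset.univ.filter (fun i => vi i = v) =
        Finset.univ.filter (fun i => 𝔯 i = v.asIdeal) := by
      ext i
      simp only [Finset.mem_filter, Finset.mem_univ, true_and, hvi]
      constructor
      · intro h
        rw [← h]
      · intro h
        exact HeightOneSpectrum.ext h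
    rw [Finset.sum_congr rfl h1, Finset.sum_const, nsmul_eq_mul, hfilt, mul_comm]
  have hfinal : ∏ i, β (φ i) = β (AlgEquiv.restrictNormalHom L D.σ) ^ (∑ i, d (vi i)) := by
    rw [← Finset.prod_pow_eq_pow_sum]
    apply Finset.prod_congr rfl
    intro i _
    rw [hφd i, map_pow]
  rw [hfinal]
  obtain ⟨c, hc⟩ : p ∣ ∑ i, d (vi i) := by
    rw [hsum] at hpA
    exact_mod_cast hpA
  rw [hc, pow_mul, rcp_pow_prime_eq_one, one_pow]

end Core

/-- **RECIP**: reciprocity for everywhere unramified cyclic extensions of degree `p` of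
`ℚ(ζ_p)`: the Artin symbol of a principal ideal (supported on degree one primes over one
rational prime `q ≠ p`) is trivial. -/
theorem recip (p : ℕ) [Fact p.Prime] (hp2 : p ≠ 2)
    (hF : Fermat.Agent.Lib.Frob.PrimeArithFrobGenerates) : Fermat.Agent.CFT.RecipStatement p := by
  intro K L _ _ _ _ _ _ _ _ hdeg hunr q hq hqp ι _ 𝔯 h𝔯 hN γ hγ φ hφ β
  have hp : p.Prime := Fact.out
  rcases isEmpty_or_nonempty ι with hι | ⟨⟨i₀⟩⟩
  · simp
  haveI : NeZero p := ⟨hp.ne_zero⟩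
  have hζK := IsCyclotomicExtension.zeta_spec p ℚ K
  have hζL : IsPrimitiveRoot (algebraMap K L (IsCyclotomicExtension.zeta p ℚ K)) p :=
    hζK.map_of_injective (algebraMap K L).injective
  obtain ⟨P₀, hP₀, hP₀r, -⟩ := hφ i₀
  have hqP₀ : (q : 𝓞 L) ∈ P₀ := by
    have h1 : (q : 𝓞 K) ∈ 𝔯 i₀ := by
      rw [← hN i₀]
      exact Ideal.absNorm_mem _
    rw [← hP₀r, Ideal.under, Ideal.mem_comap] at h1
    simpa using h1
  have hqL : ∃ Q : Ideal (𝓞 L), Q.IsPrime ∧ (q : 𝓞 L) ∈ Q ∧ (q : 𝓞 L) ∉ Q ^ 2 :=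
    ⟨P₀, hP₀, hqP₀, natCast_not_mem_sq p hunr q hq hqp P₀ hP₀ hqP₀⟩
  obtain ⟨ℓ, hℓ, hℓS, -, hℓq, hsplit, hpow, -⟩ :=
    exists_aux_prime hF L _ hζL q hq hqL {2} (Set.finite_singleton 2)
  have hℓ2 : ℓ ≠ 2 := fun h => hℓS (by simp [h])
  haveI : Fact ℓ.Prime := ⟨hℓ⟩
  haveI : NeZero ℓ := ⟨hℓ.ne_zero⟩
  haveI : IsGalois K (CyclotomicField ℓ L) := isGalois_omega K L (CyclotomicField ℓ L) ℓ
  haveI : IsGalois ℚ K := IsCyclotomicExtension.isGalois {p} ℚ K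
  obtain ⟨D⟩ := exists_crossData K L (CyclotomicField ℓ L) p ℓ hℓ hdeg hsplit
  exact rcp_core hp2 hℓ2 D hdeg hunr hsplit q hq (Ne.symm hℓq) hpow 𝔯 h𝔯 hN γ hγ φ hφ β

end Fermat.Agent.CFT.Recip
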