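import Mathlib
import Fermat.Agent.CFT.Recip.Defs
import Fermat.Agent.CFT.Recip.Transgression
import Fermat.Agent.CFT.Recip.OrdBridge

/-!
# RECIP: the finite part of the product formula, with `ordAt`

`abs_norm_eq_finprod_absNorm_zpow`: `|N_{K/ℚ}(a)| = ∏_v N(v)^{ordAt v a}` for `a ≠ 0` in a number
field `K` (input of the global cyclotomic step).
-/

set_option autoImplicit false

open NumberField IsDedekindDomain

open scoped nonZeroDivisors

namespace Fermat.Agent.CFT.Recip

section ProdFormula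

variable {K : Type*} [Field K] [NumberField K]

/-- **Product formula (finite part).** `|N_{K/ℚ}(a)| = ∏_v N(v)^{ord_v(a)}`. -/
theorem abs_norm_eq_finprod_absNorm_zpow (a : K) (ha : a ≠ 0) :
    |Algebra.norm ℚ a| =
      ∏ᶠ v : HeightOneSpectrum (𝓞 K), ((Ideal.absNorm v.asIdeal : ℕ) : ℚ) ^ (ordAt v a) := by
  have hI : FractionalIdeal.spanSingleton (𝓞 K)⁰ a ≠ 0 := by
    rw [Ne, FractionalIdeal.spanSingleton_eq_zero_iff]
    exact ha
  have h1 := FractionalIdeal.finprod_heightOneSpectrum_factorization' (K := K) hI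
  have h2 := FractionalIdeal.absNorm_span_singleton (R := 𝓞 K) a
  rw [← h2]
  conv_lhs => rw [← h1]
  have hfin : (Function.mulSupport fun v : HeightOneSpectrum (𝓞 K) =>
      (v.asIdeal : FractionalIdeal (𝓞 K)⁰ K) ^
        (FractionalIdeal.count K v (FractionalIdeal.spanSingleton (𝓞 K)⁰ a))).Finite := by
    have h3 := FractionalIdeal.finite_factors (FractionalIdeal.spanSingleton (𝓞 K)⁰ a)
    rw [Filter.eventually_cofinite] at h3
    refine h3.subset ?_
    intro v hv
    rw [Function.mem_mulSupport] at hv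
    intro h0
    apply hv
    show (v.asIdeal : FractionalIdeal (𝓞 K)⁰ K) ^
        (FractionalIdeal.count K v (FractionalIdeal.spanSingleton (𝓞 K)⁰ a)) = 1
    rw [h0, zpow_zero]
  have h4 : FractionalIdeal.absNorm (∏ᶠ v : HeightOneSpectrum (𝓞 K),
      (v.asIdeal : FractionalIdeal (𝓞 K)⁰ K) ^
        (FractionalIdeal.count K v (FractionalIdeal.spanSingleton (𝓞 K)⁰ a))) =
      ∏ᶠ v : HeightOneSpectrum (𝓞 K), FractionalIdeal.absNorm
        ((v.asIdeal : FractionalIdeal (𝓞 K)⁰ K) ^
          (FractionalIdeal.count K v (FractionalIdeal.spanSingleton (𝓞 K)⁰ a))) :=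
    MonoidHom.map_finprod (FractionalIdeal.absNorm (R := 𝓞 K) (K := K)).toMonoidHom hfin
  rw [h4]
  refine finprod_congr fun v => ?_
  rw [map_zpow₀, FractionalIdeal.coeIdeal_absNorm, ← ord_eq_ordAt]
  rfl

end ProdFormula

end Fermat.Agent.CFT.Recip
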