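import Mathlib
import Fermat.Agent.CFT.Recip.Defs
import Fermat.Agent.CFT.Recip.Transgression
import Fermat.Agent.CFT.Recip.OrdBridge
import Fermat.Agent.CFT.Recip.OmegaFrob
import Fermat.Agent.CFT.Recip.ProdFormula

/-!
# RECIP: from a norm congruence to the product over the primes not above `ℓ`

`finprod_zmod_eq_one_of_norm_congr`: if `ℓ ^ J * V * N_{K/ℚ}(a) = ℓ ^ M * U` with `U ≡ V ≡ 1`
modulo a prime `𝔩 ∋ ℓ` of a number field `L`, then `∏_{v ∤ ℓ} N(v) ^ (2 ordAt v a) = 1` in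
`ZMod ℓ` (the last step of the global cyclotomic step; uses the product formula
`abs_norm_eq_finprod_absNorm_zpow`).
-/

set_option autoImplicit false

open NumberField IsDedekindDomain

open scoped nonZeroDivisors

namespace Fermat.Agent.CFT.Recip

section NormCongr

/-- A rational prime dividing the absolute norm of a nonzero prime ideal lies in it. -/
theorem natCast_mem_of_dvd_absNorm {K : Type*} [Field K] [NumberField K] {ℓ : ℕ} (hℓ : ℓ.Prime)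
    (v : Ideal (𝓞 K)) [v.IsPrime] (hv0 : v ≠ ⊥) (h : ℓ ∣ Ideal.absNorm v) : (ℓ : 𝓞 K) ∈ v := by
  classical
  have : Fact ℓ.Prime := ⟨hℓ⟩
  have hfin : Finite (𝓞 K ⧸ v) := Ideal.finiteQuotientOfFreeOfNeBot v hv0
  have := Fintype.ofFinite (𝓞 K ⧸ v)
  rw [Ideal.absNorm_apply, Submodule.cardQuot_apply, Nat.card_eq_fintype_card] at h
  obtain ⟨x, hx⟩ := exists_prime_addOrderOf_dvd_card ℓ h
  have hx0 : x ≠ 0 := by
    rintro rfl
    rw [addOrderOf_zero] at hx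
    exact hℓ.one_lt.ne hx
  have h1 : (ℓ : 𝓞 K ⧸ v) * x = 0 := by
    rw [← nsmul_eq_mul, ← hx]
    exact addOrderOf_nsmul_eq_zero x
  have h2 : (ℓ : 𝓞 K ⧸ v) = 0 := (mul_eq_zero.mp h1).resolve_right hx0
  rw [← map_natCast (Ideal.Quotient.mk v), Ideal.Quotient.eq_zero_iff_mem] at h2
  exact h2

/-- The absolute norm of a prime ideal containing the rational prime `ℓ` is a power of `ℓ`. -/
theorem exists_absNorm_eq_pow_of_natCast_mem {K : Type*} [Field K] [NumberField K] {ℓ : ℕ}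
    (hℓ : ℓ.Prime) (v : Ideal (𝓞 K)) [v.IsPrime] (h : (ℓ : 𝓞 K) ∈ v) :
    ∃ f : ℕ, Ideal.absNorm v = ℓ ^ f := by
  have hmax : (Ideal.span {(ℓ : ℤ)}).IsMaximal :=
    PrincipalIdealRing.isMaximal_of_irreducible (Nat.prime_iff_prime_int.mp hℓ).irreducible
  have hlo : v.LiesOver (Ideal.span {(ℓ : ℤ)}) := by
    refine ⟨?_⟩
    refine (hmax.eq_of_le (Ideal.IsPrime.ne_top inferInstance) ?_)
    rw [Ideal.span_singleton_le_iff_mem]
    show algebraMap ℤ (𝓞 K) (ℓ : ℤ) ∈ v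
    simpa using h
  exact ⟨_, Ideal.absNorm_eq_pow_inertiaDeg' v hℓ⟩

/-- An integer whose image lies in a prime ideal over `ℓ` is divisible by `ℓ`. -/
theorem int_dvd_of_intCast_mem {L : Type*} [Field L] [NumberField L] {ℓ : ℕ} (hℓ : ℓ.Prime)
    (𝔩 : Ideal (𝓞 L)) [𝔩.IsPrime] (hℓ𝔩 : (ℓ : 𝓞 L) ∈ 𝔩) (z : ℤ) (hz : (z : 𝓞 L) ∈ 𝔩) :
    (ℓ : ℤ) ∣ z := by
  by_contra hndvd
  have hc : Nat.Coprime ℓ z.natAbs := by
    rw [Nat.Prime.coprime_iff_not_dvd hℓ]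
    intro h
    exact hndvd (Int.natCast_dvd.mpr h)
  obtain ⟨u, w, huw⟩ := Nat.Coprime.isCoprime hc
  have hz' : ((z.natAbs : ℤ) : 𝓞 L) ∈ 𝔩 := by
    rcases Int.natAbs_eq z with h | h
    · rw [← h]; exact hz
    · have : ((z.natAbs : ℤ) : 𝓞 L) = -(z : 𝓞 L) := by
        have h' : (z.natAbs : ℤ) = -z := by omega
        rw [h']; push_cast; ring
      rw [this]; exact neg_mem hz
  have h1 : (1 : 𝓞 L) ∈ 𝔩 := by
    have h2 : ((u * ℓ + w * z.natAbs : ℤ) : 𝓞 L) ∈ 𝔩 := by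
      push_cast
      refine 𝔩.add_mem (𝔩.mul_mem_left _ hℓ𝔩) (𝔩.mul_mem_left _ ?_)
      simpa using hz'
    rw [huw] at h2
    simpa using h2
  exact (Ideal.IsPrime.ne_top inferInstance) ((Ideal.eq_top_iff_one _).mpr h1)

/-- `x ^ e = x ^ e.toNat / x ^ (-e).toNat` in a field. -/
theorem zpow_eq_pow_toNat_div {F : Type*} [Field F] (x : F) (e : ℤ) :
    x ^ e = x ^ e.toNat / x ^ (-e).toNat := by
  rcases le_total 0 e with h | h
  · have h1 : (-e).toNat = 0 := by omega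
    have h2 : (e.toNat : ℤ) = e := Int.toNat_of_nonneg h
    rw [h1, pow_zero, div_one, ← zpow_natCast, h2]
  · have h1 : e.toNat = 0 := by omega
    have h2 : ((-e).toNat : ℤ) = -e := Int.toNat_of_nonneg (by omega)
    rw [h1, pow_zero, one_div, ← zpow_natCast, h2, zpow_neg, inv_inv]

/-- Cancelling powers of an element of a prime ideal. -/
theorem eq_of_pow_mul_eq_pow_mul {R : Type*} [CommRing R] [IsDomain R] (P : Ideal R) [P.IsPrime]
    {t : R} (ht : t ∈ P) (ht0 : t ≠ 0) {A B : ℕ} {X Y : R} (hX : X ∉ P) (hY : Y ∉ P)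
    (h : t ^ A * X = t ^ B * Y) : X = Y := by
  rcases lt_trichotomy A B with hAB | hAB | hAB
  · exfalso
    obtain ⟨c, rfl⟩ := Nat.exists_eq_add_of_lt hAB
    have h1 : t ^ A * X = t ^ A * (t ^ (c + 1) * Y) := by
      rw [h]; ring
    have h2 := mul_left_cancel₀ (pow_ne_zero A ht0) h1
    apply hX
    rw [h2]
    exact P.mul_mem_right _ (Ideal.pow_mem_of_mem P ht (c + 1) (Nat.succ_pos c))
  · subst hAB
    exact mul_left_cancel₀ (pow_ne_zero A ht0) h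
  · exfalso
    obtain ⟨c, rfl⟩ := Nat.exists_eq_add_of_lt hAB
    have h1 : t ^ B * Y = t ^ B * (t ^ (c + 1) * X) := by
      rw [← h]; ring
    have h2 := mul_left_cancel₀ (pow_ne_zero B ht0) h1
    apply hY
    rw [h2]
    exact P.mul_mem_right _ (Ideal.pow_mem_of_mem P ht (c + 1) (Nat.succ_pos c))

open Classical in
/-- **From a norm congruence to the product over the primes not above `ℓ`.**  If
`ℓ ^ J * V * N_{K/ℚ}(a) = ℓ ^ M * U` with `U ≡ V ≡ 1` modulo a prime `𝔩 ∋ ℓ` of some number field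
`L`, then `∏_{v ∤ ℓ} N(v) ^ (2 ordAt v a) = 1` in `ZMod ℓ`. -/
theorem finprod_zmod_eq_one_of_norm_congr {K L : Type*} [Field K] [NumberField K] [Field L]
    [NumberField L] (ℓ : ℕ) [Fact ℓ.Prime] (a : K) (ha : a ≠ 0)
    (𝔩 : Ideal (𝓞 L)) [𝔩.IsPrime] (hℓ𝔩 : (ℓ : 𝓞 L) ∈ 𝔩)
    (J M : ℕ) (U V : 𝓞 L) (hU : U - 1 ∈ 𝔩) (hV : V - 1 ∈ 𝔩)
    (h : (ℓ : L) ^ J * (V : L) * algebraMap ℚ L (Algebra.norm ℚ a) = (ℓ : L) ^ M * (U : L)) :
    ∏ᶠ v : HeightOneSpectrum (𝓞 K), (if (ℓ : 𝓞 K) ∈ v.asIdeal then (1 : ZMod ℓ)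
      else (Ideal.absNorm v.asIdeal : ZMod ℓ) ^ (2 * ordAt v a)) = 1 := by
  have hℓ : ℓ.Prime := Fact.out
  have hfinT := ordAt_finite_support a
  set s : Finset (HeightOneSpectrum (𝓞 K)) := hfinT.toFinset with hs
  have hmem_s : ∀ v, v ∈ s ↔ ordAt v a ≠ 0 := fun v => by
    rw [hs, Set.Finite.mem_toFinset]; rfl
  set s₂ := s.filter (fun v => (ℓ : 𝓞 K) ∉ v.asIdeal) with hs₂
  set n : ℕ := ∏ v ∈ s₂, Ideal.absNorm v.asIdeal ^ (ordAt v a).toNat with hn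
  set m : ℕ := ∏ v ∈ s₂, Ideal.absNorm v.asIdeal ^ (-ordAt v a).toNat with hm
  -- `N v` is nonzero in `ZMod ℓ` for `v ∈ s₂`
  have hNv : ∀ v ∈ s₂, ((Ideal.absNorm v.asIdeal : ℕ) : ZMod ℓ) ≠ 0 := by
    intro v hv
    rw [hs₂, Finset.mem_filter] at hv
    rw [Ne, ZMod.natCast_eq_zero_iff]
    intro hdvd
    exact hv.2 (natCast_mem_of_dvd_absNorm hℓ v.asIdeal v.ne_bot hdvd)
  have hn0 : (n : ZMod ℓ) ≠ 0 := by
    rw [hn, Nat.cast_prod, Finset.prod_ne_zero_iff]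
    intro v hv
    rw [Nat.cast_pow]
    exact pow_ne_zero _ (hNv v hv)
  have hm0 : (m : ZMod ℓ) ≠ 0 := by
    rw [hm, Nat.cast_prod, Finset.prod_ne_zero_iff]
    intro v hv
    rw [Nat.cast_pow]
    exact pow_ne_zero _ (hNv v hv)
  -- the target product
  have htarget : ∏ᶠ v : HeightOneSpectrum (𝓞 K), (if (ℓ : 𝓞 K) ∈ v.asIdeal then (1 : ZMod ℓ)
      else (Ideal.absNorm v.asIdeal : ZMod ℓ) ^ (2 * ordAt v a)) =
      ((n : ZMod ℓ) / (m : ZMod ℓ)) ^ 2 := by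
    rw [finprod_eq_prod_of_mulSupport_subset (s := s)]
    · calc ∏ v ∈ s, (if (ℓ : 𝓞 K) ∈ v.asIdeal then (1 : ZMod ℓ)
            else (Ideal.absNorm v.asIdeal : ZMod ℓ) ^ (2 * ordAt v a))
          = ∏ v ∈ s, (if (ℓ : 𝓞 K) ∉ v.asIdeal then
              (Ideal.absNorm v.asIdeal : ZMod ℓ) ^ (2 * ordAt v a) else 1) :=
            Finset.prod_congr rfl (fun v _ => (ite_not _ _ _).symm)
        _ = ∏ v ∈ s₂, (Ideal.absNorm v.asIdeal : ZMod ℓ) ^ (2 * ordAt v a) :=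
            (Finset.prod_filter _ _).symm
        _ = ∏ v ∈ s₂, (((Ideal.absNorm v.asIdeal : ZMod ℓ) ^ (ordAt v a).toNat) /
              ((Ideal.absNorm v.asIdeal : ZMod ℓ) ^ (-ordAt v a).toNat)) ^ 2 := by
            refine Finset.prod_congr rfl (fun v _ => ?_)
            rw [← zpow_eq_pow_toNat_div, mul_comm, zpow_mul]
            exact zpow_ofNat _ 2
        _ = ((n : ZMod ℓ) / (m : ZMod ℓ)) ^ 2 := by
            rw [Finset.prod_pow, Finset.prod_div_distrib, hn, hm, Nat.cast_prod, Nat.cast_prod]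
            simp only [Nat.cast_pow]
    · intro v hv
      rw [Function.mem_mulSupport] at hv
      rw [Finset.mem_coe, hmem_s]
      intro h0
      apply hv
      rw [h0]
      simp
  rw [htarget]
  -- the product formula
  have hQ : ∃ kk : ℤ, |Algebra.norm ℚ a| = (ℓ : ℚ) ^ kk * ((n : ℚ) / (m : ℚ)) := by
    rw [abs_norm_eq_finprod_absNorm_zpow a ha, finprod_eq_prod_of_mulSupport_subset (s := s)]
    · rw [← Finset.prod_filter_mul_prod_filter_not s (fun v => (ℓ : 𝓞 K) ∈ v.asIdeal)]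
      have h1 : ∃ kk : ℤ, ∏ v ∈ s.filter (fun v => (ℓ : 𝓞 K) ∈ v.asIdeal),
          ((Ideal.absNorm v.asIdeal : ℕ) : ℚ) ^ (ordAt v a) = (ℓ : ℚ) ^ kk := by
        apply Finset.prod_induction _ (fun x => ∃ kk : ℤ, x = (ℓ : ℚ) ^ kk)
        · rintro x y ⟨k1, rfl⟩ ⟨k2, rfl⟩
          exact ⟨k1 + k2, (zpow_add₀ (by exact_mod_cast hℓ.ne_zero) _ _).symm⟩
        · exact ⟨0, by simp⟩
        · intro v hv
          rw [Finset.mem_filter] at hv
          obtain ⟨f, hf⟩ := exists_absNorm_eq_pow_of_natCast_mem hℓ v.asIdeal hv.2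
          exact ⟨f * ordAt v a, by rw [hf, Nat.cast_pow, ← zpow_natCast, ← zpow_mul]⟩
      obtain ⟨kk, hkk⟩ := h1
      refine ⟨kk, ?_⟩
      rw [hkk]
      congr 1
      rw [hn, hm, Nat.cast_prod, Nat.cast_prod, ← Finset.prod_div_distrib]
      refine Finset.prod_congr rfl (fun v _ => ?_)
      rw [Nat.cast_pow, Nat.cast_pow]
      exact zpow_eq_pow_toNat_div _ _
    · intro v hv
      rw [Function.mem_mulSupport] at hv
      rw [Finset.mem_coe, hmem_s]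
      intro h0
      apply hv
      rw [h0]
      simp
  obtain ⟨kk, hkk⟩ := hQ
  -- the sign
  obtain ⟨ε, hε, hr⟩ : ∃ ε : ℤ, (ε = 1 ∨ ε = -1) ∧
      Algebra.norm ℚ a = (ε : ℚ) * ((ℓ : ℚ) ^ kk * ((n : ℚ) / (m : ℚ))) := by
    rcases abs_choice (Algebra.norm ℚ a) with h1 | h1
    · exact ⟨1, Or.inl rfl, by rw [← hkk, h1]; simp⟩
    · refine ⟨-1, Or.inr rfl, ?_⟩
      rw [← hkk, h1]; simp
  -- nonvanishing in `L`
  have hℓL : (ℓ : L) ≠ 0 := Nat.cast_ne_zero.mpr hℓ.ne_zero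
  have hn0' : n ≠ 0 := by
    rintro h0
    rw [h0] at hn0
    exact hn0 (by simp)
  have hm0' : m ≠ 0 := by
    rintro h0
    rw [h0] at hm0
    exact hm0 (by simp)
  have hmL : (m : L) ≠ 0 := Nat.cast_ne_zero.mpr hm0'
  -- the equation in `L`
  have hL : (ℓ : L) ^ (J + kk.toNat) * ((V : L) * (ε : L) * (n : L)) =
      (ℓ : L) ^ (M + (-kk).toNat) * ((U : L) * (m : L)) := by
    rw [hr, zpow_eq_pow_toNat_div] at h
    simp only [map_mul, map_div₀, map_pow, map_natCast, map_intCast] at h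
    have hℓd : (ℓ : L) ^ (-kk).toNat ≠ 0 := pow_ne_zero _ hℓL
    field_simp at h
    rw [pow_add, pow_add]
    linear_combination h
  -- transfer to `𝓞 L`
  have hO : (ℓ : 𝓞 L) ^ (J + kk.toNat) * (V * (ε : 𝓞 L) * (n : 𝓞 L)) =
      (ℓ : 𝓞 L) ^ (M + (-kk).toNat) * (U * (m : 𝓞 L)) := by
    apply RingOfIntegers.coe_injective
    simpa only [map_mul, map_pow, map_natCast, map_intCast] using hL
  have h1𝔩 : (1 : 𝓞 L) ∉ 𝔩 := fun h1 =>
    (Ideal.IsPrime.ne_top inferInstance) ((Ideal.eq_top_iff_one _).mpr h1)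
  have hV𝔩 : V ∉ 𝔩 := fun hmem => h1𝔩 (by
    have := 𝔩.sub_mem hmem hV
    simpa using this)
  have hU𝔩 : U ∉ 𝔩 := fun hmem => h1𝔩 (by
    have := 𝔩.sub_mem hmem hU
    simpa using this)
  have hε𝔩 : (ε : 𝓞 L) ∉ 𝔩 := by
    rcases hε with rfl | rfl
    · simpa using h1𝔩
    · intro hmem
      apply h1𝔩
      have := 𝔩.neg_mem hmem
      simpa using this
  have hnat𝔩 : ∀ k : ℕ, (k : ZMod ℓ) ≠ 0 → (k : 𝓞 L) ∉ 𝔩 := by
    intro k hk hmem
    apply hk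
    rw [ZMod.natCast_eq_zero_iff]
    have := int_dvd_of_intCast_mem hℓ 𝔩 hℓ𝔩 (k : ℤ) (by simpa using hmem)
    exact Int.natCast_dvd_natCast.mp this
  have hX : V * (ε : 𝓞 L) * (n : 𝓞 L) ∉ 𝔩 := by
    intro hmem
    rcases Ideal.IsPrime.mem_or_mem inferInstance hmem with h2 | h2
    · rcases Ideal.IsPrime.mem_or_mem inferInstance h2 with h3 | h3
      · exact hV𝔩 h3
      · exact hε𝔩 h3
    · exact hnat𝔩 n hn0 h2
  have hY : U * (m : 𝓞 L) ∉ 𝔩 := by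
    intro hmem
    rcases Ideal.IsPrime.mem_or_mem inferInstance hmem with h2 | h2
    · exact hU𝔩 h2
    · exact hnat𝔩 m hm0 h2
  have hℓO : (ℓ : 𝓞 L) ≠ 0 := Nat.cast_ne_zero.mpr hℓ.ne_zero
  have hXY := eq_of_pow_mul_eq_pow_mul 𝔩 hℓ𝔩 hℓO hX hY hO
  -- reduce modulo `𝔩`
  have hmem : ((ε * n - m : ℤ) : 𝓞 L) ∈ 𝔩 := by
    have h2 : ((ε * n - m : ℤ) : 𝓞 L) =
        (U - 1) * (m : 𝓞 L) - (V - 1) * ((ε : 𝓞 L) * (n : 𝓞 L)) := by
      push_cast
      linear_combination hXY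
    rw [h2]
    exact 𝔩.sub_mem (𝔩.mul_mem_right _ hU) (𝔩.mul_mem_right _ hV)
  have hdvd := int_dvd_of_intCast_mem hℓ 𝔩 hℓ𝔩 _ hmem
  have hz : ((ε * n - m : ℤ) : ZMod ℓ) = 0 := (ZMod.intCast_zmod_eq_zero_iff_dvd _ _).mpr hdvd
  push_cast at hz
  have hmn : (m : ZMod ℓ) = (ε : ZMod ℓ) * (n : ZMod ℓ) := (sub_eq_zero.mp hz).symm
  rw [hmn]
  rcases hε with rfl | rfl
  · simp only [Int.cast_one, one_mul]
    rw [div_self hn0, one_pow]
  · simp only [Int.cast_neg, Int.cast_one, neg_mul, one_mul]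
    rw [div_neg, div_self hn0]
    ring

end NormCongr

end Fermat.Agent.CFT.Recip
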