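import Mathlib
import Fermat.Agent.CFT.Recip.Defs
import Fermat.Agent.CFT.Recip.OmegaDefs

/-!
# RECIP: the crossing field `Ω = L(ζ_ℓ)` feeds the Hasse norm theorem

`K ⊆ L ⊆ Ω` number fields, `c : CrossData K L Ω p ℓ`, `L/K` unramified everywhere.

* `omega_sigma_pow_eq_one_of_inertia`: a power of `σ` lying in the inertia group of a prime of
  `Ω` is trivial (so `Ω` is unramified everywhere over the fixed field of `σ`).
* `omega_dvd_of_sigma_pow_fixes`: if `q` is not a `p`-th power modulo `ℓ` and `𝔓` is a prime of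
  `Ω` over a prime of `K` of absolute norm `q`, then `σ ^ i • 𝔓 = 𝔓` implies `p ∣ i`.
-/

set_option autoImplicit false

open NumberField

open scoped Pointwise

namespace Fermat.Agent.CFT.Recip

section

variable {K L Ω : Type*} [Field K] [Field L] [Field Ω] [NumberField K] [NumberField L]
  [NumberField Ω] [Algebra K L] [Algebra L Ω] [Algebra K Ω] [IsScalarTower K L Ω] {p ℓ : ℕ}

/-- Restriction to `L` of an automorphism of `Ω/K`, on rings of integers. -/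
theorem omega_restrict_apply [Normal K L] (h : Ω ≃ₐ[K] Ω) (x : 𝓞 L) :
    algebraMap (𝓞 L) (𝓞 Ω) (h.restrictNormal L • x) = h • algebraMap (𝓞 L) (𝓞 Ω) x := by
  apply Subtype.ext
  exact h.restrictNormal_commutes L (x : L)

/-- If `h ∈ Gal(Ω/K)` lies in the inertia group of `𝔓` and `L/K` is unramified everywhere,
then `h` is trivial on `L`. -/
theorem omega_restrict_eq_one_of_inertia [Normal K L] (hunr : UnramifiedEverywhere K L)
    (𝔓 : Ideal (𝓞 Ω)) [𝔓.IsPrime] (h𝔓 : 𝔓 ≠ ⊥) (h : Ω ≃ₐ[K] Ω)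
    (hh : ∀ x : 𝓞 Ω, h • x - x ∈ 𝔓) : h.restrictNormal L = 1 := by
  have hmem : h.restrictNormal L ∈ (𝔓.under (𝓞 L)).inertia (L ≃ₐ[K] L) := by
    intro x
    show algebraMap (𝓞 L) (𝓞 Ω) (h.restrictNormal L • x - x) ∈ 𝔓
    rw [map_sub, omega_restrict_apply]
    exact hh _
  have hne : 𝔓.under (𝓞 L) ≠ ⊥ := Ideal.under_ne_bot (𝓞 L) h𝔓
  rw [hunr (𝔓.under (𝓞 L)) inferInstance hne] at hmem
  exact Subgroup.mem_bot.mp hmem

/-- A power of `σ` lying in an inertia group of `Ω/K` is trivial. -/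
theorem omega_sigma_pow_eq_one_of_inertia [Normal K L] (c : CrossData K L Ω p ℓ)
    (hunr : UnramifiedEverywhere K L) (𝔓 : Ideal (𝓞 Ω)) [𝔓.IsPrime] (h𝔓 : 𝔓 ≠ ⊥) (i : ℕ)
    (hi : ∀ x : 𝓞 Ω, (c.σ ^ i) • x - x ∈ 𝔓) : c.σ ^ i = 1 := by
  have h1 := omega_restrict_eq_one_of_inertia hunr 𝔓 h𝔓 (c.σ ^ i) hi
  have h2 : p ∣ i := by
    apply c.σ_L
    intro x
    rw [← (c.σ ^ i).restrictNormal_commutes L x, h1]
    rfl
  obtain ⟨k, rfl⟩ := h2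
  have h3 : c.σ ^ p = 1 := by
    have := pow_orderOf_eq_one c.σ
    rwa [c.σ_order] at this
  rw [pow_mul, h3, one_pow]

/-- Every element of `Gal(L/K)` is killed by `p`. -/
theorem omega_gal_pow_eq_one [Normal K L] [Normal K Ω] (c : CrossData K L Ω p ℓ)
    (t : L ≃ₐ[K] L) : t ^ p = 1 := by
  obtain ⟨a, b, hab⟩ := c.gen (t.liftNormal Ω)
  have hσp : c.σ ^ p = 1 := by
    have := pow_orderOf_eq_one c.σ
    rwa [c.σ_order] at this
  have hcomm : Commute (c.σ ^ a) (c.τ ^ b) := (show Commute c.σ c.τ from c.comm).pow_pow a b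
  have h1 : (t.liftNormal Ω) ^ p = (c.τ ^ b) ^ p := by
    rw [hab, hcomm.mul_pow, ← pow_mul, mul_comm a p, pow_mul, hσp, one_pow, one_mul]
  have hτ : ∀ (n : ℕ) (x : L), (c.τ ^ n) (algebraMap L Ω x) = algebraMap L Ω x := by
    intro n
    induction n with
    | zero => intro x; simp
    | succ n ih => intro x; rw [pow_succ, AlgEquiv.mul_apply, c.τ_L, ih]
  have hlift : ∀ (n : ℕ) (x : L), ((t.liftNormal Ω) ^ n) (algebraMap L Ω x) =
      algebraMap L Ω ((t ^ n) x) := by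
    intro n
    induction n with
    | zero => intro x; simp
    | succ n ih =>
      intro x
      rw [pow_succ, AlgEquiv.mul_apply, t.liftNormal_commutes Ω, ih, pow_succ, AlgEquiv.mul_apply]
  ext x
  apply (algebraMap L Ω).injective
  rw [← hlift, h1, ← pow_mul, hτ]
  rfl

/-- In a finite field extension `κ / k` every `k`-automorphism of `κ` is a power of the
Frobenius `x ↦ x ^ #k`. -/
theorem omega_exists_frob_pow {k κ : Type*} [Field k] [Field κ] [Finite κ] [Algebra k κ]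
    (f : κ ≃ₐ[k] κ) : ∃ m : ℕ, ∀ x : κ, f x = x ^ (Nat.card k ^ m) := by
  have hk : Finite k := Finite.of_injective _ (algebraMap k κ).injective
  have := Fintype.ofFinite k
  obtain ⟨n, hn⟩ := (FiniteField.bijective_frobeniusAlgEquivOfAlgebraic_pow k κ).2 f
  refine ⟨n.1, fun x => ?_⟩
  have h1 : f = FiniteField.frobeniusAlgEquivOfAlgebraic k κ ^ n.1 := hn.symm
  rw [h1, AlgEquiv.coe_pow, FiniteField.coe_frobeniusAlgEquivOfAlgebraic_iterate,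
    Nat.card_eq_fintype_card]

/-- If `u ^ m = 1` in the field `ZMod ℓ` with `m` prime to `p`, then `u` is a `p`-th power. -/
theorem omega_exists_pow_eq {ℓ : ℕ} [Fact ℓ.Prime] {p m : ℕ} (hp : p ≠ 0)
    (hpm : Nat.Coprime p m) (u : ZMod ℓ) (hu : u ^ m = 1) : ∃ x : ZMod ℓ, x ^ p = u := by
  by_cases hu0 : u = 0
  · exact ⟨0, by rw [hu0, zero_pow hp]⟩
  let U : (ZMod ℓ)ˣ := Units.mk0 u hu0
  have hU : U ^ m = 1 := by
    apply Units.ext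
    simpa [U] using hu
  have hb : (1 : ℤ) = p * Nat.gcdA p m + m * Nat.gcdB p m := by
    have := Nat.gcd_eq_gcd_ab p m
    rw [hpm.gcd_eq_one] at this
    exact_mod_cast this
  refine ⟨((U ^ (Nat.gcdA p m) : (ZMod ℓ)ˣ) : ZMod ℓ), ?_⟩
  have h1 : (U ^ (Nat.gcdA p m)) ^ p = U := by
    calc (U ^ (Nat.gcdA p m)) ^ p = U ^ ((Nat.gcdA p m) * (p : ℤ)) := by
          rw [zpow_mul, zpow_natCast]
      _ = U ^ ((p : ℤ) * Nat.gcdA p m + m * Nat.gcdB p m) := by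
          rw [zpow_add, zpow_mul U (m : ℤ), zpow_natCast, hU, one_zpow, mul_one, mul_comm]
      _ = U := by rw [← hb, zpow_one]
  have h3 := congrArg (fun v : (ZMod ℓ)ˣ => (v : ZMod ℓ)) h1
  simpa [U] using h3

/-- `σ ^ i` fixes `ζ`. -/
theorem omega_sigma_pow_zeta (c : CrossData K L Ω p ℓ) (i : ℕ) : (c.σ ^ i) c.ζ = c.ζ := by
  induction i with
  | zero => simp
  | succ n ih => rw [pow_succ, AlgEquiv.mul_apply, c.σ_ζ, ih]

/-- If a prime ideal contains `ζ - ζ ^ N` for a primitive `ℓ`-th root of unity `ζ` (`ℓ` prime)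
but not `ℓ`, then `N ≡ 1 mod ℓ`. -/
theorem omega_natCast_eq_one_of_sub_mem {R : Type*} [CommRing R] [IsDomain R] {ℓ : ℕ}
    (hℓ : ℓ.Prime) {ζ : R} (hζ : IsPrimitiveRoot ζ ℓ) (P : Ideal R) [P.IsPrime]
    (hℓP : (ℓ : R) ∉ P) (N : ℕ) (hN : 0 < N) (h : ζ - ζ ^ N ∈ P) : (N : ZMod ℓ) = 1 := by
  by_contra hne
  have hnd : ¬ ℓ ∣ N - 1 := by
    intro hd
    apply hne
    have h1 : ((N - 1 : ℕ) : ZMod ℓ) = 0 := (ZMod.natCast_eq_zero_iff _ _).mpr hd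
    have h2 : N = (N - 1) + 1 := by omega
    rw [h2, Nat.cast_add, h1, zero_add, Nat.cast_one]
  have hcop : Nat.Coprime (N - 1) ℓ := ((Nat.Prime.coprime_iff_not_dvd hℓ).mpr hnd).symm
  have hη := hζ.pow_of_coprime (N - 1) hcop
  have hfac : ζ - ζ ^ N = ζ * (1 - ζ ^ (N - 1)) := by
    have h2 : N = (N - 1) + 1 := by omega
    conv_lhs => rw [h2, pow_succ]
    ring
  rw [hfac] at h
  have hζP : ζ ∉ P := by
    intro hmem
    have h1 : ζ ^ ℓ ∈ P := Ideal.pow_mem_of_mem P hmem ℓ hℓ.pos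
    rw [hζ.pow_eq_one] at h1
    exact (Ideal.IsPrime.ne_top inferInstance) ((Ideal.eq_top_iff_one P).mpr h1)
  have h1 : 1 - ζ ^ (N - 1) ∈ P := (Ideal.IsPrime.mem_or_mem inferInstance h).resolve_left hζP
  have hℓ' : ℓ = (ℓ - 1) + 1 := by have := hℓ.pos; omega
  have hη' : IsPrimitiveRoot (ζ ^ (N - 1)) ((ℓ - 1) + 1) := by rw [← hℓ']; exact hη
  have hprod := IsPrimitiveRoot.prod_one_sub_pow_eq_order hη'
  have hpos : 0 < ℓ - 1 := by have := hℓ.two_le; omega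
  have hdvd : (1 - (ζ ^ (N - 1)) ^ (0 + 1)) ∣
      ∏ k ∈ Finset.range (ℓ - 1), (1 - (ζ ^ (N - 1)) ^ (k + 1)) :=
    Finset.dvd_prod_of_mem _ (Finset.mem_range.mpr hpos)
  rw [hprod, zero_add, pow_one] at hdvd
  apply hℓP
  have h3 : (ℓ : R) = ((ℓ - 1 : ℕ) : R) + 1 := by
    conv_lhs => rw [hℓ']
    push_cast
    rfl
  rw [h3]
  exact Ideal.mem_of_dvd P hdvd h1

/-- Powers of a Frobenius-like element: if `t • x ≡ x ^ q` modulo `Q` for all `x`, then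
`t ^ n • x ≡ x ^ (q ^ n)`. -/
theorem omega_frob_pow {S G : Type*} [CommRing S] [Group G] [MulSemiringAction G S]
    (Q : Ideal S) (t : G) (q : ℕ) (ht : ∀ x : S, t • x - x ^ q ∈ Q) (n : ℕ) (x : S) :
    (t ^ n) • x - x ^ (q ^ n) ∈ Q := by
  induction n generalizing x with
  | zero => simp
  | succ n ih =>
    have h1 := ih (t • x)
    have h2 : (t • x) ^ (q ^ n) - (x ^ q) ^ (q ^ n) ∈ Q :=
      Ideal.mem_of_dvd Q (sub_dvd_pow_sub_pow _ _ _) (ht x)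
    have h3 := Q.add_mem h1 h2
    have e1 : (t ^ (n + 1)) • x = (t ^ n) • (t • x) := by rw [pow_succ, mul_smul]
    have e2 : x ^ (q ^ (n + 1)) = (x ^ q) ^ (q ^ n) := by rw [pow_succ', pow_mul]
    rw [e1, e2]
    convert h3 using 1
    ring

/-- **The decomposition groups at the primes over `q` avoid `σ`.**  If `q` is not a `p`-th power
modulo `ℓ` and `𝔓` is a prime of `Ω` over a prime of `K` of absolute norm `q`, then
`σ ^ i • 𝔓 = 𝔓` implies `p ∣ i`. -/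
theorem omega_dvd_of_sigma_pow_fixes [IsGalois K L] [IsGalois K Ω] (c : CrossData K L Ω p ℓ)
    (hp : p.Prime) (hℓ : ℓ.Prime) (hunr : UnramifiedEverywhere K L) (q : ℕ) (hq : q.Prime)
    (hqℓ : q ≠ ℓ) (hpow : ¬ ∃ x : ZMod ℓ, x ^ p = (q : ZMod ℓ))
    (𝔓 : Ideal (𝓞 Ω)) [𝔓.IsPrime] (h𝔓 : 𝔓 ≠ ⊥) (hN : Ideal.absNorm (𝔓.under (𝓞 K)) = q)
    (i : ℕ) (hi : (c.σ ^ i) • 𝔓 = 𝔓) : p ∣ i := by
  haveI : Fact ℓ.Prime := ⟨hℓ⟩
  -- residue fields
  have hcard : Nat.card (𝓞 K ⧸ 𝔓.under (𝓞 K)) = q := by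
    rw [← hN, Ideal.absNorm_apply, Submodule.cardQuot_apply]
  haveI : 𝔓.IsMaximal := Ideal.IsPrime.isMaximal inferInstance h𝔓
  have h𝔯0 : 𝔓.under (𝓞 K) ≠ ⊥ := Ideal.under_ne_bot (𝓞 K) h𝔓
  haveI : (𝔓.under (𝓞 K)).IsMaximal := Ideal.IsPrime.isMaximal inferInstance h𝔯0
  letI := Ideal.Quotient.field 𝔓
  letI := Ideal.Quotient.field (𝔓.under (𝓞 K))
  haveI : Finite (𝓞 Ω ⧸ 𝔓) := Ideal.finiteQuotientOfFreeOfNeBot 𝔓 h𝔓
  -- the automorphism of the residue field induced by `σ ^ i`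
  let hs : MulAction.stabilizer (Ω ≃ₐ[K] Ω) 𝔓 := ⟨c.σ ^ i, hi⟩
  obtain ⟨m, hm⟩ := omega_exists_frob_pow
    (Ideal.Quotient.stabilizerHom 𝔓 (𝔓.under (𝓞 K)) (Ω ≃ₐ[K] Ω) hs)
  rw [hcard] at hm
  have hm' : ∀ x : 𝓞 Ω, (c.σ ^ i) • x - x ^ (q ^ m) ∈ 𝔓 := by
    intro x
    have := hm (Ideal.Quotient.mk 𝔓 x)
    rw [Ideal.Quotient.stabilizerHom_apply, ← map_pow, Ideal.Quotient.eq] at this
    exact this
  -- the root of unity
  have hζint : IsIntegral ℤ c.ζ := c.hζ.isIntegral hℓ.pos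
  let ζ' : 𝓞 Ω := ⟨c.ζ, hζint⟩
  have hζ' : IsPrimitiveRoot ζ' ℓ := by
    have h1 : IsPrimitiveRoot (algebraMap (𝓞 Ω) Ω ζ') ℓ := c.hζ
    exact IsPrimitiveRoot.of_map_of_injective (f := algebraMap (𝓞 Ω) Ω)
      h1 (FaithfulSMul.algebraMap_injective (𝓞 Ω) Ω)
  have hfix : (c.σ ^ i) • ζ' = ζ' := Subtype.ext (omega_sigma_pow_zeta c i)
  have hqP : (q : 𝓞 Ω) ∈ 𝔓 := by
    have h1 : ((Ideal.absNorm (𝔓.under (𝓞 K)) : ℕ) : 𝓞 K) ∈ 𝔓.under (𝓞 K) := Ideal.absNorm_mem _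
    rw [hN] at h1
    have h2 : algebraMap (𝓞 K) (𝓞 Ω) (q : 𝓞 K) ∈ 𝔓 := h1
    simpa using h2
  have hℓP : (ℓ : 𝓞 Ω) ∉ 𝔓 := by
    intro hmem
    have hcop : Nat.Coprime q ℓ := (Nat.coprime_primes hq hℓ).mpr hqℓ
    obtain ⟨a, b, hab⟩ := Nat.Coprime.isCoprime hcop
    have h1 : (((a * q + b * ℓ : ℤ)) : 𝓞 Ω) ∈ 𝔓 := by
      push_cast
      exact 𝔓.add_mem (𝔓.mul_mem_left _ hqP) (𝔓.mul_mem_left _ hmem)
    rw [hab] at h1
    have h2 : (1 : 𝓞 Ω) ∈ 𝔓 := by simpa using h1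
    exact (Ideal.IsPrime.ne_top inferInstance) ((Ideal.eq_top_iff_one 𝔓).mpr h2)
  have hqm : ((q ^ m : ℕ) : ZMod ℓ) = 1 := by
    apply omega_natCast_eq_one_of_sub_mem hℓ hζ' 𝔓 hℓP (q ^ m) (pow_pos hq.pos m)
    have := hm' ζ'
    rwa [hfix] at this
  -- `p ∣ m`
  have hpm : p ∣ m := by
    by_contra hnd
    have hcop : Nat.Coprime p m := (Nat.Prime.coprime_iff_not_dvd hp).mpr hnd
    exact hpow (omega_exists_pow_eq hp.ne_zero hcop (q : ZMod ℓ)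
      (by rw [← Nat.cast_pow]; exact hqm))
  -- restriction to `L`
  have h𝔓L0 : 𝔓.under (𝓞 L) ≠ ⊥ := Ideal.under_ne_bot (𝓞 L) h𝔓
  have hLm : ∀ x : 𝓞 L, (c.σ ^ i).restrictNormal L • x - x ^ (q ^ m) ∈ 𝔓.under (𝓞 L) := by
    intro x
    show algebraMap (𝓞 L) (𝓞 Ω) ((c.σ ^ i).restrictNormal L • x - x ^ (q ^ m)) ∈ 𝔓
    rw [map_sub, omega_restrict_apply, map_pow]
    exact hm' _
  -- a Frobenius element of `𝔓 ∩ L`
  haveI : Finite (𝓞 L ⧸ 𝔓.under (𝓞 L)) := Ideal.finiteQuotientOfFreeOfNeBot _ h𝔓L0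
  obtain ⟨t, ht⟩ := IsArithFrobAt.exists_of_isInvariant (𝓞 K) (L ≃ₐ[K] L) (𝔓.under (𝓞 L))
  have hunder : (𝔓.under (𝓞 L)).under (𝓞 K) = 𝔓.under (𝓞 K) := Ideal.under_under 𝔓
  have ht' : ∀ x : 𝓞 L, t • x - x ^ q ∈ 𝔓.under (𝓞 L) := by
    intro x
    have := ht x
    rw [hunder, hcard] at this
    exact this
  have htm := omega_frob_pow (𝔓.under (𝓞 L)) t q ht' m
  have hmem : (c.σ ^ i).restrictNormal L * (t ^ m)⁻¹ ∈
      (𝔓.under (𝓞 L)).inertia (L ≃ₐ[K] L) := by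
    intro x
    have h1 := hLm ((t ^ m)⁻¹ • x)
    have h2 := htm ((t ^ m)⁻¹ • x)
    rw [smul_inv_smul] at h2
    have h3 := (𝔓.under (𝓞 L)).sub_mem h1 h2
    have e : ((c.σ ^ i).restrictNormal L * (t ^ m)⁻¹) • x - x =
        (c.σ ^ i).restrictNormal L • (t ^ m)⁻¹ • x - ((t ^ m)⁻¹ • x) ^ q ^ m -
          (x - ((t ^ m)⁻¹ • x) ^ q ^ m) := by
      rw [mul_smul]
      ring
    show ((c.σ ^ i).restrictNormal L * (t ^ m)⁻¹) • x - x ∈ 𝔓.under (𝓞 L)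
    rw [e]
    exact h3
  rw [hunr (𝔓.under (𝓞 L)) inferInstance h𝔓L0, Subgroup.mem_bot, mul_inv_eq_one] at hmem
  obtain ⟨m', rfl⟩ := hpm
  have hL1 : (c.σ ^ i).restrictNormal L = 1 := by
    rw [hmem, pow_mul, omega_gal_pow_eq_one c t, one_pow]
  -- conclusion
  apply c.σ_L
  intro x
  rw [← (c.σ ^ i).restrictNormal_commutes L x, hL1]
  rfl

/-- `σ` moves every prime of `Ω` lying over a prime of `K` of absolute norm `q`, when `q` is not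
a `p`-th power modulo `ℓ` (the splitting hypothesis of the Hasse norm theorem for `Ω / Ω^σ`). -/
theorem omega_sigma_smul_ne [IsGalois K L] [IsGalois K Ω] (c : CrossData K L Ω p ℓ)
    (hp : p.Prime) (hℓ : ℓ.Prime) (hunr : UnramifiedEverywhere K L) (q : ℕ) (hq : q.Prime)
    (hqℓ : q ≠ ℓ) (hpow : ∀ x : ZMod ℓ, x ^ p ≠ (q : ZMod ℓ))
    (𝔓 : Ideal (𝓞 Ω)) [𝔓.IsPrime] (h𝔓 : 𝔓 ≠ ⊥) (hN : Ideal.absNorm (𝔓.under (𝓞 K)) = q) :
    c.σ • 𝔓 ≠ 𝔓 := by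
  intro h
  have h1 : (c.σ ^ 1) • 𝔓 = 𝔓 := by rw [pow_one]; exact h
  have h2 := omega_dvd_of_sigma_pow_fixes c hp hℓ hunr q hq hqℓ
    (fun ⟨x, hx⟩ => hpow x hx) 𝔓 h𝔓 hN 1 h1
  exact hp.one_lt.ne' (Nat.dvd_one.mp h2)

end

end Fermat.Agent.CFT.Recip
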