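/-
Transgression bookkeeping for the reciprocity step (CFT project, S14), abstract form.

`f i k` and `h i k` play the roles of `v_𝔓(σ^i τ^k z)` and `v_𝔓(σ^i τ^k w)`, where `σ`, `τ` are
commuting automorphisms, `∏_{j<p} σ^j z = γ`, `∏_{l<n} τ^l w = a`, `τ z * w = σ w * z`, and
`σ^d τ^e` stabilises `𝔓`.  Conclusion: `p * n ∣ n * d * v(γ) + p * e * v(a)`.
-/
import Mathlib

set_option autoImplicit false

namespace Fermat.Agent.CFT.Recip

section Potential

variable (f h : ℕ → ℕ → ℤ)

/-- The discrete potential of the closed `1`-form `(f, h)` on `ℕ × ℕ`. -/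
def potential (i k : ℕ) : ℤ :=
  ∑ j ∈ Finset.range i, f j 0 + ∑ l ∈ Finset.range k, h i l

theorem potential_succ_right (i k : ℕ) :
    potential f h i (k + 1) - potential f h i k = h i k := by
  simp only [potential, Finset.sum_range_succ]
  ring

variable {f h}

theorem potential_succ_left (hcurl : ∀ i k, f i (k + 1) - f i k = h (i + 1) k - h i k)
    (i k : ℕ) : potential f h (i + 1) k - potential f h i k = f i k := by
  have key : ∀ k, ∑ l ∈ Finset.range k, h (i + 1) l - ∑ l ∈ Finset.range k, h i l =
      f i k - f i 0 := by
    intro k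
    induction k with
    | zero => simp
    | succ k ih =>
      rw [Finset.sum_range_succ, Finset.sum_range_succ]
      have := hcurl i k
      linarith
  have := key k
  simp only [potential, Finset.sum_range_succ]
  linarith

/-- Moving `m` steps in the first coordinate. -/
theorem potential_add_left (hcurl : ∀ i k, f i (k + 1) - f i k = h (i + 1) k - h i k)
    (i k m : ℕ) :
    potential f h (i + m) k - potential f h i k = ∑ j ∈ Finset.range m, f (i + j) k := by
  induction m with
  | zero => simp
  | succ m ih =>
    rw [Finset.sum_range_succ, ← ih, ← potential_succ_left hcurl (i + m) k, add_assoc]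
    ring

/-- Moving `m` steps in the second coordinate. -/
theorem potential_add_right (i k m : ℕ) :
    potential f h i (k + m) - potential f h i k = ∑ l ∈ Finset.range m, h i (k + l) := by
  induction m with
  | zero => simp
  | succ m ih =>
    rw [Finset.sum_range_succ, ← ih, ← potential_succ_right f h i (k + m), add_assoc]
    ring

end Potential

/-- **Transgression lemma (abstract form).**  Let `f h : ℕ → ℕ → ℤ` satisfy the cocycle relation
`f i (k+1) - f i k = h (i+1) k - h i k`, have constant sums `A` over `p` consecutive first indices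
(for `f`) and `B` over `n` consecutive second indices (for `h`), and be invariant under the shift
`(d, e)`.  Then `p * n ∣ n * d * A + p * e * B`. -/
theorem transgression_dvd (p n d e : ℕ) (f h : ℕ → ℕ → ℤ) (A B : ℤ)
    (hcurl : ∀ i k, f i (k + 1) - f i k = h (i + 1) k - h i k)
    (hA : ∀ i k, ∑ j ∈ Finset.range p, f (i + j) k = A)
    (hB : ∀ i k, ∑ l ∈ Finset.range n, h i (k + l) = B)
    (hf : ∀ i k, f (i + d) (k + e) = f i k) (hh : ∀ i k, h (i + d) (k + e) = h i k) :
    ((p : ℤ) * n) ∣ n * d * A + p * e * B := by
  set Ψ := potential f h with hΨ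
  -- periods
  have hperA : ∀ i k, Ψ (i + p) k - Ψ i k = A := fun i k => by
    rw [hΨ, potential_add_left hcurl, hA]
  have hperB : ∀ i k, Ψ i (k + n) - Ψ i k = B := fun i k => by
    rw [hΨ, potential_add_right, hB]
  have hperA' : ∀ (t i k : ℕ), Ψ (i + t * p) k - Ψ i k = t * A := by
    intro t
    induction t with
    | zero => intro i k; simp
    | succ t ih =>
      intro i k
      have h1 := ih i k
      have h2 := hperA (i + t * p) k
      rw [show i + (t + 1) * p = i + t * p + p by ring]
      push_cast
      linarith
  have hperB' : ∀ (t i k : ℕ), Ψ i (k + t * n) - Ψ i k = t * B := by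
    intro t
    induction t with
    | zero => intro i k; simp
    | succ t ih =>
      intro i k
      have h1 := ih i k
      have h2 := hperB i (k + t * n)
      rw [show k + (t + 1) * n = k + t * n + n by ring]
      push_cast
      linarith
  -- the jump under `(d, e)` is constant
  have hjump1 : ∀ i k, Ψ (i + 1 + d) (k + e) - Ψ (i + 1) k = Ψ (i + d) (k + e) - Ψ i k := by
    intro i k
    have h1 := potential_succ_left hcurl (i + d) (k + e)
    have h2 := potential_succ_left hcurl i k
    rw [show i + 1 + d = i + d + 1 by ring]
    rw [← hΨ] at h1 h2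
    have := hf i k
    linarith
  have hjump2 : ∀ i k, Ψ (i + d) (k + 1 + e) - Ψ i (k + 1) = Ψ (i + d) (k + e) - Ψ i k := by
    intro i k
    have h1 := potential_succ_right f h (i + d) (k + e)
    have h2 := potential_succ_right f h i k
    rw [show k + 1 + e = k + e + 1 by ring]
    rw [← hΨ] at h1 h2
    have := hh i k
    linarith
  have hjump : ∀ i k, Ψ (i + d) (k + e) - Ψ i k = Ψ d e - Ψ 0 0 := by
    intro i
    induction i with
    | zero =>
      intro k
      induction k with
      | zero => simp
      | succ k ih => rw [hjump2 0 k, ih]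
    | succ i ih =>
      intro k
      rw [hjump1 i k, ih]
  set c := Ψ d e - Ψ 0 0 with hc
  have hsteps : ∀ t : ℕ, Ψ (t * d) (t * e) - Ψ 0 0 = t * c := by
    intro t
    induction t with
    | zero => simp
    | succ t ih =>
      have h1 := hjump (t * d) (t * e)
      rw [show (t + 1) * d = t * d + d by ring, show (t + 1) * e = t * e + e by ring]
      push_cast
      linarith
  -- compare the two ways from `(0, 0)` to `(p n d, p n e)`
  have e1 := hsteps (p * n)
  have e2 := hperA' (n * d) 0 0
  have e3 := hperB' (p * e) (p * n * d) 0
  rw [show 0 + n * d * p = p * n * d by ring] at e2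
  rw [show 0 + p * e * n = p * n * e by ring] at e3
  refine ⟨c, ?_⟩
  push_cast at e1 e2 e3 ⊢
  linarith

end Fermat.Agent.CFT.Recip
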